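import Mathlib
import Fermat.Prelude.Def_FLTPrelim_Ramification
import Fermat.Prelude.Def_GaloisRep_Flat
import Fermat.Agent.Galois.Places

/-!
A valuation subring of a finite Galois extension of `ℚ` and its conjugates: approximation,
inertia, and the character matrix used in the descent from the inertia field.
-/

set_option autoImplicit false
set_option linter.unusedSectionVars false

noncomputable section

open Polynomial IsLocalRing
open scoped Pointwise

namespace Fermat.Agent.FlatJ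

variable {L : Type} [Field L] [CharZero L] [Algebra.IsAlgebraic ℚ L] {ℓ : ℕ}
variable (P : ValuationSubring L)

theorem valuation_ratCast (hP : P.LiesOverPrime ℓ) (hℓ : ℓ.Prime) {r : ℚ} (hr : r ≠ 0) :
    ∃ m : ℤ, P.valuation (r : L) = P.valuation (ℓ : L) ^ m := by
  have hℓ' : (ℓ : ℚ) ≠ 0 := Nat.cast_ne_zero.2 hℓ.ne_zero
  have hnat : ∀ n : ℕ, n ≠ 0 → ∃ k : ℕ, P.valuation (n : L) = P.valuation (ℓ : L) ^ k := by
    intro n hn
    obtain ⟨e, u, hu, rfl⟩ := Nat.exists_eq_pow_mul_and_not_dvd hn ℓ hℓ.ne_one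
    refine ⟨e, ?_⟩
    have h1 : P.valuation (u : L) = 1 :=
      ((P.valuation_le_one_iff _).2 (natCast_mem P u)).antisymm
        (not_lt.1 fun h => hu ((Galois.place_natCast_mem_nonunits_iff hP hℓ u).1 h))
    push_cast
    rw [map_mul, map_pow, h1, mul_one]
  obtain ⟨a, ha⟩ := hnat r.num.natAbs (by simpa using hr)
  obtain ⟨b, hb⟩ := hnat r.den r.den_nz
  refine ⟨(a : ℤ) - b, ?_⟩
  have hnum : P.valuation (r.num : L) = P.valuation (r.num.natAbs : L) := by
    rcases Int.natAbs_eq r.num with h | h <;> conv_lhs => rw [h]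
    · simp
    · simp
  have hv : P.valuation (ℓ : L) ≠ 0 := by simpa using hℓ.ne_zero
  rw [Rat.cast_def, map_div₀, hnum, ha, hb, zpow_sub₀ hv, zpow_natCast, zpow_natCast]

/-- powers of a non-unit are divisible by `ℓ`, and `ℓ`-powers clear every denominator. -/
theorem exists_valuation_pow_eq (hP : P.LiesOverPrime ℓ) (hℓ : ℓ.Prime) {z : L} (hz : z ≠ 0) :
    ∃ (n : ℕ) (m : ℤ), 0 < n ∧ P.valuation z ^ n = P.valuation (ℓ : L) ^ m := by
  classical
  obtain ⟨f, hf0, hfz⟩ := (Algebra.IsAlgebraic.isAlgebraic (R := ℚ) z)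
  by_contra hne
  push Not at hne
  let t : ℕ → L := fun i => (f.coeff i : L) * z ^ i
  have hsum : ∑ i ∈ f.support, t i = 0 := by
    rw [← hfz, aeval_def, eval₂_eq_sum, Polynomial.sum_def]
    rfl
  have hsupp : f.support.Nonempty := Polynomial.support_nonempty.2 hf0
  obtain ⟨j, hj, hjmax⟩ := f.support.exists_max_image (fun i => P.valuation (t i)) hsupp
  have htne : P.valuation (t j) ≠ 0 := by
    simp [t, hz, Polynomial.mem_support_iff.1 hj]
  have hdist : ∀ i ∈ f.support, ∀ k ∈ f.support, i < k →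
      P.valuation (t i) ≠ P.valuation (t k) := by
    intro i hi k hk hik heq
    obtain ⟨a, ha⟩ := valuation_ratCast P hP hℓ (Polynomial.mem_support_iff.1 hi)
    obtain ⟨b, hb⟩ := valuation_ratCast P hP hℓ (Polynomial.mem_support_iff.1 hk)
    have hv : P.valuation (ℓ : L) ≠ 0 := by simpa using hℓ.ne_zero
    refine hne (k - i) (a - b) (by omega) ?_
    have hzv : P.valuation z ≠ 0 := by simpa using hz
    simp only [t, map_mul, map_pow, ha, hb] at heq
    rw [show k = (k - i) + i by omega, pow_add, ← mul_assoc] at heq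
    have := mul_right_cancel₀ (pow_ne_zero i hzv) heq
    rw [zpow_sub₀ hv, this, mul_div_cancel_left₀ _ (zpow_ne_zero b hv)]
  have hlt : ∀ i ∈ f.support, i ≠ j → P.valuation (t i) < P.valuation (t j) := by
    intro i hi hij
    refine lt_of_le_of_ne (hjmax i hi) ?_
    rcases hij.lt_or_gt with h | h
    · exact hdist i hi j hj h
    · exact (hdist j hj i hi h).symm
  have := P.valuation.map_sum_eq_of_lt hj (f := t) (fun i hi => by
    simp only [Finset.mem_sdiff, Finset.mem_singleton] at hi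
    exact hlt i hi.1 hi.2)
  rw [hsum, map_zero] at this
  exact htne this.symm

theorem exists_pow_mul_mem (hP : P.LiesOverPrime ℓ) (hℓ : ℓ.Prime) (w : L) :
    ∃ k : ℕ, (ℓ : L) ^ k * w ∈ P := by
  rcases eq_or_ne w 0 with rfl | hw
  · exact ⟨0, by simp⟩
  obtain ⟨n, m, hn, hnm⟩ := exists_valuation_pow_eq P hP hℓ hw
  refine ⟨m.natAbs, ?_⟩
  rw [← P.valuation_le_one_iff, map_mul, map_pow]
  refine le_of_not_gt fun hgt => ?_
  have h1 := one_lt_pow₀ hgt hn.ne'
  have hv : P.valuation (ℓ : L) ≠ 0 := by simpa using hℓ.ne_zero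
  rw [mul_pow, hnm, ← pow_mul, ← zpow_natCast, ← zpow_add₀ hv] at h1
  have hk : 0 ≤ ((m.natAbs * n : ℕ) : ℤ) + m := by
    have : m.natAbs ≤ m.natAbs * n := Nat.le_mul_of_pos_right _ hn
    omega
  obtain ⟨e, he⟩ := Int.eq_ofNat_of_zero_le hk
  rw [he, zpow_natCast] at h1
  exact absurd h1 (not_lt.2 (pow_le_one₀ zero_le
    ((P.valuation_le_one_iff _).2 (natCast_mem P ℓ))))

theorem exists_pow_mul_mem_uniform (hP : P.LiesOverPrime ℓ) (hℓ : ℓ.Prime) {ι : Type*} [Finite ι]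
    (w : ι → L) : ∃ k : ℕ, ∀ i, (ℓ : L) ^ k * w i ∈ P := by
  cases nonempty_fintype ι
  choose k hk using fun i => exists_pow_mul_mem P hP hℓ (w i)
  refine ⟨∑ i, k i, fun i => ?_⟩
  obtain ⟨d, hd⟩ := Nat.exists_eq_add_of_le
    (Finset.single_le_sum (fun j _ => Nat.zero_le (k j)) (Finset.mem_univ i))
  rw [hd, pow_add, mul_right_comm]
  exact mul_mem (hk i) (pow_mem (natCast_mem P ℓ) d)

theorem exists_pow_div_mem (hP : P.LiesOverPrime ℓ) (hℓ : ℓ.Prime) {z : L} (hz : z ∈ P.nonunits) :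
    ∃ n : ℕ, z ^ n / (ℓ : L) ∈ P := by
  rcases eq_or_ne z 0 with rfl | hz0
  · exact ⟨1, by simp⟩
  obtain ⟨n, m, hn, hnm⟩ := exists_valuation_pow_eq P hP hℓ hz0
  refine ⟨n, ?_⟩
  have hvz : P.valuation z < 1 := hz
  have hvl : P.valuation (ℓ : L) < 1 := hP
  have hv : P.valuation (ℓ : L) ≠ 0 := by simpa using hℓ.ne_zero
  rw [← P.valuation_le_one_iff, map_div₀, map_pow, hnm, div_le_one₀ (zero_lt_iff.2 hv)]
  have h1 : P.valuation (ℓ : L) ^ m < 1 := hnm ▸ pow_lt_one₀ zero_le hvz hn.ne'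
  have hm : 1 ≤ m := by
    by_contra hm
    obtain ⟨e, he⟩ := Int.eq_ofNat_of_zero_le (show 0 ≤ -m by omega)
    rw [show m = -(e : ℤ) by omega, zpow_neg, zpow_natCast] at h1
    exact absurd h1 (not_lt.2 ((one_le_inv₀ (pow_pos (zero_lt_iff.2 hv) e)).2
      (pow_le_one₀ zero_le hvl.le)))
  obtain ⟨e, he⟩ := Int.eq_ofNat_of_zero_le (show 0 ≤ m - 1 by omega)
  rw [show m = (e : ℤ) + 1 by omega, zpow_add₀ hv, zpow_natCast, zpow_one]
  exact mul_le_of_le_one_left' (pow_le_one₀ zero_le hvl.le)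

/-- multiples of a high power of a non-unit are divisible by a given power of `ℓ` -/
theorem exists_pow_tiny (hP : P.LiesOverPrime ℓ) (hℓ : ℓ.Prime) {z : L} (hz : z ∈ P.nonunits)
    (w : L) (N : ℕ) : ∃ e : ℕ, ∀ e' ≥ e, z ^ e' * w / (ℓ : L) ^ N ∈ P := by
  obtain ⟨k, hk⟩ := exists_pow_mul_mem P hP hℓ w
  obtain ⟨n, hn⟩ := exists_pow_div_mem P hP hℓ hz
  refine ⟨n * (N + k), fun e' he' => ?_⟩
  obtain ⟨d, rfl⟩ := Nat.exists_eq_add_of_le he'
  have hzP : z ∈ P := P.nonunits_subset hz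
  have hℓ0 : (ℓ : L) ≠ 0 := Nat.cast_ne_zero.2 hℓ.ne_zero
  have h := mul_mem (mul_mem (pow_mem hn (N + k)) hk) (pow_mem hzP d)
  convert h using 1
  rw [div_pow, ← pow_mul, pow_add, pow_add]
  field_simp

/-! ### Conjugates of `P`. -/

section Galois

variable {P}

/-- `σ` stabilises `P`. -/
def Stabilises (P : ValuationSubring L) (σ : L ≃ₐ[ℚ] L) : Prop := ∀ x, σ x ∈ P ↔ x ∈ P

/-- `σ` is in the inertia group of `P`. -/
def IsInert (P : ValuationSubring L) (σ : L ≃ₐ[ℚ] L) : Prop :=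
  Stabilises P σ ∧ ∀ x ∈ P, P.valuation (σ x - x) < 1

theorem Stabilises.valuation_lt_one {σ : L ≃ₐ[ℚ] L} (hσ : Stabilises P σ) {x : L}
    (hx : P.valuation x < 1) : P.valuation (σ x) < 1 := by
  rw [← P.mem_nonunits_iff, ValuationSubring.mem_nonunits_iff_or] at hx ⊢
  rcases hx with rfl | hx
  · simp
  · right
    rwa [← map_inv₀, hσ]

theorem Stabilises.one : Stabilises P (1 : L ≃ₐ[ℚ] L) := fun _ => Iff.rfl

theorem Stabilises.mul {σ τ : L ≃ₐ[ℚ] L} (hσ : Stabilises P σ) (hτ : Stabilises P τ) :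
    Stabilises P (σ * τ) := fun x => (hσ (τ x)).trans (hτ x)

theorem Stabilises.inv {σ : L ≃ₐ[ℚ] L} (hσ : Stabilises P σ) : Stabilises P σ⁻¹ := fun x => by
  have := hσ (σ⁻¹ x)
  rw [← AlgEquiv.mul_apply, mul_inv_cancel, AlgEquiv.one_apply] at this
  exact this.symm

variable (P)

/-- the inertia group -/
def inertG : Subgroup (L ≃ₐ[ℚ] L) where
  carrier := {σ | IsInert P σ}
  one_mem' := ⟨Stabilises.one, fun x _ => by simp⟩
  mul_mem' := by
    rintro σ τ ⟨hσ, hσ'⟩ ⟨hτ, hτ'⟩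
    refine ⟨hσ.mul hτ, fun x hx => ?_⟩
    rw [AlgEquiv.mul_apply, show σ (τ x) - x = σ (τ x - x) + (σ x - x) by rw [map_sub]; ring]
    exact Valuation.map_add_lt _ (hσ.valuation_lt_one (hτ' x hx)) (hσ' x hx)
  inv_mem' := by
    rintro σ ⟨hσ, hσ'⟩
    refine ⟨hσ.inv, fun x hx => ?_⟩
    have h := hσ' (σ⁻¹ x) ((hσ.inv x).2 hx)
    rw [← AlgEquiv.mul_apply, mul_inv_cancel, AlgEquiv.one_apply] at h
    rwa [← neg_sub, Valuation.map_neg]

theorem mem_inertG {σ : L ≃ₐ[ℚ] L} : σ ∈ inertG P ↔ IsInert P σ := Iff.rfl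

theorem inertG_conj {σ η : L ≃ₐ[ℚ] L} (hσ : Stabilises P σ) (hη : η ∈ inertG P) :
    σ⁻¹ * η * σ ∈ inertG P := by
  refine ⟨(hσ.inv.mul hη.1).mul hσ, fun x hx => ?_⟩
  have h := hσ.inv.valuation_lt_one (hη.2 (σ x) ((hσ x).2 hx))
  rwa [map_sub, show σ⁻¹ (σ x) = x from σ.symm_apply_apply x] at h

/-- the inertia-invariant integral elements -/
def inertRing : Subring L where
  carrier := {x | x ∈ P ∧ ∀ η ∈ inertG P, η x = x}
  one_mem' := ⟨one_mem P, fun η _ => map_one η⟩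
  zero_mem' := ⟨zero_mem P, fun η _ => map_zero η⟩
  add_mem' := fun ha hb => ⟨add_mem ha.1 hb.1, fun η hη => by rw [map_add, ha.2 η hη, hb.2 η hη]⟩
  mul_mem' := fun ha hb => ⟨mul_mem ha.1 hb.1, fun η hη => by rw [map_mul, ha.2 η hη, hb.2 η hη]⟩
  neg_mem' := fun ha => ⟨neg_mem ha.1, fun η hη => by rw [map_neg, ha.2 η hη]⟩

variable [Finite (L ≃ₐ[ℚ] L)]

/-- An element of the inertia group is detected on the inertia-invariant integers. -/
theorem mem_inertG_of_forall {τ : L ≃ₐ[ℚ] L} (hτ : Stabilises P τ)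
    (h : ∀ w ∈ inertRing P, P.valuation (τ w - w) < 1) : τ ∈ inertG P := by
  classical
  cases nonempty_fintype (inertG P)
  refine ⟨hτ, fun x hx => ?_⟩
  let f : P[X] := ∏ η : inertG P, (X - C ⟨(η : L ≃ₐ[ℚ] L) x, (η.2.1 x).2 hx⟩)
  have hcoef : ∀ i, ((f.coeff i : P) : L) ∈ inertRing P := by
    intro i
    refine ⟨(f.coeff i).2, fun η hη => ?_⟩
    have hmap : (f.map P.subtype).map (η : L →+* L) = f.map P.subtype := by
      simp only [f, Polynomial.map_prod, Polynomial.map_sub, Polynomial.map_X, Polynomial.map_C]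
      exact Fintype.prod_equiv (Equiv.mulLeft (⟨η, hη⟩ : inertG P)) _ _ fun η' => rfl
    have := congrArg (fun g => g.coeff i) hmap
    simpa [Polynomial.coeff_map] using this
  have hfx : f.map (residue P) = (X - C (residue P ⟨x, hx⟩)) ^ Fintype.card (inertG P) := by
    simp only [f, Polynomial.map_prod, Polynomial.map_sub, Polynomial.map_X, Polynomial.map_C]
    rw [Finset.prod_congr rfl fun η _ => ?_, Finset.prod_const, Finset.card_univ]
    congr 2
    rw [← sub_eq_zero, ← map_sub, residue_eq_zero_iff, ← P.coe_mem_nonunits_iff]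
    exact η.2.2 x hx
  let τ' : P →+* P :=
    ((τ : L →+* L).comp P.subtype).codRestrict P fun y => (hτ y).2 y.2
  have hτf : f.map ((residue P).comp τ') = f.map (residue P) := by
    refine Polynomial.ext fun i => ?_
    rw [Polynomial.coeff_map, Polynomial.coeff_map, RingHom.comp_apply, ← sub_eq_zero, ← map_sub,
      residue_eq_zero_iff, ← P.coe_mem_nonunits_iff]
    exact h _ (hcoef i)
  have hroot : f.eval ⟨x, hx⟩ = 0 := by
    rw [eval_prod]
    exact Finset.prod_eq_zero (Finset.mem_univ (1 : inertG P)) (by simp)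
  have h2 := congrArg ((residue P).comp τ') hroot
  rw [map_zero, ← Polynomial.eval_map_apply, hτf, hfx, eval_pow, eval_sub, eval_X, eval_C] at h2
  have h3 := eq_zero_of_pow_eq_zero h2
  rw [RingHom.comp_apply, ← map_sub, residue_eq_zero_iff, ← P.coe_mem_nonunits_iff] at h3
  exact h3

theorem exists_mem_apply_not_mem {σ : L ≃ₐ[ℚ] L} (hσ : ¬ Stabilises P σ) :
    ∃ x ∈ P, σ x ∉ P := by
  by_contra hno
  push Not at hno
  have hpow : ∀ (n : ℕ) (x : L), x ∈ P → (σ ^ n) x ∈ P := by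
    intro n
    induction n with
    | zero => simp
    | succ n ih =>
      intro x hx
      rw [pow_succ', AlgEquiv.mul_apply]
      exact hno _ (ih x hx)
  refine hσ fun x => ⟨fun hx => ?_, hno x⟩
  obtain ⟨n, hn, hn1⟩ := (isOfFinOrder_iff_pow_eq_one.1 (isOfFinOrder_of_finite σ))
  have := hpow (n - 1) _ hx
  rwa [← AlgEquiv.mul_apply, ← pow_succ, Nat.sub_add_cancel hn, hn1, AlgEquiv.one_apply] at this

/-- `1/(1 + x + ⋯ + x^(r-1))` is integral at every conjugate for a suitable `r`. -/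
theorem exists_integral_inv (hP : P.LiesOverPrime ℓ) (hℓ : ℓ.Prime) (x : L) :
    ∃ z : L, ∀ σ : L ≃ₐ[ℚ] L, σ z ∈ P ∧ (σ x ∉ P → P.valuation (σ z) < 1) ∧
      (σ x ∈ P → ¬ P.valuation (σ z) < 1) := by
  classical
  let bad : Set ℕ := {r | r.Prime ∧ ∃ σ : L ≃ₐ[ℚ] L, ∃ h : σ x ∈ P,
    ∑ i ∈ Finset.range r, (residue P ⟨σ x, h⟩) ^ i = 0}
  have hbad : bad.Finite := by
    refine ((Set.finite_iUnion (f := fun σ : L ≃ₐ[ℚ] L => {r : ℕ | r.Prime ∧ r ≠ ℓ ∧
      ∃ h : σ x ∈ P, ∑ i ∈ Finset.range r, (residue P ⟨σ x, h⟩) ^ i = 0}) ?_).union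
        (Set.finite_singleton ℓ)).subset ?_
    · intro σ
      refine Set.Subsingleton.finite ?_
      rintro r ⟨hr, hrℓ, h, hr0⟩ r' ⟨hr', hrℓ', h', hr0'⟩
      by_contra hne
      set u := residue P ⟨σ x, h⟩
      have hu : u = 1 := by
        have e1 : u ^ r = 1 := by
          have := geom_sum_mul u r
          rw [hr0, zero_mul] at this
          exact sub_eq_zero.1 this.symm
        have e2 : u ^ r' = 1 := by
          have := geom_sum_mul u r'
          rw [hr0', zero_mul] at this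
          exact sub_eq_zero.1 this.symm
        have := pow_gcd_eq_one.2 ⟨e1, e2⟩
        rwa [(Nat.coprime_primes hr hr').2 hne, pow_one] at this
      rw [hu] at hr0
      simp only [one_pow, Finset.sum_const, Finset.card_range, nsmul_eq_mul, mul_one] at hr0
      have := Galois.place_charP_residueField hP hℓ
      rw [CharP.cast_eq_zero_iff _ ℓ] at hr0
      exact hrℓ ((Nat.prime_dvd_prime_iff_eq hℓ hr).1 hr0).symm
    · rintro r ⟨hr, σ, h, h0⟩
      by_cases hrℓ : r = ℓ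
      · exact Or.inr hrℓ
      · exact Or.inl (Set.mem_iUnion.2 ⟨σ, hr, hrℓ, h, h0⟩)
  obtain ⟨r, hr, hrbad⟩ := Nat.infinite_setOfPred_prime.exists_notMem_finset hbad.toFinset
  rw [Set.Finite.mem_toFinset] at hrbad
  set s := ∑ i ∈ Finset.range r, x ^ i
  refine ⟨s⁻¹, fun σ => ?_⟩
  have hs : σ s = ∑ i ∈ Finset.range r, (σ x) ^ i := by simp [s, map_sum]
  by_cases hx : σ x ∈ P
  · have hv : ¬ P.valuation (σ s) < 1 := by
      intro hlt
      refine hrbad ⟨hr, σ, hx, ?_⟩
      rw [← Finset.sum_congr rfl (fun i _ => map_pow (residue P) _ i), ← map_sum,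
        residue_eq_zero_iff, ← P.coe_mem_nonunits_iff]
      simpa [P.mem_nonunits_iff, hs] using hlt
    have hle : P.valuation (σ s) ≤ 1 := by
      rw [P.valuation_le_one_iff, hs]
      exact sum_mem fun i _ => pow_mem hx i
    have h1 : P.valuation (σ s) = 1 := hle.antisymm (not_lt.1 hv)
    refine ⟨?_, fun h => absurd hx h, fun _ => ?_⟩ <;>
      simp [map_inv₀, ← P.valuation_le_one_iff, h1]
  · have hgt : 1 < P.valuation (σ x) := not_le.1 fun h => hx ((P.valuation_le_one_iff _).1 h)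
    have hv : P.valuation (σ s) = P.valuation (σ x) ^ (r - 1) := by
      rw [hs, P.valuation.map_sum_eq_of_lt (j := r - 1) (by simp [hr.pos]), map_pow]
      intro i hi
      simp only [Finset.mem_sdiff, Finset.mem_range, Finset.mem_singleton] at hi
      rw [map_pow, map_pow]
      exact pow_lt_pow_right₀ hgt (by omega)
    have hlt : P.valuation (σ s⁻¹) < 1 := by
      rw [map_inv₀, map_inv₀, hv]
      exact inv_lt_one_of_one_lt₀ (one_lt_pow₀ hgt (by have := hr.two_le; omega))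
    exact ⟨(P.valuation_le_one_iff _).1 hlt.le, fun _ => hlt, fun h => absurd h hx⟩

/-- A unit at `P` fixed by inertia, integral at all conjugates, a non-unit at the other ones. -/
theorem exists_separator (hP : P.LiesOverPrime ℓ) (hℓ : ℓ.Prime) :
    ∃ β : L, (∀ η ∈ inertG P, η β = β) ∧ β ∈ P ∧ ¬ P.valuation β < 1 ∧
      (∀ σ : L ≃ₐ[ℚ] L, σ β ∈ P) ∧
      ∀ σ : L ≃ₐ[ℚ] L, ¬ Stabilises P σ → P.valuation (σ β) < 1 := by
  classical
  cases nonempty_fintype (L ≃ₐ[ℚ] L)
  choose x hx hσx using fun σ : {σ : L ≃ₐ[ℚ] L // ¬ Stabilises P σ} =>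
    exists_mem_apply_not_mem P σ.2
  choose z hz using fun σ => exists_integral_inv P hP hℓ (x σ)
  let β0 : L := ∏ σ, z σ
  have hint : ∀ σ : L ≃ₐ[ℚ] L, σ β0 ∈ P := fun σ => by
    simp only [β0, map_prod]
    exact prod_mem fun τ _ => (hz τ σ).1
  have hunit : ¬ P.valuation β0 < 1 := by
    simp only [β0, map_prod]
    have h1 : ∀ τ, P.valuation (z τ) = 1 := fun τ =>
      ((P.valuation_le_one_iff _).2 (by simpa using (hz τ 1).1)).antisymm
        (not_lt.1 (by simpa using (hz τ 1).2.2 (by simpa using hx τ)))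
    simp [h1]
  let β : L := ∏ η : inertG P, (η : L ≃ₐ[ℚ] L) β0
  refine ⟨β, fun η hη => ?_, prod_mem fun η _ => hint _, ?_, fun σ => ?_, fun σ hσ => ?_⟩
  · simp only [β, map_prod]
    exact Fintype.prod_equiv (Equiv.mulLeft (⟨η, hη⟩ : inertG P)) _ _ fun η' => rfl
  · simp only [β, map_prod]
    have h1 : ∀ η : inertG P, P.valuation ((η : L ≃ₐ[ℚ] L) β0) = 1 := fun η =>
      ((P.valuation_le_one_iff _).2 (hint _)).antisymm
        (not_lt.1 fun h => hunit (by
          have := η.2.1.inv.valuation_lt_one h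
          rwa [← AlgEquiv.mul_apply, inv_mul_cancel, AlgEquiv.one_apply] at this))
    simp [h1]
  · simp only [β, map_prod]
    exact prod_mem fun η _ => by rw [← AlgEquiv.mul_apply]; exact hint _
  · simp only [β, map_prod]
    rw [← Finset.mul_prod_erase Finset.univ _ (Finset.mem_univ (1 : inertG P))]
    refine (mul_le_of_le_one_right' ?_).trans_lt ?_
    · exact Finset.prod_le_one' fun η _ => (P.valuation_le_one_iff _).2
        (by rw [← AlgEquiv.mul_apply]; exact hint _)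
    · simp only [OneMemClass.coe_one, AlgEquiv.one_apply, β0, map_prod]
      rw [← Finset.mul_prod_erase Finset.univ _ (Finset.mem_univ ⟨σ, hσ⟩)]
      refine (mul_le_of_le_one_right' (Finset.prod_le_one' fun τ _ =>
        (P.valuation_le_one_iff _).2 (hz τ σ).1)).trans_lt ?_
      exact (hz ⟨σ, hσ⟩ σ).2.1 (hσx ⟨σ, hσ⟩)

end Galois

end Fermat.Agent.FlatJ
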