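import Mathlib
import Fermat.Prelude.Def_ModularCurve_LaurentCoeff

/-!
Laurent series over a valuation ring of rank one: quotients of series that are integral over the
integral series are integral series.
-/

set_option autoImplicit false

noncomputable section

open ModularCurve

namespace Fermat.Agent.FlatJ

variable {K : Type*} [Field K] (A : ValuationSubring K)

/-- the series with coefficients in the ring -/
def intSeries : Subring (LaurentSeries K) := (coeffMap A.subtype).range

theorem mem_intSeries {x : LaurentSeries K} : x ∈ intSeries A ↔ ∀ m, x.coeff m ∈ A := by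
  constructor
  · rintro ⟨y, rfl⟩ m
    exact (y.coeff m).2
  · intro h
    exact ⟨⟨fun m => ⟨_, h m⟩, x.isPWO_support.mono fun m hm hx => hm (Subtype.ext hx)⟩,
      HahnSeries.ext rfl⟩

variable {A}

/-- A quotient of integral series which is integral over the integral series is one. -/
theorem mem_intSeries_of_isIntegral
    (hA : ∀ a : A, ¬IsUnit a → ∀ c : A, (c : K) ≠ 0 → ∃ n, c ∣ a ^ n)
    {f Z : LaurentSeries K} (hZ : Z ∈ intSeries A) (hZ0 : Z ≠ 0) (hfZ : Z * f ∈ intSeries A)
    (hf : IsIntegral (intSeries A) f) : f ∈ intSeries A := by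
  by_contra hno
  rw [mem_intSeries] at hno
  set T : Set ℤ := {m | f.coeff m ∉ A}
  have hTne : T.Nonempty := not_forall.mp hno
  have hTsub : T ⊆ f.support := fun m hm h0 => hm (by rw [h0]; exact A.zero_mem)
  have hTwf := (f.isPWO_support.mono hTsub).isWF
  set m := hTwf.min hTne
  have hm : f.coeff m ∉ A := hTwf.min_mem hTne
  have hlow : ∀ i < m, f.coeff i ∈ A := fun i hi => by
    by_contra h
    exact hTwf.not_lt_min hTne h hi
  let f₀ : LaurentSeries K := HahnSeries.truncLT m f
  have hf₀ : f₀ ∈ intSeries A := (mem_intSeries A).mpr fun i => by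
    simp only [f₀, HahnSeries.coeff_truncLT]
    split_ifs with h
    · exact hlow i h
    · exact A.zero_mem
  set g := f - f₀ with hg
  have hgm : g.coeff m = f.coeff m := by simp [g, f₀, HahnSeries.coeff_truncLT]
  have hg0 : g ≠ 0 := fun h => hm (by rw [← hgm, h]; exact A.zero_mem)
  have hglow : ∀ i < m, g.coeff i = 0 := fun i hi => by
    simp [g, f₀, HahnSeries.coeff_truncLT, hi]
  have hgord : g.order = m := by
    refine le_antisymm (HahnSeries.order_le_of_coeff_ne_zero fun h => hm ?_) ?_
    · rw [← hgm, h]; exact A.zero_mem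
    · by_contra h
      exact HahnSeries.coeff_order_eq_zero.not.mpr hg0 (hglow _ (not_le.mp h))
  have hgZ : Z * g ∈ intSeries A := by rw [hg, mul_sub]; exact sub_mem hfZ (mul_mem hZ hf₀)
  have hgi : IsIntegral (intSeries A) g :=
    hf.sub (isIntegral_algebraMap (x := (⟨f₀, hf₀⟩ : intSeries A)))
  obtain ⟨p, hp, hpg⟩ := hgi
  set d := p.natDegree
  have key : ∀ n, Z ^ d * g ^ n ∈ intSeries A := by
    intro n
    induction n using Nat.strong_induction_on with
    | _ n ih =>
      rcases le_or_gt n d with h | h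
      · obtain ⟨e, he⟩ := Nat.exists_eq_add_of_le h
        rw [he, pow_add, mul_right_comm, ← mul_pow]
        exact mul_mem (pow_mem hgZ n) (pow_mem hZ e)
      · obtain ⟨e, rfl⟩ := Nat.exists_eq_add_of_lt h
        rw [Polynomial.eval₂_eq_sum_range, Finset.sum_range_succ, hp.coeff_natDegree, map_one,
          one_mul, add_eq_zero_iff_neg_eq] at hpg
        rw [show d + e + 1 = d + (e + 1) from rfl, pow_add, ← hpg, neg_mul, Finset.sum_mul,
          mul_neg, Finset.mul_sum]
        refine neg_mem (sum_mem fun i hi => ?_)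
        rw [mul_assoc, mul_left_comm, ← pow_add]
        exact mul_mem (p.coeff i).2 (ih _ (by have := Finset.mem_range.mp hi; omega))
  have hlp : ∀ (x : LaurentSeries K) (n : ℕ), (x ^ n).leadingCoeff = x.leadingCoeff ^ n := by
    intro x n
    induction n with
    | zero => simp
    | succ n ih => rw [pow_succ, pow_succ, HahnSeries.leadingCoeff_mul, ih]
  have hz : ∀ n, Z.leadingCoeff ^ d * f.coeff m ^ n ∈ A := fun n => by
    have h1 : (Z ^ d * g ^ n).leadingCoeff = Z.leadingCoeff ^ d * f.coeff m ^ n := by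
      rw [HahnSeries.leadingCoeff_mul, hlp, hlp,
        HahnSeries.leadingCoeff_eq (x := g), hgord, hgm]
    rw [← h1, HahnSeries.leadingCoeff_eq]
    exact (mem_intSeries A).mp (key n) _
  have hZA : Z.leadingCoeff ∈ A := by
    rw [HahnSeries.leadingCoeff_eq]; exact (mem_intSeries A).mp hZ _
  have hcinv : (f.coeff m)⁻¹ ∈ A := (A.mem_or_inv_mem _).resolve_left hm
  have hc0 : f.coeff m ≠ 0 := fun h => hm (by rw [h]; exact A.zero_mem)
  have hnu : ¬IsUnit (⟨_, hcinv⟩ : A) := fun hu => hm (by
    obtain ⟨b, hb⟩ := hu.exists_right_inv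
    have := congrArg Subtype.val hb
    simp only [MulMemClass.coe_mul, OneMemClass.coe_one] at this
    rw [inv_mul_eq_one₀ hc0] at this
    exact this ▸ b.2)
  have hz0 : Z.leadingCoeff ^ d ≠ 0 := pow_ne_zero _ (HahnSeries.leadingCoeff_ne_zero.mpr hZ0)
  -- `z` is divisible by all powers of `c⁻¹`
  obtain ⟨n, b, hb⟩ := hA _ hnu (⟨_, pow_mem hZA d⟩ : A) hz0
  have hb' : (f.coeff m)⁻¹ ^ n = Z.leadingCoeff ^ d * b := congrArg Subtype.val hb
  have h1 : Z.leadingCoeff ^ d * b * f.coeff m ^ n = 1 := by
    rw [← hb', ← mul_pow, inv_mul_cancel₀ hc0, one_pow]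
  refine hnu (isUnit_iff_exists_inv.mpr ⟨⟨f.coeff m, ?_⟩, Subtype.ext (inv_mul_cancel₀ hc0)⟩)
  have h2 := mul_mem (hz (n + 1)) b.2
  rwa [pow_succ, show Z.leadingCoeff ^ d * (f.coeff m ^ n * f.coeff m) * b = f.coeff m by
    linear_combination f.coeff m * h1] at h2

end Fermat.Agent.FlatJ
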