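import Fermat.Agent.FlatJ.Semilinear
import Fermat.Agent.FlatJ.Integral
import Fermat.Agent.RED.TorsionModular
import Fermat.Agent.HK.Kummer.JZero

/-!
`X₀(p)` at a place over `ℓ ∤ p` as a reduction of fields of Laurent series.
-/

set_option autoImplicit false
set_option linter.unusedSectionVars false
set_option linter.unusedVariables false
set_option linter.style.haveILetI false
set_option synthInstance.maxHeartbeats 200000
set_option maxHeartbeats 1000000

noncomputable section

open AlgebraicCurve ModularCurve

namespace Fermat.Agent.FlatJ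


section X0

variable {p ℓ : ℕ} [NeZero p] {A : ValuationSubring Qb}
  (hℓ : ℓ.Prime) (hp : ¬ℓ ∣ p) (hA : A.LiesOverPrime ℓ)

theorem gact_smul_jPlace (σ : Gam) :
    gact (modularFunctionFieldFull p) σ • RED.RamBound.jPlace p = RED.RamBound.jPlace p := by
  rw [RED.jPlace_eq_jElem, gal_fix_iff]
  intro m
  have h : (emb (MF.Coeff.jElem Qb p : laurentBaseChange Qb (modularFunctionFieldFull p))) =
      coeffMap (algebraMap ℚ Qb) jq := (coeffMap_jqModC (algebraMap ℚ Qb)).symm
  rw [h, coeffMap_coeff]
  exact σ.commutes _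

/-- Functions with poles at the cusps have a multiple with integral expansion and nonzero
reduction. -/
theorem exists_integral_multiple (hlift : RED.X0Lift hℓ hp hA) {f : modularFunctionFieldBar p}
    (hf : f ∈ RED.coordRing Qb (RED.RamBound.jPlace p)) (hf0 : f ≠ 0) :
    ∃ (c : Qb) (y : LaurentSeries A),
      coeffMap A.subtype y = HahnSeries.C c * emb f ∧
        coeffMap (IsLocalRing.residue A) y ≠ 0 := by
  obtain ⟨n, hT⟩ := RED.exists_twoCharts_x0 hℓ hp hA hlift
  have hD := RED.isCoefficientwise_x0Red hℓ hp hA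
  obtain ⟨c, g, hc0, hg, hred⟩ := (RED.x0Red hℓ hp hA).toDatum.exists_scale hf0
  set x := RED.RamBound.jPlace p
  set cf : modularFunctionFieldBar p :=
    algebraMap Qb (modularFunctionFieldBar p) c * f with hcf
  have hcmem : cf ∈ RED.coordRing Qb x := by
    rw [hcf, ← Algebra.smul_def]
    exact Subalgebra.smul_mem _ hf c
  obtain ⟨P, hPm, hP⟩ := hT.finite.bounded _ hcmem hred.mem
  have hx : (x : LaurentSeries Qb) ∈ intSeries A :=
    ⟨jqModC A, by
      rw [coeffMap_jqModC, show x = MF.Coeff.jElem Qb p from RED.jPlace_eq_jElem]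
      rfl⟩
  have hint : ∀ Q : Polynomial A,
      ((RED.intEval A x Q : modularFunctionFieldBar p) : LaurentSeries Qb) ∈ intSeries A := by
    intro Q
    induction Q using Polynomial.induction_on' with
    | add Q R hQ hR => rw [map_add]; exact add_mem hQ hR
    | monomial i a =>
      simp only [RED.intEval, Polynomial.coe_eval₂RingHom, Polynomial.eval₂_monomial,
        IntermediateField.coe_mul, IntermediateField.coe_pow, RingHom.comp_apply]
      refine mul_mem ⟨HahnSeries.C a, ?_⟩ (pow_mem hx i)
      rw [RED.TorsionCore.coeffMap_C]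
      exact (RED.TorsionCore.coe_algebraMap_eq_C _).symm
  let ρ : Polynomial A →+* intSeries A :=
    ((modularFunctionFieldBar p).val.toRingHom.comp (RED.intEval A x)).codRestrict
      (intSeries A) hint
  have hi : IsIntegral (intSeries A) (cf : LaurentSeries Qb) := by
    refine ⟨P.map ρ, hPm.map ρ, ?_⟩
    rw [Polynomial.eval₂_map]
    show P.eval₂ ((modularFunctionFieldBar p).val.toRingHom.comp (RED.intEval A x)) _ = 0
    rw [show (cf : LaurentSeries Qb) = (modularFunctionFieldBar p).val.toRingHom cf from rfl,
      ← Polynomial.hom_eval₂, hP, map_zero]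
  obtain ⟨Y, Z, hY, hZ, gY, gZ, hgY, hgZ, hgZ0, -, -, hfz, -⟩ := hD.exists_frac hred
  obtain ⟨y, hy⟩ : (cf : LaurentSeries Qb) ∈ intSeries A := by
    refine mem_intSeries_of_isIntegral (Z := coeffMap A.subtype Z)
      (fun a ha b hb => RED.exists_dvd_pow hℓ hA a b ((IsLocalRing.residue_eq_zero_iff a).2 ha) hb) ⟨Z, rfl⟩ ?_ ⟨Y, ?_⟩ hi
    · intro h0
      apply hgZ0
      apply Subtype.ext
      rw [hgZ, (map_eq_zero_iff _ (coeffMap_injective Subtype.val_injective)).1 h0, map_zero]
      rfl
    · rw [mul_comm]
      exact (congrArg Subtype.val hfz).symm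
  refine ⟨c, y, ?_, fun h0 => hg ?_⟩
  · rw [hy, hcf, IntermediateField.coe_mul]
    congr 1
    exact algebraMap_laurentSeries_eq_single Qb c
  · refine hred.unique (hD.reduces hy.symm ?_)
    rw [h0]
    rfl

/-- **The reduction of `X₀(p)` at a place over `ℓ ∤ p`**, with a Galois invariant divisor bounding
the poles of functions with bounded coefficients. -/
theorem exists_redSetup (hlift : RED.X0Lift hℓ hp hA) :
    ∃ (D : RedSetup A (IsLocalRing.residue A) (modularFunctionFieldBar p)
        (modularFunctionFieldFullC (IsLocalRing.ResidueField A) p))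
      (P : FixedPol (modularFunctionFieldFull p)), D.H = P.H := by
  have := Galois.place_residueField_isAlgClosed A
  have : FF.IsFunctionField Qb (modularFunctionFieldBar p) :=
    MF.Coeff.isFunctionField_laurentBaseChange Qb p
  have : FF.IsFunctionField (IsLocalRing.ResidueField A)
      (modularFunctionFieldFullC (IsLocalRing.ResidueField A) p) :=
    RED.isFunctionField_special p (RED.natCast_residue_ne_zero hℓ hp hA)
  obtain ⟨n, hT⟩ := RED.exists_twoCharts_x0 hℓ hp hA hlift
  have hD := RED.isCoefficientwise_x0Red hℓ hp hA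
  have hxt := hT.finite.coordGeneric.transcendental
  have hn : 0 < n := by
    have := FF.finiteDimensional_adjoin hT.finite.coordSpecial.transcendental
    rw [← hT.finite.finrank_special]
    exact Module.finrank_pos
  let H : Divisor Qb (modularFunctionFieldBar p) :=
    FF.poleDivisor Qb (RED.RamBound.jPlace p)
  have hH0 : 0 ≤ H := FF.poleDivisor_nonneg _
  have hHd : Divisor.degree H = n := by
    rw [FF.degree_poleDivisor hxt, hT.finite.finrank_generic]
  have hcoord : ∀ (m : ℕ), ∀ f ∈ riemannRochSpace (m • H),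
      f ∈ RED.coordRing Qb (RED.RamBound.jPlace p) := by
    intro m f hf
    rw [RED.mem_coordRing_iff_ord]
    intro v hv
    rcases (mem_riemannRochSpace_iff.1 hf v) with h | h
    · rw [h, Place.ord_zero]
    · rw [Finsupp.smul_apply, FF.poleDivisor_apply, max_eq_right (by omega), smul_zero] at h
      simpa using h
  have red_mem : ∀ (y : LaurentSeries A) (f : modularFunctionFieldBar p),
      coeffMap A.subtype y = emb f →
        ∃ φ : modularFunctionFieldFullC (IsLocalRing.ResidueField A) p,
          coeffMap (IsLocalRing.residue A) y = emb φ := by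
    intro y f hy
    have hy' : coeffMap A.subtype y = (f : LaurentSeries Qb) := hy
    obtain ⟨g, hg, -⟩ := hD.mem y (hy'.symm ▸ f.2)
    exact ⟨g, hg.symm⟩
  have compat : ∀ (f : modularFunctionFieldBar p)
      (φ : modularFunctionFieldFullC (IsLocalRing.ResidueField A) p),
      Reduces (IsLocalRing.residue A) f φ → φ ≠ 0 →
      ∀ E : Divisor Qb (modularFunctionFieldBar p), (∀ v, E v = v.ord f) →
        ∀ w, Finsupp.mapDomain hT.redPlace E w = w.ord φ := by
    rintro f φ ⟨y, hy, hy'⟩ hφ E hE w
    exact hT.isPlaceReduction_redPlace f φ (hD.reduces hy.symm hy'.symm) hφ E hE w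
  have scale : ∀ (m : ℕ) (f : modularFunctionFieldBar p), f ∈ riemannRochSpace (m • H) → f ≠ 0 →
      ∃ (c : Qb) (y : LaurentSeries A), coeffMap A.subtype y = HahnSeries.C c * emb f ∧
        coeffMap (IsLocalRing.residue A) y ≠ 0 := fun m f hf hf0 =>
    exists_integral_multiple hℓ hp hA hlift (hcoord m f hf) hf0
  have hF := RED.rrCurve Qb (modularFunctionFieldBar p)
  have hk := RED.x0_rrCurve_special hℓ hp hA hlift
  refine ⟨{
    g := genusFF Qb (modularFunctionFieldBar p)
    surj := IsLocalRing.residue_surjective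
    hF := hF
    hk := hk
    r := hT.redPlace
    red_mem := red_mem
    H := H
    H_eff := hH0
    H_pos := by omega
    scale := scale
    compat := compat }, ⟨H, hH0, by omega, fun σ => ?_⟩, rfl⟩
  ext v
  have h := SemilinearAut.ord_smul (gact (modularFunctionFieldFull p) σ)
    ((gact (modularFunctionFieldFull p) σ)⁻¹ • v) (RED.RamBound.jPlace p)
  rw [smul_inv_smul, gact_smul_jPlace] at h
  rw [SemilinearAut.divisor_smul_apply, FF.poleDivisor_apply, FF.poleDivisor_apply, h]

variable (p ℓ) in
/-- `J₀(p)[ℓᵏ]` is finite. -/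
theorem finite_torsionBy (hℓ : ℓ.Prime) (k : ℕ) :
    Finite (Submodule.torsionBy ℤ (JZero p) ((ℓ : ℤ) ^ k)) := by
  have : NeZero (ℓ ^ k) := ⟨pow_ne_zero _ hℓ.ne_zero⟩
  have h := HK.finite_jZero_torsion p (ℓ ^ k)
  rw [← Nat.cast_pow]
  exact h

include hℓ hA in
theorem residueField_instances :
    IsAlgClosed (IsLocalRing.ResidueField A) ∧ Infinite (IsLocalRing.ResidueField A) := by
  have := Galois.place_residueField_isAlgClosed A
  exact ⟨this, inferInstance⟩

variable (p) in
theorem nonempty_place : Nonempty (Place Qb (modularFunctionFieldBar p)) := by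
  have : FF.IsFunctionField Qb (modularFunctionFieldBar p) :=
    MF.Coeff.isFunctionField_laurentBaseChange Qb p
  have hxt : Transcendental Qb (MF.Coeff.jElem Qb p) := fun h =>
    MF.Coeff.transcendental_jqModC Qb (h.algHom (modularFunctionFieldBar p).val)
  have hd := FF.degree_poleDivisor (K := Qb) hxt
  by_contra hno
  rw [not_nonempty_iff] at hno
  rw [show FF.poleDivisor Qb (MF.Coeff.jElem Qb p) = 0 from Finsupp.ext fun v => hno.elim v,
    map_zero] at hd
  have := FF.finiteDimensional_adjoin hxt
  have h0 : 0 < Module.finrank (IntermediateField.adjoin Qb {MF.Coeff.jElem Qb p})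
    (modularFunctionFieldBar p) := Module.finrank_pos
  exact h0.ne (by exact_mod_cast hd)

end X0

end Fermat.Agent.FlatJ
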