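import Mathlib

/-!
Linear algebra over a local ring of functions: minors, and kernels of constant rank.
-/

set_option autoImplicit false
set_option linter.unusedSectionVars false

noncomputable section

namespace Fermat.Agent.FlatJ

variable {k : Type*} [Field k]

/-- Linearly independent vectors have an invertible square minor. -/
theorem exists_minor {ι X : Type*} [Fintype ι] [DecidableEq ι] (v : ι → X → k)
    (hv : LinearIndependent k v) :
    ∃ m : ι → X, (Matrix.of fun i j => v i (m j)).det ≠ 0 := by
  classical
  have hspan : Submodule.span k (Set.range fun x : X => fun i : ι => v i x) = ⊤ := by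
    rw [← Subspace.dualAnnihilator_inj (K := k), Submodule.dualAnnihilator_top, eq_bot_iff]
    intro φ hφ
    rw [Submodule.mem_bot]
    have hd : ∀ w : ι → k, φ w = ∑ i, w i * φ (Pi.single i 1) := by
      intro w
      conv_lhs => rw [show w = ∑ i, w i • (Pi.single i 1 : ι → k) by
        funext y; simp [Finset.sum_apply, Pi.single_apply]]
      simp [map_sum]
    have hzero : ∀ i, φ (Pi.single i 1) = 0 :=
      Fintype.linearIndependent_iff.1 hv _ (funext fun x => by
        have := (Submodule.mem_dualAnnihilator φ).1 hφ (fun i => v i x)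
          (Submodule.subset_span ⟨x, rfl⟩)
        rw [hd] at this
        simpa [mul_comm] using this)
    refine LinearMap.ext fun w => ?_
    rw [hd, LinearMap.zero_apply]
    exact Finset.sum_eq_zero fun i _ => by rw [hzero, mul_zero]
  obtain ⟨s, hs, hss, hsi⟩ :=
    exists_linearIndependent k (Set.range fun x : X => fun i : ι => v i x)
  rw [hspan] at hss
  let b : Module.Basis s k (ι → k) :=
    Module.Basis.mk hsi (by rw [Subtype.range_coe]; exact hss.ge)
  let e : s ≃ ι := b.indexEquiv (Pi.basisFun k ι)
  choose m hm using fun j : ι => hs (e.symm j).2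
  refine ⟨m, ?_⟩
  have hM : (Matrix.of fun i j => v i (m j)) = (Pi.basisFun k ι).toMatrix (b.reindex e) := by
    ext i j
    rw [Module.Basis.toMatrix_apply, Pi.basisFun_repr, Module.Basis.reindex_apply]
    simp only [Matrix.of_apply, b, Module.Basis.coe_mk, ← hm j]
  rw [hM]
  intro h0
  have := congrArg Matrix.det
    ((Pi.basisFun k ι).toMatrix_mul_toMatrix_flip (b.reindex e))
  rw [Matrix.det_mul, h0, zero_mul, Matrix.det_one] at this
  exact zero_ne_one this

/-- A ring of integral functions on a set, all with the same residue, closed under inverting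
units. -/
structure IsLocalFamily {S A : Type*} [CommRing A] (π : A →+* k) (R : Subring (S → A)) : Prop where
  residue_eq : ∀ r ∈ R, ∀ s t : S, π (r s) = π (r t)
  inv_mem : ∀ r ∈ R, (∀ s, IsUnit (r s)) → ∀ r' : S → A, r * r' = 1 → r' ∈ R

variable {S A : Type*} [CommRing A] {π : A →+* k} {R : Subring (S → A)}

/-- evaluation at a point of `S` -/
def evPt (R : Subring (S → A)) (s : S) : R →+* A :=
  (Pi.evalRingHom (fun _ : S => A) s).comp R.subtype

@[simp] theorem evPt_apply (s : S) (r : R) : evPt R s r = (r : S → A) s := rfl

theorem IsLocalFamily.comp_evPt_eq (hR : IsLocalFamily π R) (s t : S) :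
    π.comp (evPt R s) = π.comp (evPt R t) :=
  RingHom.ext fun r => hR.residue_eq r r.2 s t

theorem IsLocalFamily.isUnit (hR : IsLocalFamily π R) (hloc : ∀ a : A, π a ≠ 0 → IsUnit a)
    (s₀ : S) {r : R} (hr : π (evPt R s₀ r) ≠ 0) : IsUnit r := by
  have hu : ∀ s, IsUnit ((r : S → A) s) := fun s => hloc _ (by
    rw [hR.residue_eq r r.2 s s₀]; exact hr)
  choose u hu using fun s => (hu s).exists_right_inv
  exact IsUnit.of_mul_eq_one ⟨u, hR.inv_mem r r.2 (fun s => hloc _ (by
    rw [hR.residue_eq r r.2 s s₀]; exact hr)) u (funext hu)⟩ (Subtype.ext (funext hu))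

theorem IsLocalFamily.exists_inverse (hR : IsLocalFamily π R)
    (hloc : ∀ a : A, π a ≠ 0 → IsUnit a) (s₀ : S) {ι : Type*} [Fintype ι] [DecidableEq ι]
    (M : Matrix ι ι R) (hM : (M.map (π.comp (evPt R s₀))).det ≠ 0) :
    ∃ N : Matrix ι ι R, M * N = 1 ∧ N * M = 1 := by
  have hu : IsUnit M := by
    rw [Matrix.isUnit_iff_isUnit_det]
    refine hR.isUnit hloc s₀ ?_
    rwa [← RingHom.mapMatrix_apply, ← RingHom.map_det] at hM
  obtain ⟨u, rfl⟩ := hu
  exact ⟨↑u⁻¹, u.mul_inv, u.inv_mul⟩

theorem finrank_ker_rows {L : Type*} [Field L] {n : ℕ} {T : Matrix (Fin n) (Fin n) L}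
    {p : Fin n → Prop} [DecidablePred p] (hT : IsUnit T) :
    Module.finrank L (LinearMap.ker (LinearMap.pi fun b : {a : Fin n // p a} =>
      Fintype.linearCombination L (fun i => T b i)) : Submodule L (Fin n → L)) =
        Fintype.card {a : Fin n // ¬ p a} := by
  have hsurj : Function.Surjective T.mulVec := Matrix.mulVec_surjective_iff_isUnit.2 hT
  set ψ := LinearMap.pi fun b : {a : Fin n // p a} =>
    Fintype.linearCombination L (fun i => T b i)
  have hψ : Function.Surjective ψ := by
    intro c
    obtain ⟨v, hv⟩ := hsurj (fun a => if h : p a then c ⟨a, h⟩ else 0)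
    refine ⟨v, funext fun b => ?_⟩
    have := congrFun hv b.1
    simp only [dif_pos b.2] at this
    rw [← this]
    simp [ψ, Fintype.linearCombination_apply, Matrix.mulVec, dotProduct, mul_comm]
  have := ψ.finrank_range_add_finrank_ker
  rw [LinearMap.range_eq_top.2 hψ, finrank_top, Module.finrank_pi, Module.finrank_pi,
    Fintype.card_fin] at this
  rw [Fintype.card_subtype_compl, Fintype.card_fin]
  omega

/-- If a system of linear equations with coefficients in a local family has the same corank at
every point and in the residue field, then its solutions have a basis in the family. -/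
theorem exists_kernel_family {K : Type*} [Field K] (hR : IsLocalFamily π R)
    (hloc : ∀ a : A, π a ≠ 0 → IsUnit a) (ι : A →+* K) (s₀ : S)
    {n d : ℕ} {E : Type*} (M : E → Fin n → R)
    (hres : Module.finrank k (LinearMap.ker
      (LinearMap.pi fun e => Fintype.linearCombination k
        (fun i => π (evPt R s₀ (M e i)))) : Submodule k (Fin n → k)) = d)
    (hgen : ∀ s, d ≤ Module.finrank K (LinearMap.ker
      (LinearMap.pi fun e => Fintype.linearCombination K
        (fun i => ι (evPt R s (M e i)))) : Submodule K (Fin n → K))) :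
    ∃ x : Fin d → Fin n → R,
      (∀ j e s, ∑ i, ι (evPt R s (x j i)) * ι (evPt R s (M e i)) = 0) ∧
      LinearIndependent k (fun j i => π (evPt R s₀ (x j i))) := by
  classical
  set φ : (Fin n → k) →ₗ[k] (E → k) :=
    LinearMap.pi fun e => Fintype.linearCombination k (fun i => π (evPt R s₀ (M e i))) with hφ
  let row : E → Fin n → k := fun e i => π (evPt R s₀ (M e i))
  -- independent rows spanning all rows
  obtain ⟨r, hr, hrs, hri⟩ := exists_linearIndependent k (Set.range row)
  -- complete them by coordinate functionals
  have hbasis : LinearIndepOn k id r := hri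
  obtain ⟨B, hrB, hBsub, hspanB, hBi⟩ : ∃ B : Set (Fin n → k), r ⊆ B ∧
      B ⊆ r ∪ Set.range (fun i => (Pi.single i 1 : Fin n → k)) ∧
      Submodule.span k B = ⊤ ∧ LinearIndepOn k id B := by
    refine ⟨hbasis.extend (Set.subset_union_left
        (t := Set.range fun i => (Pi.single i 1 : Fin n → k))), hbasis.subset_extend _,
      hbasis.extend_subset _, ?_, hbasis.linearIndepOn_extend _⟩
    rw [hbasis.span_extend_eq_span, eq_top_iff]
    intro w _
    rw [show w = ∑ i, w i • (Pi.single i 1 : Fin n → k) by
      funext y; simp [Finset.sum_apply, Pi.single_apply]]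
    exact sum_mem fun i _ => Submodule.smul_mem _ _ (Submodule.subset_span (Or.inr ⟨i, rfl⟩))
  let bB : Module.Basis B k (Fin n → k) :=
    Module.Basis.mk hBi (by simp only [id_eq, Subtype.range_coe_subtype, Set.ofPred_mem_eq]; exact hspanB.ge)
  have : Finite B := Module.Finite.finite_basis bB
  cases nonempty_fintype B
  -- lifts of the chosen rows
  have hlift : ∀ b : B, ∃ w : Fin n → R, (fun i => π (evPt R s₀ (w i))) = (b : Fin n → k) ∧
      ((b : Fin n → k) ∈ r → ∃ e, w = M e) := by
    intro b
    by_cases hb : (b : Fin n → k) ∈ r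
    · obtain ⟨e, he⟩ := hr hb
      exact ⟨M e, he, fun _ => ⟨e, rfl⟩⟩
    · obtain ⟨i₀, hi⟩ := (hBsub b.2).resolve_left hb
      refine ⟨fun i => if i = i₀ then 1 else 0, ?_, fun h => absurd h hb⟩
      rw [← hi]
      funext i
      by_cases h : i = i₀ <;> simp [h]
  choose w hw hwr using hlift
  let e0 : B ≃ Fin n := bB.indexEquiv (Pi.basisFun k (Fin n))
  let T : Matrix (Fin n) (Fin n) R := Matrix.of fun a i => w (e0.symm a) i
  have hTres : T.map (π.comp (evPt R s₀)) =
      (Matrix.of fun a i => ((e0.symm a : B) : Fin n → k) i) := by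
    ext a i
    exact congrFun (hw (e0.symm a)) i
  have hTdet : (T.map (π.comp (evPt R s₀))).det ≠ 0 := by
    rw [hTres, ← isUnit_iff_ne_zero, ← Matrix.isUnit_iff_isUnit_det,
      ← Matrix.linearIndependent_rows_iff_isUnit]
    exact hBi.comp e0.symm e0.symm.injective
  obtain ⟨N, hTN, -⟩ := hR.exists_inverse hloc s₀ T hTdet
  -- the number of chosen rows
  have hker : LinearMap.ker φ = ⨅ b : {b : B // (b : Fin n → k) ∈ r},
      LinearMap.ker (Fintype.linearCombination k ((b : B) : Fin n → k)) := by
    ext v
    simp only [LinearMap.mem_ker, Submodule.mem_iInf, hφ]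
    constructor
    · intro hv b
      obtain ⟨e, he⟩ := hr b.2
      have := congrFun hv e
      simp only [LinearMap.pi_apply, Pi.zero_apply, Fintype.linearCombination_apply,
        smul_eq_mul] at this ⊢
      rw [← this, ← he]
    · intro hv
      funext e
      have hmem : row e ∈ Submodule.span k r := hrs ▸ Submodule.subset_span ⟨e, rfl⟩
      show Fintype.linearCombination k (row e) v = 0
      generalize row e = u at hmem
      induction hmem using Submodule.span_induction with
      | mem u hu => exact hv ⟨⟨u, hrB hu⟩, hu⟩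
      | zero => simp [Fintype.linearCombination_apply]
      | add a b _ _ ha hb =>
        simp only [Fintype.linearCombination_apply, Pi.add_apply, smul_eq_mul, mul_add,
          Finset.sum_add_distrib] at ha hb ⊢
        rw [ha, hb, add_zero]
      | smul c a _ ha =>
        simp only [Fintype.linearCombination_apply, Pi.smul_apply, smul_eq_mul, mul_left_comm _ c,
          ← Finset.mul_sum] at ha ⊢
        rw [ha, mul_zero]
  let free : Type _ := {a : Fin n // ((e0.symm a : B) : Fin n → k) ∉ r}
  -- coordinates with respect to `T`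
  have hinvk : IsUnit (T.map (π.comp (evPt R s₀))) := by
    refine (isUnit_iff_exists.2 ⟨N.map (π.comp (evPt R s₀)), ?_, ?_⟩)
    · rw [← Matrix.map_mul, hTN, Matrix.map_one _ (map_zero _) (map_one _)]
    · rw [mul_eq_one_comm, ← Matrix.map_mul, hTN, Matrix.map_one _ (map_zero _) (map_one _)]
  have hd : Fintype.card free = d := by
    rw [← hres, ← finrank_ker_rows (p := fun a => ((e0.symm a : B) : Fin n → k) ∈ r) hinvk]
    refine congrArg (fun V : Submodule k (Fin n → k) => Module.finrank k V) ?_
    rw [hker]
    ext v
    simp only [LinearMap.mem_ker, Submodule.mem_iInf]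
    constructor
    · intro hv b
      have := congrFun hv ⟨e0 b.1, by simp [b.2]⟩
      simp only [LinearMap.pi_apply, Pi.zero_apply] at this
      rw [← this]
      congr 2
      funext i
      have h := congrFun (congrFun hTres (e0 b.1)) i
      simpa using h.symm
    · intro hv
      funext a
      have := hv ⟨e0.symm a.1, a.2⟩
      simp only [LinearMap.pi_apply, Pi.zero_apply]
      rw [← this]
      congr 2
      funext i
      exact congrFun (congrFun hTres a.1) i
  let ef : Fin d ≃ free := (Fintype.equivFinOfCardEq hd).symm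
  refine ⟨fun j i => N i (ef j).1, fun j e s => ?_, ?_⟩
  · set f : R →+* K := ι.comp (evPt R s) with hf
    set ψ := LinearMap.pi fun b : {a : Fin n // ((e0.symm a : B) : Fin n → k) ∈ r} =>
      Fintype.linearCombination K (fun i => f (T b i)) with hψ
    set φs : (Fin n → K) →ₗ[K] (E → K) :=
      LinearMap.pi fun e => Fintype.linearCombination K (fun i => ι (evPt R s (M e i))) with hφs
    have hle : LinearMap.ker φs ≤ LinearMap.ker ψ := by
      intro v hv
      rw [LinearMap.mem_ker] at hv ⊢
      funext b
      obtain ⟨e, he⟩ := hwr (e0.symm b.1) b.2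
      have := congrFun hv e
      simpa [hψ, hφs, hf, T, he] using this
    have heq : LinearMap.ker φs = LinearMap.ker ψ :=
      Submodule.eq_of_le_of_finrank_le hle (by
        have hinv : IsUnit (T.map f) := by
          refine (isUnit_iff_exists.2 ⟨N.map f, ?_, ?_⟩)
          · rw [← Matrix.map_mul, hTN, Matrix.map_one _ (map_zero _) (map_one _)]
          · rw [mul_eq_one_comm, ← Matrix.map_mul, hTN, Matrix.map_one _ (map_zero _) (map_one _)]
        exact (finrank_ker_rows (p := fun a => ((e0.symm a : B) : Fin n → k) ∈ r) hinv).trans_le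
          (hd.le.trans (hgen s)))
    have hx : (fun i => f (N i (ef j).1)) ∈ LinearMap.ker φs := by
      rw [heq, LinearMap.mem_ker]
      funext b
      simp only [hψ, LinearMap.pi_apply, Fintype.linearCombination_apply, smul_eq_mul, Pi.zero_apply]
      rw [← Finset.sum_congr rfl fun i _ => (mul_comm (f (T b i)) (f (N i (ef j).1)))]
      simp only [← map_mul, ← map_sum, ← Matrix.mul_apply, hTN]
      rw [Matrix.one_apply_ne, map_zero]
      intro hba
      exact (ef j).2 (hba ▸ b.2)
    have := congrFun (LinearMap.mem_ker.1 hx) e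
    simpa [hφs, hf, Fintype.linearCombination_apply] using this
  · rw [Fintype.linearIndependent_iff]
    intro c hc j
    have h1 : ∀ a : Fin n, ∑ l, c l * π (evPt R s₀ ((1 : Matrix (Fin n) (Fin n) R) a (ef l).1)) = 0 := by
      intro a
      rw [← hTN]
      simp only [Matrix.mul_apply, map_sum, map_mul, Finset.mul_sum]
      rw [Finset.sum_comm]
      refine Finset.sum_eq_zero fun i _ => ?_
      have := congrFun hc i
      simp only [Finset.sum_apply, Pi.smul_apply, smul_eq_mul, Pi.zero_apply] at this
      simp only [mul_left_comm (c _), ← Finset.mul_sum, this, mul_zero]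
    have := h1 (ef j).1
    rw [Finset.sum_eq_single j] at this
    · simpa using this
    · intro l _ hl
      rw [Matrix.one_apply_ne fun h => hl (ef.injective (Subtype.ext h.symm)), map_zero, map_zero,
        mul_zero]
    · simp

end Fermat.Agent.FlatJ
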