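import Fermat.Agent.FlatJ.Conjugates
import Fermat.Agent.FlatJ.LinAlg

/-!
The local ring of a fibre: restrictions of equivariant integral functions.
-/

set_option autoImplicit false
set_option linter.unusedSectionVars false

noncomputable section

open Polynomial

namespace Fermat.Agent.FlatJ

variable {L : Type} [Field L] [CharZero L] [Algebra.IsAlgebraic ℚ L]
variable {K k : Type} [Field K] [Field k] {A : ValuationSubring K} {π : A →+* k}
variable (j : L →+* K) {Z : Type} [MulAction (L ≃ₐ[ℚ] L) Z]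

/-- restrictions to a fibre of a ring of functions, with values in the valuation ring -/
def fibreRing (Q : Subring (Z → L)) (T : Set Z) : Subring (T → A) where
  carrier := {r | ∃ u ∈ Q, ∀ z : T, (r z : K) = j (u z)}
  one_mem' := ⟨1, one_mem Q, fun z => by simp⟩
  zero_mem' := ⟨0, zero_mem Q, fun z => by simp⟩
  add_mem' := by
    rintro r r' ⟨u, hu, h⟩ ⟨u', hu', h'⟩
    exact ⟨u + u', add_mem hu hu', fun z => by simp [h, h']⟩
  mul_mem' := by
    rintro r r' ⟨u, hu, h⟩ ⟨u', hu', h'⟩
    exact ⟨u * u', mul_mem hu hu', fun z => by simp [h, h']⟩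
  neg_mem' := by
    rintro r ⟨u, hu, h⟩
    exact ⟨-u, neg_mem hu, fun z => by simp [h]⟩

variable {j}

theorem mem_fibreRing {Q : Subring (Z → L)} {T : Set Z} {r : T → A} :
    r ∈ fibreRing j Q T ↔ ∃ u ∈ Q, ∀ z : T, (r z : K) = j (u z) := Iff.rfl

/-- A ring of equivariant integral functions with residues constant on a stable set gives a local
family there. -/
theorem isLocalFamily_fibre [Finite Z] [Finite (L ≃ₐ[ℚ] L)] {P : ValuationSubring L}
    (hP : ∀ x, x ∈ P ↔ j x ∈ A) {Q : Subring (Z → L)}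
    (hconst : ∀ a ∈ inertRing P, (fun _ : Z => a) ∈ Q)
    (hequiv : ∀ u ∈ Q, ∀ η ∈ inertG P, ∀ z, u (η • z) = η (u z))
    (hval : ∀ u ∈ Q, ∀ z, j (u z) ∈ A) {T : Set Z}
    (hT : ∀ η ∈ inertG P, ∀ z, η • z ∈ T ↔ z ∈ T)
    (hres : ∀ u (hu : u ∈ Q), ∀ z ∈ T, ∀ w ∈ T, π ⟨_, hval u hu z⟩ = π ⟨_, hval u hu w⟩) :
    IsLocalFamily π (fibreRing (A := A) j Q T) := by
  classical
  refine ⟨?_, ?_⟩
  · rintro r ⟨u, hu, h⟩ s t
    rw [show r s = ⟨_, hval u hu s⟩ from Subtype.ext (h s),
      show r t = ⟨_, hval u hu t⟩ from Subtype.ext (h t)]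
    exact hres u hu s s.2 t t.2
  rintro r ⟨u, hu, hru⟩ hr r' hr'
  cases nonempty_fintype Z
  have huP : ∀ z, u z ∈ P := fun z => (hP _).2 (hval u hu z)
  let f : L[X] := ∏ z : T, (X - C (u z))
  have hfint : ∀ i, f.coeff i ∈ inertRing P := by
    intro i
    refine ⟨?_, fun η hη => ?_⟩
    · let f' : P[X] := ∏ z : T, (X - C (⟨u z, huP z⟩ : P))
      have hmap : f'.map P.subtype = f := by
        simp only [f', f, Polynomial.map_prod, Polynomial.map_sub, Polynomial.map_X,
          Polynomial.map_C]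
        rfl
      rw [← hmap, Polynomial.coeff_map]
      exact (f'.coeff i).2
    · have hmap : f.map (η : L →+* L) = f := by
        simp only [f, Polynomial.map_prod, Polynomial.map_sub, Polynomial.map_X, Polynomial.map_C]
        refine Fintype.prod_equiv ((MulAction.toPerm η).subtypeEquiv fun z => (hT η hη z).symm)
          _ _ fun z => ?_
        show (X : L[X]) - C (η (u z)) = X - C (u (η • (z : Z)))
        rw [hequiv u hu η hη]
      have := congrArg (fun g => g.coeff i) hmap
      simpa [Polynomial.coeff_map] using this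
  have hunit : ∀ z : T, u z ≠ 0 ∧ (u z)⁻¹ ∈ P := by
    intro z
    have h1 := congrFun hr' z
    have h2 : (r z : K) * r' z = 1 := congrArg Subtype.val h1
    rw [hru] at h2
    refine ⟨fun h => ?_, (hP _).2 ?_⟩
    · rw [h, map_zero, zero_mul] at h2
      exact zero_ne_one h2
    · rw [map_inv₀, inv_eq_of_mul_eq_one_right h2]
      exact (r' z).2
  have hf0 : f.coeff 0 = ∏ z : T, -u z := by
    rw [Polynomial.coeff_zero_eq_eval_zero, eval_prod]
    simp
  have hinv : (f.coeff 0)⁻¹ ∈ inertRing P := by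
    refine ⟨?_, fun η hη => by rw [map_inv₀, (hfint 0).2 η hη]⟩
    rw [hf0, ← Finset.prod_inv_distrib]
    exact prod_mem fun z _ => by rw [inv_neg]; exact neg_mem (hunit z).2
  have hne : f.coeff 0 ≠ 0 := by
    rw [hf0]
    exact Finset.prod_ne_zero_iff.2 fun z _ => neg_ne_zero.2 (hunit z).1
  let v : Z → L :=
    -((fun _ => (f.coeff 0)⁻¹) * ∑ i ∈ Finset.range f.natDegree, (fun _ => f.coeff (i + 1)) * u ^ i)
  refine ⟨v, neg_mem (mul_mem (hconst _ hinv) (sum_mem fun i _ =>
    mul_mem (hconst _ (hfint _)) (pow_mem hu i))), fun z => ?_⟩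
  have heval : f.eval (u z) = 0 := by
    rw [eval_prod]
    exact Finset.prod_eq_zero (Finset.mem_univ z) (by simp)
  rw [Polynomial.eval_eq_sum_range, Finset.sum_range_succ', pow_zero, mul_one] at heval
  have hsum : (∑ i ∈ Finset.range f.natDegree, f.coeff (i + 1) * u z ^ i) * u z = -f.coeff 0 := by
    rw [Finset.sum_mul, eq_neg_iff_add_eq_zero]
    simpa [pow_succ, mul_assoc] using heval
  have hv : v z * u z = 1 := by
    simp only [v, Pi.neg_apply, Pi.mul_apply, Finset.sum_apply, Pi.pow_apply]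
    rw [neg_mul, mul_assoc, hsum, mul_neg, neg_neg, inv_mul_cancel₀ hne]
  have h2 : (r z : K) * r' z = 1 := congrArg Subtype.val (congrFun hr' z)
  rw [hru] at h2
  rw [eq_inv_of_mul_eq_one_left hv, map_inv₀, inv_eq_of_mul_eq_one_right h2]

omit [MulAction (L ≃ₐ[ℚ] L) Z] in
/-- A function which is in the ring on every fibre of a partition with indicators in the ring is
in the ring. -/
theorem glue {ι : Type*} [Fintype ι] [DecidableEq ι] (cls : Z → ι) {Q : Subring (Z → L)}
    (hind : ∀ i, (fun z => if cls z = i then (1 : L) else 0) ∈ Q) {u : Z → L}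
    (h : ∀ i, ∃ w ∈ Q, ∀ z, cls z = i → w z = u z) : u ∈ Q := by
  classical
  choose w hw hwu using h
  have : u = ∑ i, (fun z => if cls z = i then (1 : L) else 0) * w i := by
    funext z
    simp [Finset.sum_apply, hwu (cls z) z rfl]
  rw [this]
  exact sum_mem fun i _ => mul_mem (hind i) (hw i)

end Fermat.Agent.FlatJ
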