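import Fermat.Agent.FlatJ.Descent

/-!
The finite flat model over `ℤ_(ℓ)` attached to an inertia lattice.
-/

set_option autoImplicit false
set_option linter.unusedSectionVars false

noncomputable section

open scoped TensorProduct

namespace Fermat.Agent.FlatJ

/-- A finite flat cocommutative model over `ℤ_(ℓ)` of a finite Galois module. -/
def HasModel (ℓ : ℕ) (M : Type) [AddCommGroup M]
    (act : (AlgebraicClosure ℚ ≃ₐ[ℚ] AlgebraicClosure ℚ) → M → M) : Prop :=
  ∃ (H : Type) (_ : CommRing H) (_ : HopfAlgebra (GaloisRep.ratLocalizedAt ℓ) H),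
    Module.Finite (GaloisRep.ratLocalizedAt ℓ) H ∧ Module.Flat (GaloisRep.ratLocalizedAt ℓ) H ∧
    Coalgebra.IsCocomm (GaloisRep.ratLocalizedAt ℓ) H ∧
    ∃ e : WithConv (H →ₐ[GaloisRep.ratLocalizedAt ℓ] AlgebraicClosure ℚ) ≃ M,
      (∀ f g, e (f * g) = e f + e g) ∧
      ∀ (σ : AlgebraicClosure ℚ ≃ₐ[ℚ] AlgebraicClosure ℚ)
        (f g : WithConv (H →ₐ[GaloisRep.ratLocalizedAt ℓ] AlgebraicClosure ℚ)),
        (∀ h : H, g h = σ (f h)) → e g = act σ (e f)

theorem FunLattice.hasModel {ℓ : ℕ} {M : Type} [AddCommGroup M] [Finite M]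
    (T : FunLattice (GaloisRep.ratLocalizedAt ℓ) (AlgebraicClosure ℚ) M)
    (act : (AlgebraicClosure ℚ ≃ₐ[ℚ] AlgebraicClosure ℚ) → M → M)
    (heq : ∀ h ∈ T.H, ∀ σ x, h (act σ x) = σ (h x)) : HasModel ℓ M act := by
  refine ⟨T.H, inferInstance, T.hopfAlgebra, T.finite, T.flat, T.isCocomm,
    T.pointsEquiv.symm, fun f g => ?_, fun σ f g h =>
      T.smul_eq_of_equivariant act (fun σ a => σ a) heq σ f g h⟩
  let := T.hopfAlgebra
  rw [Equiv.symm_apply_eq, T.pointsEquiv_add, Equiv.apply_symm_apply, Equiv.apply_symm_apply]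

theorem ratLocalizedAt_mem_iff {ℓ : ℕ} (hℓ : ℓ.Prime) (r : ℚ) :
    r ∈ GaloisRep.ratLocalizedAt ℓ ↔ ¬ ℓ ∣ r.den := by
  show r.den.Coprime ℓ ↔ _
  rw [Nat.coprime_comm, hℓ.coprime_iff_not_dvd]

theorem isLocalRing_not_isField_aux {ℓ : ℕ} (hℓ : ℓ.Prime) (r : GaloisRep.ratLocalizedAt ℓ)
    (h : ¬ (ℓ : ℤ) ∣ (r : ℚ).num) : IsUnit r := by
  have h0 : (r : ℚ) ≠ 0 := fun h0 => h (by rw [h0]; simp)
  have hmem : (r : ℚ)⁻¹ ∈ GaloisRep.ratLocalizedAt ℓ := by
    rw [ratLocalizedAt_mem_iff hℓ, Rat.den_inv_of_ne_zero h0]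
    exact fun hd => h (Int.natCast_dvd.2 hd)
  exact IsUnit.of_mul_eq_one ⟨_, hmem⟩ (Subtype.ext (mul_inv_cancel₀ h0))

theorem isPrincipalIdealRing_ratLocalizedAt {ℓ : ℕ} (hℓ : ℓ.Prime) :
    IsPrincipalIdealRing (GaloisRep.ratLocalizedAt ℓ) := by
  constructor
  intro I
  let J : Ideal ℤ := I.comap (algebraMap ℤ _)
  refine ⟨(algebraMap ℤ (GaloisRep.ratLocalizedAt ℓ) (Submodule.IsPrincipal.generator J)),
    le_antisymm (fun x hx => ?_) ?_⟩
  · have hden : IsUnit ((((x : ℚ).den : ℤ) : GaloisRep.ratLocalizedAt ℓ)) :=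
      isLocalRing_not_isField_aux hℓ _ (by
        simpa [Int.natCast_dvd_natCast] using (ratLocalizedAt_mem_iff hℓ (x : ℚ)).1 x.2)
    have heq : (((x : ℚ).num : ℤ) : GaloisRep.ratLocalizedAt ℓ) =
        x * (((x : ℚ).den : ℤ) : GaloisRep.ratLocalizedAt ℓ) := by
      apply Subtype.ext
      push_cast
      exact (Rat.mul_den_eq_num (x : ℚ)).symm
    have hnum : (x : ℚ).num ∈ J := by
      rw [Ideal.mem_comap, eq_intCast, heq]
      exact I.mul_mem_right _ hx
    rw [Submodule.IsPrincipal.mem_iff_eq_smul_generator J] at hnum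
    obtain ⟨c, hc⟩ := hnum
    obtain ⟨u, hu⟩ := hden
    refine Ideal.mem_span_singleton'.2 ⟨(c : GaloisRep.ratLocalizedAt ℓ) * (↑u⁻¹), ?_⟩
    calc (c : GaloisRep.ratLocalizedAt ℓ) * ↑u⁻¹ * algebraMap ℤ _ (Submodule.IsPrincipal.generator J)
        = algebraMap ℤ _ (c • Submodule.IsPrincipal.generator J) * ↑u⁻¹ := by
          rw [smul_eq_mul, map_mul, eq_intCast, eq_intCast]; ring
      _ = x * (u : GaloisRep.ratLocalizedAt ℓ) * ↑u⁻¹ := by
          rw [← hc, eq_intCast, heq, hu]
      _ = x := u.mul_inv_cancel_right x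
  · rw [Ideal.span_le, Set.singleton_subset_iff]
    exact Submodule.IsPrincipal.generator_mem J

namespace InertiaLattice

variable {L : Type} [Field L] [CharZero L] [Algebra.IsAlgebraic ℚ L] [Finite (L ≃ₐ[ℚ] L)]
variable {M : Type} [AddCommGroup M] [DistribMulAction (L ≃ₐ[ℚ] L) M] [Finite M]
variable {P : ValuationSubring L} (Λ : InertiaLattice P M) {ℓ : ℕ}

/-- the composite of a function with an embedding -/
def compEmb (ι : L →ₐ[ℚ] AlgebraicClosure ℚ) : (M → L) →+* (M → AlgebraicClosure ℚ) :=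
  RingHom.compLeft (ι : L →+* AlgebraicClosure ℚ) M

@[simp] theorem compEmb_apply (ι : L →ₐ[ℚ] AlgebraicClosure ℚ) (f : M → L) (x : M) :
    compEmb ι f x = ι (f x) := rfl

theorem algebraMap_smul_eq (ι : L →ₐ[ℚ] AlgebraicClosure ℚ) (r : GaloisRep.ratLocalizedAt ℓ)
    (f : M → L) : r • compEmb ι f = compEmb ι (((r : ℚ) : L) • f) := by
  funext x
  show r • ι (f x) = ι (((r : ℚ) : L) * f x)
  rw [map_mul, map_ratCast, Algebra.smul_def]
  rfl

theorem ratCast_mem_inertRing (hP : P.LiesOverPrime ℓ) (hℓ : ℓ.Prime) {r : ℚ}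
    (hr : r ∈ GaloisRep.ratLocalizedAt ℓ) : (r : L) ∈ inertRing P :=
  ⟨(Galois.place_ratCast_mem_iff hP hℓ r).2 ((ratLocalizedAt_mem_iff hℓ r).1 hr),
    fun η _ => map_ratCast η r⟩

theorem fixedFuns_mul {f g : M → L} (hf : f ∈ Λ.fixedFuns) (hg : g ∈ Λ.fixedFuns) :
    f * g ∈ Λ.fixedFuns :=
  ⟨mul_mem hf.1 hg.1, fun σ => by rw [map_mul, hf.2 σ, hg.2 σ]⟩

theorem fixedFuns_const (hP : P.LiesOverPrime ℓ) (hℓ : ℓ.Prime) {r : ℚ}
    (hr : r ∈ GaloisRep.ratLocalizedAt ℓ) : (fun _ : M => (r : L)) ∈ Λ.fixedFuns :=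
  ⟨Λ.const_mem _ (ratCast_mem_inertRing hP hℓ hr), fun σ => funext fun _ => map_ratCast σ r⟩

/-- The `ℤ_(ℓ)`-algebra of the model. -/
def modelAlgebra (hP : P.LiesOverPrime ℓ) (hℓ : ℓ.Prime) (ι : L →ₐ[ℚ] AlgebraicClosure ℚ) :
    Subalgebra (GaloisRep.ratLocalizedAt ℓ) (M → AlgebraicClosure ℚ) where
  carrier := compEmb ι '' (Λ.fixedFuns : Set (M → L))
  mul_mem' := by
    rintro _ _ ⟨f, hf, rfl⟩ ⟨g, hg, rfl⟩
    exact ⟨f * g, Λ.fixedFuns_mul hf hg, map_mul _ _ _⟩
  add_mem' := by
    rintro _ _ ⟨f, hf, rfl⟩ ⟨g, hg, rfl⟩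
    exact ⟨f + g, add_mem hf hg, map_add _ _ _⟩
  algebraMap_mem' r := by
    refine ⟨_, Λ.fixedFuns_const hP hℓ r.2, funext fun x => ?_⟩
    rw [compEmb_apply, map_ratCast]
    rfl

theorem mem_modelAlgebra {hP : P.LiesOverPrime ℓ} {hℓ : ℓ.Prime}
    {ι : L →ₐ[ℚ] AlgebraicClosure ℚ} {h : M → AlgebraicClosure ℚ} :
    h ∈ Λ.modelAlgebra hP hℓ ι ↔ ∃ f ∈ Λ.fixedFuns, compEmb ι f = h := Iff.rfl

theorem map_smul_fixed (ι : L →ₐ[ℚ] AlgebraicClosure ℚ) (c : L) (f : M → L) :
    compEmb ι (c • f) = ι c • compEmb ι f := by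
  funext x
  simp

theorem linearIndependent_fixed [IsGalois ℚ L] [FiniteDimensional ℚ L]
    (ι : L →ₐ[ℚ] AlgebraicClosure ℚ) {κ : Type*} (f : κ → M → L)
    (hfix : ∀ i σ, conjFun σ (f i) = f i)
    (hind : LinearIndependent ℚ f) :
    LinearIndependent (AlgebraicClosure ℚ) fun i => compEmb ι (f i) := by
  classical
  cases nonempty_fintype M
  rw [linearIndependent_iff_finset_linearIndependent]
  intro s
  -- invariants of a semilinear action: rational independence gives independence over `L`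
  have hL : ∀ (t : Finset κ) (c : κ → L), ∑ i ∈ t, c i • f i = 0 → ∀ i ∈ t, c i = 0 := by
    intro t
    induction t using Finset.induction_on with
    | empty => simp
    | insert a t hat ih =>
      intro c hc
      by_cases ha : c a = 0
      · rw [Finset.sum_insert hat, ha, zero_smul, zero_add] at hc
        intro i hi
        rcases Finset.mem_insert.1 hi with rfl | hi
        · exact ha
        · exact ih c hc i hi
      exfalso
      have hd0 : ∑ i ∈ insert a t, ((c a)⁻¹ * c i) • f i = 0 := by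
        simp only [mul_smul, ← Finset.smul_sum, hc, smul_zero]
      set d : κ → L := fun i => (c a)⁻¹ * c i with hd
      have hda : d a = 1 := inv_mul_cancel₀ ha
      have hrat : ∀ i ∈ t, ∃ q : ℚ, algebraMap ℚ L q = d i := by
        intro i hi
        refine (IsGalois.mem_bot_iff_fixed _).2 fun σ => sub_eq_zero.1 ?_
        have hσ := congrArg (conjFun σ) hd0
        simp only [map_sum, map_zero, conjFun_smul, hfix] at hσ
        have hsub : ∑ i ∈ insert a t, (σ (d i) - d i) • f i = 0 := by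
          simp only [sub_smul, Finset.sum_sub_distrib]
          exact sub_eq_zero.2 (hσ.trans hd0.symm)
        rw [Finset.sum_insert hat, hda, map_one, sub_self, zero_smul, zero_add] at hsub
        exact ih _ hsub i hi
      choose! q hq using hrat
      let q' : κ → ℚ := fun i => if i = a then 1 else q i
      have hq0 : ∑ i ∈ insert a t, q' i • f i = 0 := by
        rw [← hd0]
        refine Finset.sum_congr rfl fun i hi => ?_
        rw [← algebraMap_smul L (q' i) (f i)]
        rcases Finset.mem_insert.1 hi with rfl | hi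
        · simp [q', inv_mul_cancel₀ ha]
        · rw [show q' i = q i from if_neg (ne_of_mem_of_not_mem hi hat), hq i hi]
      have := linearIndependent_iff'.1 hind (insert a t) q' hq0 a (Finset.mem_insert_self a t)
      simp [q'] at this
  -- extend the scalars along the embedding
  have hLi : LinearIndependent L (fun i : s => f i) := by
    rw [Fintype.linearIndependent_iff]
    intro g hg i
    let g' : κ → L := fun k => if h : k ∈ s then g ⟨k, h⟩ else 0
    have := hL s g' (by
      rw [← Finset.sum_coe_sort s, ← hg]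
      exact Finset.sum_congr rfl fun k _ => by simp [g']) i i.2
    simpa [g'] using this
  obtain ⟨g, hg⟩ := (Fintype.linearCombination L (fun i : s => f i)).exists_leftInverse_of_injective
    (LinearMap.ker_eq_bot.2 hLi.fintypeLinearCombination_injective)
  let W : M → s → L := fun x => g (Pi.single x 1)
  have hW : ∀ i j : s, ∑ x, f i x * W x j = if i = j then 1 else 0 := by
    intro i j
    have h1 : g (f i) = Pi.single i 1 := by
      have := LinearMap.congr_fun hg (Pi.single i 1)
      simpa [Fintype.linearCombination_apply_single] using this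
    have h2 : f i = ∑ x : M, f i x • (Pi.single x 1 : M → L) := by
      funext y; simp [Finset.sum_apply, Pi.single_apply]
    rw [h2, map_sum] at h1
    have h3 := congrFun h1 j
    simpa [W, Pi.single_apply, eq_comm, Finset.sum_apply] using h3
  rw [Fintype.linearIndependent_iff]
  intro c hc j
  replace hc : ∑ i : s, c i • compEmb ι (f i) = 0 := hc
  have h0 : ∑ x, (∑ i : s, c i • compEmb ι (f i)) x * ι (W x j) = 0 := by
    rw [hc]; simp
  simp only [Finset.sum_apply, Pi.smul_apply, compEmb_apply, smul_eq_mul, Finset.sum_mul,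
    mul_assoc, ← map_mul] at h0
  rw [Finset.sum_comm] at h0
  simp only [← Finset.mul_sum, ← map_sum, hW] at h0
  simpa [apply_ite ι] using h0

theorem exists_funLattice [IsGalois ℚ L] [FiniteDimensional ℚ L] (hP : P.LiesOverPrime ℓ)
    (hℓ : ℓ.Prime) (ι : L →ₐ[ℚ] AlgebraicClosure ℚ) :
    ∃ T : FunLattice (GaloisRep.ratLocalizedAt ℓ) (AlgebraicClosure ℚ) M,
      T.H = Λ.modelAlgebra hP hℓ ι := by
  classical
  cases nonempty_fintype M
  have := isPrincipalIdealRing_ratLocalizedAt hℓ
  set R := GaloisRep.ratLocalizedAt ℓ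
  set H := Λ.modelAlgebra hP hℓ ι with hH
  obtain ⟨κ, _, bL, hbL⟩ := Λ.exists_fixed_basis hP hℓ
  obtain ⟨k, hk⟩ := exists_pow_mul_mem_uniform P hP hℓ
    (fun p : κ × M => bL.repr (Pi.single p.2 1) p.1)
  have hℓR : (ℓ : ℚ) ∈ R := natCast_mem R ℓ
  have hℓ0 : (ℓ : L) ≠ 0 := Nat.cast_ne_zero.2 hℓ.ne_zero
  -- finiteness: coordinates in the fixed basis, scaled
  let coord : H →ₗ[R] (κ → AlgebraicClosure ℚ) :=
    LinearMap.pi fun i => ((LinearMap.proj i ∘ₗ
      ((Fintype.linearCombination (AlgebraicClosure ℚ) fun x : M => fun j : κ =>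
        ι ((ℓ : L) ^ k * bL.repr (Pi.single x 1) j)).restrictScalars R)) :
          (M → AlgebraicClosure ℚ) →ₗ[R] AlgebraicClosure ℚ) ∘ₗ H.val.toLinearMap
  have hcoord : ∀ (h : H) (f : M → L), compEmb ι f = h → ∀ i,
      coord h i = ι ((ℓ : L) ^ k * bL.repr f i) := by
    intro h f hf i
    simp only [coord, LinearMap.pi_apply, LinearMap.comp_apply, LinearMap.restrictScalars_apply,
      LinearMap.proj_apply, Fintype.linearCombination_apply, Finset.sum_apply, Pi.smul_apply,
      smul_eq_mul, AlgHom.toLinearMap_apply, Subalgebra.coe_val, ← hf, compEmb_apply, ← map_mul,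
      ← map_sum]
    congr 1
    conv_rhs => rw [show f = ∑ x : M, f x • (Pi.single x 1 : M → L) by
      funext y; simp [Finset.sum_apply, Pi.single_apply]]
    simp only [map_sum, Finsupp.coe_finsetSum, Finset.sum_apply, map_smul, Finsupp.smul_apply,
      smul_eq_mul, Finset.mul_sum]
    exact Finset.sum_congr rfl fun x _ => by ring
  have hbot : ∀ {a : L}, (∀ σ : L ≃ₐ[ℚ] L, σ a = a) → ∃ q : ℚ, (q : L) = a := fun h => by
    obtain ⟨q, hq⟩ := (IsGalois.mem_bot_iff_fixed _).2 h
    exact ⟨q, by simpa using hq⟩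
  have hrange : ∀ h : H, ∀ i, ∃ r : R, coord h i = algebraMap R (AlgebraicClosure ℚ) r := by
    intro h i
    obtain ⟨f, hf, hfh⟩ := h.2
    obtain ⟨q, hq⟩ := hbot (a := (ℓ : L) ^ k * bL.repr f i) fun σ => by
      rw [map_mul, map_pow, map_natCast]
      congr 1
      have h1 := hf.2 σ
      conv_lhs at h1 => rw [← bL.sum_repr f, map_sum]
      simp only [conjFun_smul, (hbL _).2 σ] at h1
      have h2 := congrArg (fun w => bL.repr w i) h1
      simpa [map_sum, Finsupp.single_apply] using h2
    have hqP : (q : L) ∈ P := by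
      rw [hq]
      have hdec : f = ∑ x : M, f x • (Pi.single x 1 : M → L) := by
        funext y; simp [Finset.sum_apply, Pi.single_apply]
      rw [hdec, map_sum, Finsupp.coe_finsetSum, Finset.sum_apply, Finset.mul_sum]
      refine sum_mem fun x _ => ?_
      rw [map_smul, Finsupp.smul_apply, smul_eq_mul, mul_left_comm]
      exact mul_mem (Λ.val_mem f hf.1 x) (hk (i, x))
    refine ⟨⟨q, (ratLocalizedAt_mem_iff hℓ q).2 ((Galois.place_ratCast_mem_iff hP hℓ q).1 hqP)⟩,
      ?_⟩
    rw [hcoord h f hfh i, ← hq, map_ratCast]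
    rfl
  choose r hr using hrange
  have hinjR : Function.Injective (algebraMap R (AlgebraicClosure ℚ)) := fun a b hab =>
    Subtype.ext ((algebraMap ℚ (AlgebraicClosure ℚ)).injective hab)
  let cR : H →ₗ[R] (κ → R) :=
    { toFun := fun h i => r h i
      map_add' := fun a b => funext fun i => hinjR (by
        rw [Pi.add_apply, map_add, ← hr, ← hr, ← hr, map_add, Pi.add_apply])
      map_smul' := fun c a => funext fun i => hinjR (by
        rw [Pi.smul_apply, RingHom.id_apply, smul_eq_mul, map_mul, ← hr, ← hr, map_smul,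
          Pi.smul_apply, Algebra.smul_def]) }
  have hcR : Function.Injective cR := by
    intro a b hab
    obtain ⟨f, hf, hfa⟩ := a.2
    obtain ⟨g, hg, hgb⟩ := b.2
    have hfg : f = g := bL.repr.injective (Finsupp.ext fun i => by
      have h1 : coord a i = coord b i := by
        rw [hr, hr]
        exact congrArg _ (congrFun hab i)
      rw [hcoord a f hfa, hcoord b g hgb] at h1
      exact mul_left_cancel₀ (pow_ne_zero _ hℓ0) (ι.injective h1))
    exact Subtype.ext (by rw [← hfa, ← hgb, hfg])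
  obtain ⟨m, bR⟩ := Submodule.basisOfPid (Pi.basisFun R κ) (LinearMap.range cR)
  let bH : Module.Basis (Fin m) R H := bR.map (LinearEquiv.ofInjective cR hcR).symm
  choose f hf hfH using fun i => (bH i).2
  have hindR : LinearIndependent R f := by
    rw [Fintype.linearIndependent_iff]
    intro g hg
    refine Fintype.linearIndependent_iff.1 bH.linearIndependent g (Subtype.ext ?_)
    have := congrArg (compEmb ι) hg
    rw [map_sum, map_zero] at this
    simp only [AddSubmonoidClass.coe_finsetSum, Subalgebra.coe_smul, ZeroMemClass.coe_zero]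
    rw [← this]
    refine Finset.sum_congr rfl fun i _ => ?_
    rw [← hfH, algebraMap_smul_eq]
    congr 1
    funext x
    show (((g i : R) : ℚ) : L) * f i x = g i • f i x
    rw [Algebra.smul_def]
    congr 1
  have hindQ : LinearIndependent ℚ f := by
    rw [Fintype.linearIndependent_iff]
    intro g hg i
    let d : ℕ := ∏ j, (g j).den
    have hgd : ∀ j, (d : ℚ) * g j ∈ R := fun j => by
      have hj : (g j).den ∣ d := Finset.dvd_prod_of_mem _ (Finset.mem_univ j)
      obtain ⟨e, he⟩ := hj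
      rw [he, Nat.cast_mul, show ((g j).den : ℚ) * e * g j = (e : ℚ) * (g j * (g j).den) by ring,
        Rat.mul_den_eq_num]
      exact mul_mem (natCast_mem R e) (intCast_mem R _)
    have := Fintype.linearIndependent_iff.1 hindR (fun j => ⟨_, hgd j⟩) (by
      calc _ = (d : ℚ) • ∑ j, g j • f j := by
            rw [Finset.smul_sum]
            exact Finset.sum_congr rfl fun j _ => by rw [smul_smul]; rfl
        _ = 0 := by rw [hg, smul_zero]) i
    have hd : (d : ℚ) ≠ 0 := Nat.cast_ne_zero.2 (Finset.prod_ne_zero_iff.2 fun j _ => (g j).den_nz)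
    exact (mul_eq_zero.1 (congrArg Subtype.val this)).resolve_left hd
  have hind : LinearIndependent (AlgebraicClosure ℚ)
      (fun i => ((bH i : H) : M → AlgebraicClosure ℚ)) := by
    simp only [← hfH]
    exact linearIndependent_fixed ι f (fun i => (hf i).2) hindQ
  have hspanL : ∀ g ∈ Λ.fixedFuns, compEmb ι g ∈ Submodule.span (AlgebraicClosure ℚ)
      (Set.range fun i => ((bH i : H) : M → AlgebraicClosure ℚ)) := by
    intro g hg
    have := congrArg (fun h : H => (h : M → AlgebraicClosure ℚ))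
      (bH.sum_repr (⟨_, g, hg, rfl⟩ : H))
    simp only [AddSubmonoidClass.coe_finsetSum, Subalgebra.coe_smul] at this
    rw [← this]
    refine sum_mem fun i _ => ?_
    rw [← algebraMap_smul (AlgebraicClosure ℚ) (bH.repr _ i)]
    exact Submodule.smul_mem _ _ (Submodule.subset_span ⟨i, rfl⟩)
  have hspan : Submodule.span (AlgebraicClosure ℚ)
      (Set.range fun i => ((bH i : H) : M → AlgebraicClosure ℚ)) = ⊤ := by
    rw [eq_top_iff]
    intro v _
    rw [show v = ∑ x : M, v x • compEmb ι (Pi.single x (1 : L)) by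
      funext y; simp [Finset.sum_apply, Pi.single_apply, apply_ite ι]]
    refine sum_mem fun x _ => Submodule.smul_mem _ _ ?_
    rw [← bL.sum_repr (Pi.single x 1), map_sum]
    exact sum_mem fun j _ => by
      rw [map_smul_fixed]; exact Submodule.smul_mem _ _ (hspanL _ (hbL j))
  refine ⟨{
    H := H
    inj := hinjR
    ι := Fin m
    basis := bH
    indep := hind
    spans := hspan
    comul_mem := ?_
    counit_mem := ?_
    neg_mem := ?_ }, rfl⟩
  · rintro h ⟨g, hg, rfl⟩
    -- the coefficients over the inertia invariants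
    let W : Set (M × M → L) := {u | ∃ c : Fin m → Fin m → L, (∀ i j, c i j ∈ inertRing P) ∧
      u = fun z => ∑ i, ∑ j, c i j * f i z.1 * f j z.2}
    have hone : ∀ v ∈ Λ.fixedSpan, ∃ c : Fin m → L, (∀ i, c i ∈ inertRing P) ∧
        v = ∑ i, c i • f i := by
      intro v hv
      induction hv using AddSubgroup.closure_induction with
      | mem v hv =>
        obtain ⟨a, ha, g', hg', rfl⟩ := hv
        have hmem : compEmb ι g' ∈ H := ⟨g', hg', rfl⟩
        refine ⟨fun i => a * ((bH.repr ⟨_, hmem⟩ i : ℚ) : L), fun i =>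
          mul_mem ha (ratCast_mem_inertRing hP hℓ (bH.repr _ i).2), ?_⟩
        have h1 := congrArg (fun h : H => (h : M → AlgebraicClosure ℚ)) (bH.sum_repr ⟨_, hmem⟩)
        simp only [AddSubmonoidClass.coe_finsetSum, Subalgebra.coe_smul, ← hfH] at h1
        rw [Finset.sum_congr rfl fun i _ => algebraMap_smul_eq ι (bH.repr ⟨_, hmem⟩ i) (f i),
          ← map_sum (compEmb ι)] at h1
        have h2 : ∑ i, ((bH.repr ⟨_, hmem⟩ i : ℚ) : L) • f i = g' :=
          (show Function.Injective (compEmb (M := M) ι) from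
            fun u u' huu => funext fun x => ι.injective (congrFun huu x)) h1
        simp only [mul_smul, ← Finset.smul_sum, h2]
      | zero => exact ⟨0, fun _ => zero_mem _, by simp⟩
      | add a b _ _ iha ihb =>
        obtain ⟨c, hc, rfl⟩ := iha
        obtain ⟨c', hc', rfl⟩ := ihb
        exact ⟨c + c', fun i => add_mem (hc i) (hc' i), by
          simp [add_smul, Finset.sum_add_distrib]⟩
      | neg a _ iha =>
        obtain ⟨c, hc, rfl⟩ := iha
        exact ⟨-c, fun i => neg_mem (hc i), by simp⟩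
    have hpair : ∀ u ∈ pairRing Λ.S, ∃ p q : List (M → L), p.length = q.length ∧
        (∀ a ∈ p, a ∈ Λ.S) ∧ (∀ a ∈ q, a ∈ Λ.S) ∧
        u = fun z => ((p.zip q).map fun w => w.1 z.1 * w.2 z.2).sum := by
      intro u hu
      have hmem : u ∈ Subring.closure
          ((fun f : M → L => fun z : M × M => f z.1) '' Λ.S ∪
            (fun f : M → L => fun z : M × M => f z.2) '' Λ.S) := hu
      rw [Subring.mem_closure_iff] at hmem
      clear hu
      induction hmem using AddSubgroup.closure_induction with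
      | mem u hu =>
        obtain ⟨a, ha, b, hb, rfl⟩ : ∃ a ∈ Λ.S, ∃ b ∈ Λ.S,
            u = fun z : M × M => a z.1 * b z.2 := by
          induction hu using Submonoid.closure_induction with
          | mem u hu =>
            rcases hu with ⟨a, ha, rfl⟩ | ⟨a, ha, rfl⟩
            · exact ⟨a, ha, 1, one_mem _, by simp⟩
            · exact ⟨1, one_mem _, a, ha, by simp⟩
          | one => exact ⟨1, one_mem _, 1, one_mem _, by funext z; simp⟩
          | mul u w _ _ ihu ihw =>
            obtain ⟨a, ha, b, hb, rfl⟩ := ihu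
            obtain ⟨a', ha', b', hb', rfl⟩ := ihw
            exact ⟨a * a', mul_mem ha ha', b * b', mul_mem hb hb', by funext z; simp; ring⟩
        exact ⟨[a], [b], rfl, by simpa using ha, by simpa using hb, by simp⟩
      | zero => exact ⟨[], [], rfl, by simp, by simp, by funext z; simp⟩
      | add u w hu' hw' ihu ihw =>
        obtain ⟨p, q, hl, hp, hq, rfl⟩ := ihu
        obtain ⟨p', q', hl', hp', hq', rfl⟩ := ihw
        refine ⟨p ++ p', q ++ q', by simp [hl, hl'], ?_, ?_, ?_⟩
        · intro a ha; rcases List.mem_append.1 ha with h | h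
          exacts [hp a h, hp' a h]
        · intro a ha; rcases List.mem_append.1 ha with h | h
          exacts [hq a h, hq' a h]
        · funext z; simp [List.zip_append hl, List.sum_append]
      | neg u hu' ihu =>
        obtain ⟨p, q, hl, hp, hq, rfl⟩ := ihu
        refine ⟨p.map (-·), q, by simp [hl], ?_, hq, ?_⟩
        · intro a ha; obtain ⟨a', ha', rfl⟩ := List.mem_map.1 ha; exact neg_mem (hp a' ha')
        · funext z
          simp [List.zip_map_left, List.map_map, Function.comp_def, List.sum_neg, neg_mul]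
    obtain ⟨p, q, -, hp, hq, hpq⟩ := hpair _ (Λ.comul g hg.1)
    have hW : (fun z : M × M => g (z.1 + z.2)) ∈ W := by
      rw [hpq]
      clear hpq
      induction p generalizing q with
      | nil => exact ⟨0, fun _ _ => zero_mem _, by simp⟩
      | cons a p ih =>
        cases q with
        | nil => exact ⟨0, fun _ _ => zero_mem _, by simp⟩
        | cons b q =>
          obtain ⟨c, hc, hcs⟩ := ih q (fun x hx => hp x (by simp [hx])) (fun x hx => hq x (by simp [hx]))
          obtain ⟨ca, hca, rfl⟩ := hone a (Λ.mem_fixedSpan hP hℓ (hp a (by simp)))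
          obtain ⟨cb, hcb, rfl⟩ := hone b (Λ.mem_fixedSpan hP hℓ (hq b (by simp)))
          refine ⟨fun i j => ca i * cb j + c i j, fun i j => add_mem (mul_mem (hca i) (hcb j)) (hc i j), ?_⟩
          funext z
          have := congrFun hcs z
          simp only [List.zip_cons_cons, List.map_cons, List.sum_cons, this, Finset.sum_apply,
            Pi.smul_apply, smul_eq_mul, Finset.sum_mul_sum, add_mul, Finset.sum_add_distrib]
          congr 1
          exact Finset.sum_congr rfl fun i _ => Finset.sum_congr rfl fun j _ => by ring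
    obtain ⟨c, hc, hcg⟩ := hW
    -- the coefficients are Galois invariant
    have hfi : ∀ (σ : L ≃ₐ[ℚ] L) i x, σ (f i x) = f i (σ • x) := fun σ i x => by
      conv_rhs => rw [← (hf i).2 σ]
      simp
    have hgi : ∀ (σ : L ≃ₐ[ℚ] L) x, σ (g x) = g (σ • x) := fun σ x => by
      conv_rhs => rw [← hg.2 σ]
      simp
    have hinv : ∀ i j (σ : L ≃ₐ[ℚ] L), σ (c i j) = c i j := by
      intro i j σ
      have h0 : ∀ x y, ∑ i, ∑ j, (ι (σ (c i j) - c i j)) * ι (f i x) * ι (f j y) = 0 := by
        intro x y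
        have h1 := congrArg σ (congrFun hcg (σ⁻¹ • x, σ⁻¹ • y))
        simp only [map_sum, map_mul, hfi, hgi, smul_add, smul_inv_smul] at h1
        have h2 := congrFun hcg (x, y)
        simp only at h2
        rw [h1] at h2
        simp only [← map_mul, ← map_sum, sub_mul, Finset.sum_sub_distrib, h2, sub_self, map_zero]
      have h3 : ∀ y i, ∑ j, (ι (σ (c i j) - c i j)) * ι (f j y) = 0 := fun y =>
        Fintype.linearIndependent_iff.1 hind _ (funext fun x => by
          simp only [← hfH, Finset.sum_apply, Pi.smul_apply, compEmb_apply, smul_eq_mul,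
            Finset.sum_mul, Pi.zero_apply]
          rw [← h0 x y]
          exact Finset.sum_congr rfl fun i _ => Finset.sum_congr rfl fun j _ => by ring)
      have h4 := Fintype.linearIndependent_iff.1 hind (fun j => ι (σ (c i j) - c i j))
        (funext fun y => by
          simp only [← hfH, Finset.sum_apply, Pi.smul_apply, compEmb_apply, smul_eq_mul,
            Pi.zero_apply]
          exact h3 y i) j
      exact sub_eq_zero.1 ((map_eq_zero_iff _ ι.injective).1 h4)
    choose cq hcq using fun i j => hbot (hinv i j)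
    have hcR : ∀ i j, cq i j ∈ R := fun i j => (ratLocalizedAt_mem_iff hℓ _).2
      ((Galois.place_ratCast_mem_iff hP hℓ _).1 (hcq i j ▸ (hc i j).1))
    refine ⟨∑ i, ∑ j, (⟨cq i j, hcR i j⟩ : R) • (bH i ⊗ₜ[R] bH j), fun x y => ?_⟩
    have h2 := congrFun hcg (x, y)
    simp only [map_sum, map_smul, Finset.sum_apply, Pi.smul_apply,
      compEmb_apply, h2, map_mul]
    refine Finset.sum_congr rfl fun i _ => Finset.sum_congr rfl fun j _ => ?_
    rw [Algebra.smul_def, pairEval_tmul, ← hcq, map_ratCast]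
    change _ * ((bH i : M → AlgebraicClosure ℚ) x * (bH j : M → AlgebraicClosure ℚ) y) = _
    rw [← hfH, ← hfH, compEmb_apply, compEmb_apply, ← mul_assoc]
    rfl
  · rintro h ⟨g, hg, rfl⟩
    obtain ⟨q, hq⟩ := hbot (a := g 0) fun σ => by
      have := congrFun (hg.2 σ) 0
      simpa using this
    refine ⟨⟨q, (ratLocalizedAt_mem_iff hℓ q).2 ((Galois.place_ratCast_mem_iff hP hℓ q).1
      (by rw [hq]; exact Λ.val_mem g hg.1 0))⟩, ?_⟩
    exact ((congrArg ι hq.symm).trans (map_ratCast ι q)).symm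
  · rintro h ⟨g, hg, rfl⟩
    exact ⟨fun x => g (-x), ⟨Λ.neg g hg.1, fun σ => funext fun x => by
      conv_rhs => rw [← hg.2 σ]
      simp⟩, rfl⟩

theorem hasModel [IsGalois ℚ L] [FiniteDimensional ℚ L] (hP : P.LiesOverPrime ℓ) (hℓ : ℓ.Prime)
    (ι : L →ₐ[ℚ] AlgebraicClosure ℚ)
    (res : (AlgebraicClosure ℚ ≃ₐ[ℚ] AlgebraicClosure ℚ) → (L ≃ₐ[ℚ] L))
    (hres : ∀ σ a, ι (res σ a) = σ (ι a)) (Λ : InertiaLattice P M) :
    HasModel ℓ M (fun σ x => res σ • x) := by
  obtain ⟨T, hT⟩ := Λ.exists_funLattice hP hℓ ι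
  refine T.hasModel _ fun h hh σ x => ?_
  rw [hT] at hh
  obtain ⟨g, hg, rfl⟩ := hh
  have := congrFun (hg.2 (res σ)) (res σ • x)
  rw [conjFun_apply, inv_smul_smul] at this
  rw [compEmb_apply, compEmb_apply, ← this, hres]

end InertiaLattice

end Fermat.Agent.FlatJ
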