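import Fermat.Agent.FlatJ.Level
import Fermat.Agent.FlatJ.Fibre
import Fermat.Agent.FlatJ.Model

/-!
The coordinate functions form an inertia lattice: a finite flat model of a Galois stable finite
group of divisor classes of a curve with good reduction.
-/

set_option autoImplicit false
set_option linter.unusedSectionVars false
set_option linter.unusedVariables false
set_option synthInstance.maxHeartbeats 400000
set_option maxHeartbeats 1600000

noncomputable section

open AlgebraicCurve ModularCurve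

namespace Fermat.Agent.FlatJ

variable {F₀ : IntermediateField ℚ (LaurentSeries ℚ)}
variable {A : ValuationSubring Qb} {k : Type} [Field k] [Infinite k] {π : A →+* k}
  {Fk : Type} [Field Fk] [Algebra k Fk] [LaurentEmb k Fk]
variable {D : RedSetup A π (laurentBaseChange Qb F₀) Fk}
variable {N : AddSubgroup (Pic0 Qb (laurentBaseChange Qb F₀))}
variable {C : Charts D N} {L : IntermediateField ℚ Qb}

theorem fix_of_gens {B : Divisor Qb (laurentBaseChange Qb F₀)}
    (hI : ∀ σ ∈ A.inertiaSubgroupIn ℚ, gact F₀ σ • B = B)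
    (hLf : ∀ σ ∈ L.fixingSubgroup, gact F₀ σ • B = B) {σ : Gam}
    (hσ : σ ∈ A.inertiaSubgroupIn ℚ ⊔ L.fixingSubgroup) : gact F₀ σ • B = B := by
  let St : Subgroup Gam :=
    { carrier := {σ | gact F₀ σ • B = B}
      one_mem' := by simp [gact]
      mul_mem' := fun {a b} ha hb => by
        show gact F₀ (a * b) • B = B
        rw [gact, map_mul, mul_smul, hb, ha]
      inv_mem' := fun {a} ha => by
        show gact F₀ a⁻¹ • B = B
        rw [gact, map_inv, inv_smul_eq_iff]
        exact ha.symm }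
  exact (sup_le (show A.inertiaSubgroupIn ℚ ≤ St from hI) (show L.fixingSubgroup ≤ St from hLf)) hσ

/-- conjugates of inertia fixed divisors by the decomposition group are inertia fixed -/
theorem fix_conj [Normal ℚ L] {B : Divisor Qb (laurentBaseChange Qb F₀)}
    (hI : ∀ σ ∈ A.inertiaSubgroupIn ℚ, gact F₀ σ • B = B)
    (hLf : ∀ σ ∈ L.fixingSubgroup, gact F₀ σ • B = B) {σ : Gam}
    (hσ : σ ∈ A.decompositionSubgroup ℚ) :
    (∀ ρ ∈ A.inertiaSubgroupIn ℚ, gact F₀ ρ • (gact F₀ σ • B) = gact F₀ σ • B) ∧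
      ∀ ρ ∈ L.fixingSubgroup, gact F₀ ρ • (gact F₀ σ • B) = gact F₀ σ • B := by
  have key : ∀ ρ, gact F₀ (σ⁻¹ * ρ * σ) • B = B → gact F₀ ρ • (gact F₀ σ • B) = gact F₀ σ • B := by
    intro ρ h
    conv_rhs => rw [← h]
    rw [← mul_smul, ← mul_smul, gact, gact, gact, ← map_mul, ← map_mul]
    congr 2
    group
  refine ⟨fun ρ hρ => key ρ (hI _ ?_), fun ρ hρ => key ρ (hLf _ ?_)⟩
  · have := Galois.inertia_normal_in_decomposition hρ (inv_mem hσ)
    simpa using this
  · rw [IntermediateField.mem_fixingSubgroup_iff] at hρ ⊢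
    intro a ha
    have hmem : σ a ∈ L := by
      rw [show a = ((⟨a, ha⟩ : L) : Qb) from rfl]
      exact (AlgEquiv.restrictNormal_commutes σ L ⟨a, ha⟩) ▸ ((σ.restrictNormal L) ⟨a, ha⟩).2
    rw [AlgEquiv.mul_apply, AlgEquiv.mul_apply, hρ _ hmem]
    exact σ.symm_apply_apply a

section Site

variable (hL : IsLevel C L) (hN : ∀ σ : Gam, ∀ x ∈ N, σ • x ∈ N) (P : FixedPol F₀) (hP : D.H = P.H)
variable {ℓ : ℕ} (hA : A.LiesOverPrime ℓ) (hℓ : ℓ.Prime)

/-- the constants fixed by inertia and by the level are in the fibre rings -/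
theorem const_mem_fibre (hL : IsLevel C L) (hA : A.LiesOverPrime ℓ) (hℓ : ℓ.Prime) {Z : Type}
    {Q : Subring (Z → L)}
    (hconst : ∀ a ∈ inertRing (A.comap (algebraMap L Qb)), (fun _ : Z => a) ∈ Q) (T : Set Z)
    (a : A) (ha : (a : Qb) ∈ fixK (A.inertiaSubgroupIn ℚ ⊔ L.fixingSubgroup)) :
    (fun _ : T => a) ∈ fibreRing (A := A) (algebraMap L Qb) Q T := by
  have := hL.normal
  have haL : (a : Qb) ∈ L := by
    rw [← InfiniteGalois.fixedField_fixingSubgroup L]
    exact fun σ => mem_fixK.1 ha σ (Subgroup.mem_sup_right σ.2)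
  refine ⟨_, hconst ⟨a, haL⟩ ⟨a.2, fun η hη => ?_⟩, fun z => rfl⟩
  obtain ⟨σ, hσ, hση⟩ := exists_inertia_lift hA hℓ hη
  apply Subtype.ext
  rw [← hση]
  exact mem_fixK.1 ha σ (Subgroup.mem_sup_left hσ)

variable {Z : Type} {Q : Subring (Z → L)}
  (hconst : ∀ a ∈ inertRing (A.comap (algebraMap L Qb)), (fun _ : Z => a) ∈ Q) {T : Set Z}

include hL hA hℓ hP hconst

theorem pol_fibre [Nonempty T]
    (hR : IsLocalFamily π (fibreRing (A := A) (algebraMap L Qb) Q T)) :
    Pol D (fibreRing (A := A) (algebraMap L Qb) Q T) := by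
  refine ⟨fun n hn => ?_⟩
  have := isFam_const D hR (K₀ := fixK (A.inertiaSubgroupIn ℚ ⊔ L.fixingSubgroup))
    (const_mem_fibre hL hA hℓ hconst T) (B := n • D.H)
    (rr_le_span_fixed D.hF _ fun σ _ => gal_nsmul_H hP n σ) (D.bdd_nsmul n) hn
  rwa [mapDomain_nsmul'] at this

theorem good_const [Nonempty T]
    (hR : IsLocalFamily π (fibreRing (A := A) (algebraMap L Qb) Q T))
    {B : Divisor Qb (laurentBaseChange Qb F₀)} (hB0 : 0 ≤ B)
    (hI : ∀ σ ∈ A.inertiaSubgroupIn ℚ, gact F₀ σ • B = B)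
    (hLf : ∀ σ ∈ L.fixingSubgroup, gact F₀ σ • B = B) :
    IsGood (pol_fibre hL P hP hA hℓ hconst hR) (fun _ => B) (Finsupp.mapDomain D.r B) :=
  isGood_const D hR _ (K₀ := fixK (A.inertiaSubgroupIn ℚ ⊔ L.fixingSubgroup))
    (const_mem_fibre hL hA hℓ hconst T) hB0 fun n => rr_le_span_fixed D.hF _ fun σ hσ => by
      rw [smul_sub, gal_nsmul_H hP, fix_of_gens hI hLf hσ]

theorem good_E [Finite Z] [Nonempty T]
    (hR : IsLocalFamily π (fibreRing (A := A) (algebraMap L Qb) Q T)) (τ : T → N)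
    (hτ : ∀ i t, ∃ w ∈ Q, ∀ z : T, (w z : Qb) = (emb (C.e i (τ z))).coeff t) :
    IsGood (pol_fibre hL P hP hA hℓ hconst hR) (fun z => C.E (τ z)) C.Eb := by
  refine isGood_of_coeff D hR _ (N := C.nb) (e := fun i z => C.e i (τ z))
    (fun z => C.e_normal (τ z)) (fun i t => ?_) ?_
  · obtain ⟨w, hw, hwz⟩ := hτ i t
    exact ⟨w, hw, fun z => (hwz z).symm⟩
  · rw [map_sub, Pol.degree_Hb, C.Eb_deg]
    have := C.n₀_deg
    omega

/-- coordinates of a family equivalent to a difference of good families -/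
theorem exists_coord [Finite Z] [Nonempty T]
    (hR : IsLocalFamily π (fibreRing (A := A) (algebraMap L Qb) Q T))
    {X Y : T → Divisor Qb (laurentBaseChange Qb F₀)} {Xb Yb : Divisor k Fk}
    (hX : IsGood (pol_fibre hL P hP hA hℓ hconst hR) X Xb)
    (hY : IsGood (pol_fibre hL P hP hA hℓ hconst hR) Y Yb) (hY0 : ∀ z, 0 ≤ Y z)
    {E : T → Divisor Qb (laurentBaseChange Qb F₀)} (hE0 : ∀ z, 0 ≤ E z) {Eb : Divisor k Fk}
    (hEr : ∀ z, Finsupp.mapDomain D.r (E z) = Eb) (hEd : Divisor.degree Eb = D.g)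
    (hEl : Module.finrank k (riemannRochSpace Eb) = 1) (hXY : ∀ z, Lin (E z) (X z - Y z))
    {nb : NormBasis (C.n₀ • Finsupp.mapDomain D.r D.H - Eb)}
    {e : Fin nb.d → T → laurentBaseChange Qb F₀}
    (he : ∀ z, IsNormal D nb (C.n₀ • D.H - E z) (fun i => e i z)) (i : Fin nb.d) (t : ℤ) :
    ∃ w ∈ Q, ∀ z : T, (w z : Qb) = (emb (e i z)).coeff t := by
  have := D.nonempty_place
  obtain ⟨w, hw, hwz⟩ := coeff_mem D hR _ hX hY hY0 hE0 hEr hEd hEl hXY (N := nb) rfl he i t
  exact ⟨w, hw, fun z => (hwz z).symm⟩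

end Site

theorem clsOf_out (q : Cls D N) : clsOf D N (Quotient.out q) = q := Quotient.out_eq q

section Lattice

variable (hL : IsLevel C L) (hN : ∀ σ : Gam, ∀ x ∈ N, σ • x ∈ N)
variable {ℓ : ℕ} (hA : A.LiesOverPrime ℓ) (hℓ : ℓ.Prime)
variable (hP : ∃ P : FixedPol F₀, D.H = P.H) [Finite N]

open Classical in
include hN hA hℓ in
theorem isLocal_class (q : Cls D N) :
    IsLocalFamily π (fibreRing (A := A) (algebraMap L Qb) (latS hL hP) {x | clsOf D N x = q}) := by
  have := hL.normal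
  have := hL.fin
  obtain ⟨P, hPH⟩ := id hP
  letI := levelAction hL hN
  refine isLocalFamily_fibre (P := A.comap (algebraMap L Qb)) (fun x => Iff.rfl)
    (fun a ha => const_mem_latS hL hP ha)
    (fun u hu η hη z => latS_equiv hL hP hN hA hℓ hu hη z)
    (fun u hu z => latS_val hL hP hu z) (fun η hη z => ?_)
    (fun u hu z hz w hw => latS_res hL hP hu (hz.trans hw.symm))
  obtain ⟨σ, hσ, hση⟩ := exists_inertia_lift hA hℓ hη
  show clsOf D N (galN hN (η.liftNormal Qb) z) = q ↔ clsOf D N z = q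
  rw [galN_congr hL hN (τ := σ) (fun a => by rw [liftNormal_coe, hση]),
    clsOf_gal_inertia hN (compat_inertia D.surj hσ) P hPH]

theorem const_mem_pairRing {a : L} (ha : a ∈ inertRing (A.comap (algebraMap L Qb))) :
    (fun _ : N × N => a) ∈ pairRing (latS hL hP) :=
  Subring.subset_closure (Or.inl ⟨_, const_mem_latS hL hP ha, rfl⟩)

open Classical in
include hN hA hℓ in
theorem isLocal_pair (a b : Cls D N) :
    IsLocalFamily π (fibreRing (A := A) (algebraMap L Qb) (pairRing (latS hL hP))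
      {z : N × N | clsOf D N z.1 = a ∧ clsOf D N z.2 = b}) := by
  have := hL.normal
  have := hL.fin
  obtain ⟨P, hPH⟩ := id hP
  letI := levelAction hL hN
  refine isLocalFamily_fibre (P := A.comap (algebraMap L Qb)) (fun x => Iff.rfl)
    (fun a ha => const_mem_pairRing hL hP ha)
    (fun u hu η hη z => pairRing_equiv hL hP hN hA hℓ hu hη z)
    (fun u hu z => pairRing_val hL hP hu z) (fun η hη z => ?_)
    (fun u hu z hz w hw => pairRing_res hL hP hu (hz.1.trans hw.1.symm) (hz.2.trans hw.2.symm))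
  obtain ⟨σ, hσ, hση⟩ := exists_inertia_lift hA hℓ hη
  show clsOf D N (galN hN (η.liftNormal Qb) z.1) = a ∧
    clsOf D N (galN hN (η.liftNormal Qb) z.2) = b ↔ clsOf D N z.1 = a ∧ clsOf D N z.2 = b
  simp only [galN_congr hL hN (σ := η.liftNormal Qb) (τ := σ) (fun a => by rw [liftNormal_coe, hση]),
    clsOf_gal_inertia hN (compat_inertia D.surj hσ) P hPH]

theorem B_pair_fix (hL : IsLevel C L) {P : FixedPol F₀} (hP : D.H = P.H) (q : Cls D N) (n : ℕ) :
    0 ≤ C.B q + n • D.H ∧
      (∀ σ ∈ A.inertiaSubgroupIn ℚ, gact F₀ σ • (C.B q + n • D.H) = C.B q + n • D.H) ∧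
      ∀ σ ∈ L.fixingSubgroup, gact F₀ σ • (C.B q + n • D.H) = C.B q + n • D.H :=
  ⟨add_nonneg (C.B_eff q) (nsmul_nonneg D.H_eff n),
    fun σ hσ => by rw [smul_add, C.B_fix q σ hσ, gal_nsmul_H hP],
    fun σ hσ => by rw [smul_add, hL.B_fix σ hσ q, gal_nsmul_H hP]⟩

open Classical in
include hN hA hℓ in
theorem comul_mem {u : N → L} (hu : u ∈ latS hL hP) :
    (fun z : N × N => u (z.1 + z.2)) ∈ pairRing (latS hL hP) := by
  cases nonempty_fintype N
  have : Fintype (Cls D N) := Fintype.ofFinite _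
  obtain ⟨P, hPH⟩ := id hP
  have hind : ∀ p : Cls D N × Cls D N,
      (fun z : N × N => if (clsOf D N z.1, clsOf D N z.2) = p then (1 : L) else 0) ∈
        pairRing (latS hL hP) := by
    rintro ⟨a, b⟩
    have h1 : (fun z : N × N => (if clsOf D N z.1 = a then (1 : L) else 0)) ∈ pairRing (latS hL hP) :=
      Subring.subset_closure (Or.inl ⟨_, ind_mem_latS hL hP a, rfl⟩)
    have h2 : (fun z : N × N => (if clsOf D N z.2 = b then (1 : L) else 0)) ∈ pairRing (latS hL hP) :=
      Subring.subset_closure (Or.inr ⟨_, ind_mem_latS hL hP b, rfl⟩)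
    convert mul_mem h1 h2 using 1
    funext z
    rw [Pi.mul_apply]
    by_cases ha : clsOf D N z.1 = a <;> by_cases hb : clsOf D N z.2 = b <;> simp [ha, hb]
  let φ : (N → L) →+* (N × N → L) :=
    RingHom.pi fun z => Pi.evalRingHom (fun _ : N => L) (z.1 + z.2)
  have hle : latS hL hP ≤ (pairRing (latS hL hP)).comap φ := by
    refine Subring.closure_le.2 ?_
    rintro u ((⟨a, ha, rfl⟩ | ⟨q, rfl⟩) | ⟨i, t, rfl⟩)
    · exact const_mem_pairRing hL hP ha
    · rw [SetLike.mem_coe, Subring.mem_comap]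
      refine glue (fun z => (clsOf D N z.1, clsOf D N z.2)) hind fun p => ?_
      by_cases hq : clsOf D N (Quotient.out p.1 + Quotient.out p.2) = q
      · refine ⟨1, one_mem _, ?_⟩
        rintro z rfl
        have h := clsOf_add (x := z.1) (y := z.2) (clsOf_out (clsOf D N z.1)).symm
          (clsOf_out (clsOf D N z.2)).symm
        show (1 : L) = if clsOf D N (z.1 + z.2) = q then 1 else 0
        rw [h, if_pos hq]
      · refine ⟨0, zero_mem _, ?_⟩
        rintro z rfl
        have h := clsOf_add (x := z.1) (y := z.2) (clsOf_out (clsOf D N z.1)).symm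
          (clsOf_out (clsOf D N z.2)).symm
        show (0 : L) = if clsOf D N (z.1 + z.2) = q then 1 else 0
        rw [h, if_neg hq]
    · rw [SetLike.mem_coe, Subring.mem_comap]
      refine glue (fun z => (clsOf D N z.1, clsOf D N z.2)) hind ?_
      rintro ⟨a, b⟩
      let T := {z : N × N | clsOf D N z.1 = a ∧ clsOf D N z.2 = b}
      have : Nonempty T := ⟨⟨(Quotient.out a, Quotient.out b), clsOf_out a, clsOf_out b⟩⟩
      have hR := isLocal_pair hL hN hA hℓ hP a b
      have hc := fun a (ha : a ∈ inertRing (A.comap (algebraMap L Qb))) =>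
        const_mem_pairRing hL hP ha
      set q := clsOf D N (Quotient.out a + Quotient.out b) with hq
      obtain ⟨hB0, hBI, hBL⟩ := B_pair_fix hL hPH q C.c
      have hX := ((good_E hL P hPH hA hℓ hc hR (fun z : T => z.1.1) fun i t => by
          obtain ⟨w, hw, hwx⟩ := coord_mem_latS hL hP i t
          exact ⟨_, Subring.subset_closure (Or.inl ⟨w, hw, rfl⟩), fun z => hwx z.1.1⟩).add _ hR
        (good_E hL P hPH hA hℓ hc hR (fun z : T => z.1.2) fun i t => by
          obtain ⟨w, hw, hwx⟩ := coord_mem_latS hL hP i t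
          exact ⟨_, Subring.subset_closure (Or.inr ⟨w, hw, rfl⟩), fun z => hwx z.1.2⟩)).add _ hR
        (good_const hL P hPH hA hℓ hc hR hB0 hBI hBL)
      have hY := good_const hL P hPH hA hℓ hc hR (B := C.B a + C.B b)
        (add_nonneg (C.B_eff a) (C.B_eff b))
        (fun σ hσ => by rw [smul_add, C.B_fix a σ hσ, C.B_fix b σ hσ])
        (fun σ hσ => by rw [smul_add, hL.B_fix σ hσ a, hL.B_fix σ hσ b])
      have hlin : ∀ z : T, Lin (C.E (z.1.1 + z.1.2))
          ((C.E z.1.1 + C.E z.1.2 + (C.B q + C.c • D.H)) - (C.B a + C.B b)) := fun z => by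
        obtain ⟨⟨x, y⟩, hx, hy⟩ := z
        have hxy : clsOf D N (x + y) = q :=
          clsOf_add (hx.trans (clsOf_out a).symm) (hy.trans (clsOf_out b).symm)
        have h1 := C.E_rel (x + y)
        rw [hxy] at h1
        have h2 := C.E_rel x
        rw [show clsOf D N x = a from hx] at h2
        have h3 := C.E_rel y
        rw [show clsOf D N y = b from hy] at h3
        refine h1.trans (Lin.symm (((((h2.add h3).add (Lin.refl (C.B q + C.c • D.H))).sub
          (Lin.refl (C.B a + C.B b))).trans (Lin.symm ?_))))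
        refine (((repDiv_add x y).add (Lin.refl (C.B q))).sub (Lin.refl (C.c • D.H))).trans
          (Lin.of_eq ?_)
        abel
      obtain ⟨w, hw, hwz⟩ := exists_coord hL P hPH hA hℓ hc hR hX hY
        (fun _ => add_nonneg (C.B_eff a) (C.B_eff b)) (E := fun z : T => C.E (z.1.1 + z.1.2))
        (fun z => C.E_eff _) (fun z => C.E_red _) C.Eb_deg C.Eb_l hlin
        (nb := C.nb) (e := fun i (z : T) => C.e i (z.1.1 + z.1.2)) (fun z => C.e_normal _) i t
      refine ⟨w, hw, fun z hz => Subtype.ext ?_⟩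
      simp only [Prod.mk.injEq] at hz
      exact hwz ⟨z, hz⟩
  exact hle hu

open Classical in
include hN hA hℓ in
theorem neg_mem_latS {u : N → L} (hu : u ∈ latS hL hP) : (fun x => u (-x)) ∈ latS hL hP := by
  cases nonempty_fintype N
  have : Fintype (Cls D N) := Fintype.ofFinite _
  obtain ⟨P, hPH⟩ := id hP
  let φ : (N → L) →+* (N → L) := RingHom.pi fun x => Pi.evalRingHom (fun _ : N => L) (-x)
  have hle : latS hL hP ≤ (latS hL hP).comap φ := by
    refine Subring.closure_le.2 ?_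
    rintro u ((⟨a, ha, rfl⟩ | ⟨q, rfl⟩) | ⟨i, t, rfl⟩)
    · exact const_mem_latS hL hP ha
    · rw [SetLike.mem_coe, Subring.mem_comap]
      refine glue (clsOf D N) (ind_mem_latS hL hP) fun p => ?_
      by_cases hq : clsOf D N (-Quotient.out p) = q
      · refine ⟨1, one_mem _, ?_⟩
        rintro z rfl
        show (1 : L) = if clsOf D N (-z) = q then 1 else 0
        rw [clsOf_neg (clsOf_out (clsOf D N z)).symm, if_pos hq]
      · refine ⟨0, zero_mem _, ?_⟩
        rintro z rfl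
        show (0 : L) = if clsOf D N (-z) = q then 1 else 0
        rw [clsOf_neg (clsOf_out (clsOf D N z)).symm, if_neg hq]
    · rw [SetLike.mem_coe, Subring.mem_comap]
      refine glue (clsOf D N) (ind_mem_latS hL hP) fun a => ?_
      let T := {z : N | clsOf D N z = a}
      have : Nonempty T := ⟨⟨Quotient.out a, clsOf_out a⟩⟩
      have hR := isLocal_class hL hN hA hℓ hP a
      have hc := fun a (ha : a ∈ inertRing (A.comap (algebraMap L Qb))) =>
        const_mem_latS hL hP ha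
      set q := clsOf D N (-Quotient.out a) with hq
      have hX := good_const hL P hPH hA hℓ hc hR (B := C.B q + C.B a)
        (add_nonneg (C.B_eff q) (C.B_eff a))
        (fun σ hσ => by rw [smul_add, C.B_fix q σ hσ, C.B_fix a σ hσ])
        (fun σ hσ => by rw [smul_add, hL.B_fix σ hσ q, hL.B_fix σ hσ a])
      have hY := (good_E hL P hPH hA hℓ hc hR (fun z : T => z.1) fun i t => by
          obtain ⟨w, hw, hwx⟩ := coord_mem_latS hL hP i t
          exact ⟨w, hw, fun z => hwx z.1⟩).add _ hR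
        (good_const hL P hPH hA hℓ hc hR (B := C.c • D.H + C.c • D.H)
          (add_nonneg (nsmul_nonneg D.H_eff _) (nsmul_nonneg D.H_eff _))
          (fun σ _ => by rw [smul_add, gal_nsmul_H hPH]) (fun σ _ => by rw [smul_add, gal_nsmul_H hPH]))
      have hlin : ∀ z : T, Lin (C.E (-z.1))
          ((C.B q + C.B a) - (C.E z.1 + (C.c • D.H + C.c • D.H))) := fun z => by
        obtain ⟨x, hx⟩ := z
        have hxq : clsOf D N (-x) = q := clsOf_neg ((show clsOf D N x = a from hx).trans (clsOf_out a).symm)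
        have h1 := C.E_rel (-x)
        rw [hxq] at h1
        have h2 := C.E_rel x
        rw [show clsOf D N x = a from hx] at h2
        refine h1.trans (Lin.symm (((Lin.refl (C.B q + C.B a)).sub
          (h2.add (Lin.refl (C.c • D.H + C.c • D.H)))).trans (Lin.symm ?_)))
        refine (((repDiv_neg x).add (Lin.refl (C.B q))).sub (Lin.refl (C.c • D.H))).trans
          (Lin.of_eq ?_)
        abel
      obtain ⟨w, hw, hwz⟩ := exists_coord hL P hPH hA hℓ hc hR hX hY
        (fun z => add_nonneg (C.E_eff _) (add_nonneg (nsmul_nonneg D.H_eff _) (nsmul_nonneg D.H_eff _)))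
        (E := fun z : T => C.E (-z.1))
        (fun z => C.E_eff _) (fun z => C.E_red _) C.Eb_deg C.Eb_l hlin
        (nb := C.nb) (e := fun i (z : T) => C.e i (-z.1)) (fun z => C.e_normal _) i t
      exact ⟨w, hw, fun z hz => Subtype.ext (hwz ⟨z, hz⟩)⟩
  exact hle hu

open Classical in
include hN hA hℓ in
theorem conj_coord [Normal ℚ L] {τ : L ≃ₐ[ℚ] L}
    (hτ : Stabilises (A.comap (algebraMap L Qb)) τ) (a : Cls D N) (i : Fin C.nb.d) (t : ℤ) :
    ∃ w ∈ latS hL hP, ∀ y, clsOf D N y = a →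
      (w y : Qb) = (τ.liftNormal Qb)
        ((emb (C.e i (galN hN ((τ⁻¹).liftNormal Qb) y))).coeff t) := by
  obtain ⟨P, hPH⟩ := id hP
  obtain ⟨σ, hσ, hστ⟩ := exists_decomposition_lift hA hℓ hτ
  obtain ⟨φ, hc⟩ := exists_compat D.surj hσ
  have hback : ∀ y, galN hN ((τ⁻¹).liftNormal Qb) y = galN hN σ⁻¹ y :=
    galN_congr hL hN fun b => by
      rw [liftNormal_coe]
      apply σ.injective
      rw [hστ, show σ (σ⁻¹ (b : Qb)) = b from σ.apply_symm_apply _,
        show τ (τ⁻¹ b) = b from τ.apply_symm_apply b]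
  let T := {z : N | clsOf D N z = a}
  let y₀ : T := ⟨Quotient.out a, clsOf_out a⟩
  have : Nonempty T := ⟨y₀⟩
  have hR := isLocal_class hL hN hA hℓ hP a
  have hcon := fun a (ha : a ∈ inertRing (A.comap (algebraMap L Qb))) =>
    const_mem_latS hL hP ha
  set b := clsOf D N (galN hN σ⁻¹ y₀.1) with hb
  have hxb : ∀ y : T, clsOf D N (galN hN σ⁻¹ y.1) = b := fun y =>
    clsOf_gal hN hc.symm P hPH ((show clsOf D N y.1 = a from y.2).trans y₀.2.symm)
  obtain ⟨hBI, hBL⟩ := fix_conj (C.B_fix b) (fun ρ hρ => hL.B_fix ρ hρ b) hσ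
  have hX := (good_E hL P hPH hA hℓ hcon hR (fun z : T => z.1) fun i t => by
      obtain ⟨w, hw, hwx⟩ := coord_mem_latS hL hP i t
      exact ⟨w, hw, fun z => hwx z.1⟩).add _ hR
    (good_const hL P hPH hA hℓ hcon hR (gal_nonneg (C.B_eff b) σ) hBI hBL)
  have hY := good_const hL P hPH hA hℓ hcon hR (C.B_eff a) (C.B_fix a)
    (fun ρ hρ => hL.B_fix ρ hρ a)
  have hrel : ∀ y : T, Lin (gact F₀ σ • C.E (galN hN σ⁻¹ y.1))
      ((repDiv N y.1 + gact F₀ σ • C.B b) - C.c • D.H) := by
    intro y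
    refine ((C.E_rel _).gal σ).trans ?_
    rw [smul_sub, smul_add, hxb, gal_nsmul_H hPH]
    refine ((Lin.symm ?_).add (Lin.refl _)).sub (Lin.refl _)
    have h := repDiv_gal hN σ (galN hN σ⁻¹ y.1)
    rwa [← galN_mul, mul_inv_cancel, galN_one] at h
  set Eb' := Finsupp.mapDomain D.r (gact F₀ σ • C.E (galN hN σ⁻¹ y₀.1)) with hEb'
  have hEd : Divisor.degree Eb' = D.g := by
    rw [hEb', D.degree_mapDomain, SemilinearAut.degree_smul, C.deg_E]
  have hEl : Module.finrank k (riemannRochSpace Eb') = 1 := by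
    have h1 := finrank_red_gal_le D hc P hPH (C.E (galN hN σ⁻¹ y₀.1))
    have h2 := finrank_red_gal_le D hc.symm P hPH (gact F₀ σ • C.E (galN hN σ⁻¹ y₀.1))
    rw [show gact F₀ σ⁻¹ • gact F₀ σ • C.E (galN hN σ⁻¹ y₀.1) = C.E (galN hN σ⁻¹ y₀.1) by
      rw [gact, gact, map_inv, inv_smul_smul]] at h2
    rw [C.E_red, C.Eb_l] at h1 h2
    rw [hEb']
    omega
  have hEnn : ∀ X : Divisor Qb (laurentBaseChange Qb F₀), 0 ≤ X →
      (0 : Divisor k Fk) ≤ Finsupp.mapDomain D.r X := fun X hX => by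
    have := Finsupp.mapDomain_mono (f := D.r) hX
    rwa [Finsupp.mapDomain_zero] at this
  have hEr : ∀ y : T, Finsupp.mapDomain D.r (gact F₀ σ • C.E (galN hN σ⁻¹ y.1)) = Eb' := by
    intro y
    refine eq_of_principal_sub (hEnn _ (gal_nonneg (C.E_eff _) σ))
      (hEnn _ (gal_nonneg (C.E_eff _) σ)) ?_ hEl
    refine (Lin.red D (hrel y)).trans (Lin.trans ?_ (Lin.red D (hrel y₀)).symm)
    rw [mapDomain_sub', mapDomain_sub', Finsupp.mapDomain_add, Finsupp.mapDomain_add]
    exact ((clsOf_eq_iff.1 ((show clsOf D N y.1 = a from y.2).trans y₀.2.symm)).add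
      (Lin.refl _)).sub (Lin.refl _)
  -- the reductions of the conjugated bases
  choose ψ hψ hψe using fun (y : T) (j : Fin C.nb.d) =>
    reduces_gal D hc ((C.e_normal (galN hN σ⁻¹ y.1)).red j)
  have hψc : ∀ y j, ψ y j = ψ y₀ j := fun y j => emb_injective ((hψe y j).trans (hψe y₀ j).symm)
  have hspace : ∀ y : T, gact F₀ σ • (C.n₀ • D.H - C.E (galN hN σ⁻¹ y.1)) =
      C.n₀ • D.H - gact F₀ σ • C.E (galN hN σ⁻¹ y.1) := fun y => by
    rw [smul_sub, gal_nsmul_H hPH]
  have hmem : ∀ (y : T) j, gact F₀ σ • C.e j (galN hN σ⁻¹ y.1) ∈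
      riemannRochSpace (C.n₀ • D.H - gact F₀ σ • C.E (galN hN σ⁻¹ y.1)) := fun y j =>
    hspace y ▸ gal_mem_rr ((C.e_normal _).mem j)
  have hcoef : ∀ (y : T) j l, (emb (gact F₀ σ • C.e j (galN hN σ⁻¹ y.1))).coeff (C.nb.m l) =
      (1 : Matrix (Fin C.nb.d) (Fin C.nb.d) Qb) j l := fun y j l => by
    rw [emb_gal, coeffMap_coeff, (C.e_normal _).coeff, Matrix.one_apply]
    split_ifs <;> simp
  have hred : ∀ y : T, Finsupp.mapDomain D.r (C.n₀ • D.H - gact F₀ σ • C.E (galN hN σ⁻¹ y.1)) =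
      C.n₀ • Finsupp.mapDomain D.r D.H - Eb' := fun y => by
    rw [mapDomain_sub', mapDomain_nsmul', hEr]
  have hdeg : ∀ y : T,
      (2 * D.g : ℤ) ≤ Divisor.degree (C.n₀ • D.H - gact F₀ σ • C.E (galN hN σ⁻¹ y.1)) := fun y => by
    rw [map_sub, SemilinearAut.degree_smul, C.deg_E]
    have := C.n₀_deg
    omega
  have hdim : ∀ y : T, Module.finrank Qb
      (riemannRochSpace (C.n₀ • D.H - gact F₀ σ • C.E (galN hN σ⁻¹ y.1))) = C.nb.d := fun y => by
    have h1 := D.hF.finrank_rr _ (hdeg y)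
    have h2 := D.hF.finrank_rr (C.n₀ • D.H - C.E (galN hN σ⁻¹ y.1)) (by
      rw [map_sub, C.deg_E]; have := C.n₀_deg; omega)
    rw [(C.e_normal _).dim] at h2
    rw [map_sub, SemilinearAut.degree_smul] at h1
    rw [map_sub] at h2
    omega
  let nb : NormBasis (C.n₀ • Finsupp.mapDomain D.r D.H - Eb') :=
    { d := C.nb.d
      m := C.nb.m
      φ := ψ y₀
      mem := fun j => hred y₀ ▸ D.mem_rr_of_reduces (hψ y₀ j) (hmem y₀ j)
      coeff := fun j l => by
        rw [hψe, coeffMap_coeff, C.nb.coeff, Matrix.one_apply]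
        split_ifs <;> simp
      dim := by rw [← hred y₀, D.finrank_eq (hdeg y₀), hdim] }
  have hlin : ∀ y : T, Lin (gact F₀ σ • C.E (galN hN σ⁻¹ y.1))
      ((C.E y.1 + gact F₀ σ • C.B b) - C.B a) := fun y => by
    refine (hrel y).trans (Lin.symm ?_)
    have h2 := C.E_rel y.1
    rw [show clsOf D N y.1 = a from y.2] at h2
    refine ((h2.add (Lin.refl _)).sub (Lin.refl _)).trans (Lin.of_eq ?_)
    abel
  obtain ⟨w, hw, hwz⟩ := exists_coord hL P hPH hA hℓ hcon hR hX hY (fun _ => C.B_eff a)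
    (E := fun y : T => gact F₀ σ • C.E (galN hN σ⁻¹ y.1)) (fun y => gal_nonneg (C.E_eff _) σ)
    hEr hEd hEl hlin (nb := nb) (e := fun j (y : T) => gact F₀ σ • C.e j (galN hN σ⁻¹ y.1))
    (fun y => ⟨hmem y, hcoef y, fun j => (show ψ y₀ j = nb.φ j from rfl) ▸ (hψc y j).symm.symm ▸ hψ y j, hdim y, hred y⟩) i t
  refine ⟨w, hw, fun y hy => ?_⟩
  rw [hwz ⟨y, hy⟩, emb_gal, coeffMap_coeff, hback]
  have hmemL := coeff_mem_level hPH hL i (galN hN σ⁻¹ y) t
  exact (hστ ⟨_, hmemL⟩).trans (liftNormal_coe τ ⟨_, hmemL⟩).symm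
open Classical in
include hN hA hℓ in
theorem conj_mem [Normal ℚ L] {u : N → L} (hu : u ∈ latS hL hP) {τ : L ≃ₐ[ℚ] L}
    (hτ : Stabilises (A.comap (algebraMap L Qb)) τ) :
    (fun x => τ (u (galN hN ((τ⁻¹).liftNormal Qb) x))) ∈ latS hL hP := by
  cases nonempty_fintype N
  have : Fintype (Cls D N) := Fintype.ofFinite _
  obtain ⟨P, hPH⟩ := id hP
  let φ : (N → L) →+* (N → L) := RingHom.pi fun x =>
    (τ : L →+* L).comp (Pi.evalRingHom (fun _ : N => L) (galN hN ((τ⁻¹).liftNormal Qb) x))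
  obtain ⟨σ, hσ, hστ⟩ := exists_decomposition_lift hA hℓ hτ.inv
  obtain ⟨φk, hc⟩ := exists_compat D.surj hσ
  have hcls : ∀ x y, clsOf D N x = clsOf D N y →
      clsOf D N (galN hN ((τ⁻¹).liftNormal Qb) x) = clsOf D N (galN hN ((τ⁻¹).liftNormal Qb) y) := by
    intro x y h
    rw [galN_congr hL hN (τ := σ) (fun b => by rw [liftNormal_coe, hστ]) x,
      galN_congr hL hN (τ := σ) (fun b => by rw [liftNormal_coe, hστ]) y]
    exact clsOf_gal hN hc P hPH h
  have hle : latS hL hP ≤ (latS hL hP).comap φ := by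
    refine Subring.closure_le.2 ?_
    rintro u ((⟨a, ha, rfl⟩ | ⟨q, rfl⟩) | ⟨i, t, rfl⟩)
    · refine const_mem_latS hL hP ⟨(hτ a).2 ha.1, fun η hη => ?_⟩
      have h1 := ha.2 _ (inertG_conj _ hτ hη)
      conv_rhs => rw [← h1]
      simp [AlgEquiv.mul_apply]
    · rw [SetLike.mem_coe, Subring.mem_comap]
      refine glue (clsOf D N) (ind_mem_latS hL hP) fun p => ?_
      by_cases hq : clsOf D N (galN hN ((τ⁻¹).liftNormal Qb) (Quotient.out p)) = q
      · refine ⟨1, one_mem _, ?_⟩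
        rintro z rfl
        show (1 : L) = τ (if clsOf D N (galN hN _ z) = q then 1 else 0)
        rw [hcls z _ (clsOf_out (clsOf D N z)).symm, if_pos hq, map_one]
      · refine ⟨0, zero_mem _, ?_⟩
        rintro z rfl
        show (0 : L) = τ (if clsOf D N (galN hN _ z) = q then 1 else 0)
        rw [hcls z _ (clsOf_out (clsOf D N z)).symm, if_neg hq, map_zero]
    · rw [SetLike.mem_coe, Subring.mem_comap]
      refine glue (clsOf D N) (ind_mem_latS hL hP) fun a => ?_
      obtain ⟨w, hw, hwy⟩ := conj_coord hL hN hA hℓ hP hτ a i t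
      refine ⟨w, hw, fun y hy => Subtype.ext ?_⟩
      rw [hwy y hy]
      exact liftNormal_coe τ ⟨_, coeff_mem_level hPH hL i _ t⟩
  exact hle hu

end Lattice

open Classical in
/-- The lattice of functions of the model, with its reduction modulo the place. -/
theorem exists_funLattice_torsion (D : RedSetup A π (laurentBaseChange Qb F₀) Fk) (P : FixedPol F₀)
    (hP : D.H = P.H) {ℓ : ℕ} (hA : A.LiesOverPrime ℓ) (hℓ : ℓ.Prime)
    (N : AddSubgroup (Pic0 Qb (laurentBaseChange Qb F₀))) [Finite N]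
    (hN : ∀ σ : Gam, ∀ x ∈ N, σ • x ∈ N) :
    ∃ T : FunLattice (GaloisRep.ratLocalizedAt ℓ) Qb N,
      (∀ h ∈ T.H, ∀ (σ : Gam) (x : N), h (galN hN σ x) = σ (h x)) ∧
      ∀ x : N, (∀ h ∈ T.H, h x - h 0 ∈ A.nonunits) ↔
        Lin (Finsupp.mapDomain D.r (repDiv N x)) 0 := by
  obtain ⟨C⟩ := exists_charts D N P hP hA hℓ
  obtain ⟨L, hL⟩ := exists_level C P
  have := hL.normal
  have := hL.fin
  have : IsGalois ℚ L := ⟨⟩
  letI := levelAction hL hN
  have hP' : ∃ P : FixedPol F₀, D.H = P.H := ⟨P, hP⟩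
  let Λ : InertiaLattice (A.comap (algebraMap L Qb)) N :=
    { S := latS hL hP'
      val_mem := fun f hf x => latS_val hL hP' hf x
      const_mem := fun a ha => const_mem_latS hL hP' ha
      equiv := fun f hf η hη => by
        funext x
        show η (f (η⁻¹ • x)) = f x
        conv_rhs => rw [← smul_inv_smul η x]
        exact (latS_equiv hL hP' hN hA hℓ hf hη _).symm
      stab := fun f hf σ hσ => conj_mem hL hN hA hℓ hP' hf hσ
      sep := fun x y hxy => by
        by_cases hc : clsOf D N x = clsOf D N y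
        · by_contra hno
          push Not at hno
          refine hxy (C.eq_of_e_eq hc fun i => emb_injective (HahnSeries.ext (funext fun t => ?_)))
          obtain ⟨u, hu, hux⟩ := coord_mem_latS hL hP' i t
          rw [← hux x, ← hux y, hno u hu]
        · refine ⟨_, ind_mem_latS hL hP' (clsOf D N x), ?_⟩
          simp [Ne.symm hc]
      comul := fun f hf => comul_mem hL hN hA hℓ hP' hf
      neg := fun f hf => neg_mem_latS hL hN hA hℓ hP' hf }
  obtain ⟨T, hT⟩ := Λ.exists_funLattice (liesOverPrime_comap hA) hℓ L.val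
  refine ⟨T, fun h hh σ x => ?_, fun x => ?_⟩
  · rw [hT] at hh
    obtain ⟨u, hu, rfl⟩ := hh
    have := congrFun (hu.2 (σ.restrictNormal L)) (σ.restrictNormal L • x)
    rw [conjFun_apply, inv_smul_smul] at this
    have hg : σ.restrictNormal L • x = galN hN σ x := galN_congr hL hN (fun a => by
      rw [liftNormal_coe]
      exact AlgEquiv.restrictNormal_commutes σ L a) x
    show ((u (galN hN σ x) : L) : Qb) = σ ((u x : L) : Qb)
    rw [← hg, ← this]
    exact AlgEquiv.restrictNormal_commutes σ L _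
  have h0 : Lin (Finsupp.mapDomain D.r (repDiv N x)) 0 ↔ clsOf D N x = clsOf D N 0 := by
    have hz : Lin (Finsupp.mapDomain D.r (repDiv N 0)) 0 := by
      simpa using (repDiv_zero (N := N)).red D
    rw [clsOf_eq_iff]
    exact ⟨fun h => h.trans hz.symm, fun h => h.trans hz⟩
  rw [h0]
  constructor
  · intro h
    by_contra hne
    let u : N → L := fun z => if clsOf D N z = clsOf D N 0 then 1 else 0
    have hu : u ∈ Λ.fixedSpan :=
      Λ.mem_fixedSpan (liesOverPrime_comap hA) hℓ (ind_mem_latS hL hP' _)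
    have key : ∀ v ∈ Λ.fixedSpan, ((v x : Qb) - (v 0 : Qb)) ∈ A.nonunits := by
      intro v hv
      induction hv using AddSubgroup.closure_induction with
      | mem v hv =>
        obtain ⟨a, ha, g, hg, rfl⟩ := hv
        have hmem : InertiaLattice.compEmb L.val g ∈ T.H := by rw [hT]; exact ⟨g, hg, rfl⟩
        have h1 : L.val (g x) - L.val (g 0) ∈ A.nonunits := h _ hmem
        show ((a * g x : L) : Qb) - ((a * g 0 : L) : Qb) ∈ A.nonunits
        push_cast
        rw [← mul_sub, A.mem_nonunits_iff, map_mul]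
        exact (mul_le_of_le_one_left' ((A.valuation_le_one_iff _).2 ha.1)).trans_lt
          ((A.mem_nonunits_iff).1 h1)
      | zero => simp [ValuationSubring.mem_nonunits_iff]
      | add v w _ _ hv hw =>
        simp only [Pi.add_apply]
        push_cast
        rw [add_sub_add_comm, A.mem_nonunits_iff]
        exact Valuation.map_add_lt _ ((A.mem_nonunits_iff).1 hv) ((A.mem_nonunits_iff).1 hw)
      | neg v _ hv =>
        simp only [Pi.neg_apply]
        push_cast
        rw [neg_sub_neg, A.mem_nonunits_iff, ← Valuation.map_neg, neg_sub]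
        exact (A.mem_nonunits_iff).1 hv
    have h2 := key u hu
    simp [u, hne, ValuationSubring.mem_nonunits_iff] at h2
  · intro hx h hh
    rw [hT] at hh
    obtain ⟨u, hu, rfl⟩ := hh
    have h1 := latS_res hL hP' hu.1 hx
    rw [← sub_eq_zero, ← map_sub, eq_zero_iff_nonunits D.surj] at h1
    exact h1

/-- A finite flat model of a finite Galois stable group of divisor classes. -/
theorem hasModel_torsion (D : RedSetup A π (laurentBaseChange Qb F₀) Fk) (P : FixedPol F₀)
    (hP : D.H = P.H) {ℓ : ℕ} (hA : A.LiesOverPrime ℓ) (hℓ : ℓ.Prime)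
    (N : AddSubgroup (Pic0 Qb (laurentBaseChange Qb F₀))) [Finite N]
    (hN : ∀ σ : Gam, ∀ x ∈ N, σ • x ∈ N) :
    HasModel ℓ N (fun σ x => galN hN σ x) := by
  obtain ⟨T, hT, -⟩ := exists_funLattice_torsion D P hP hA hℓ N hN
  exact T.hasModel _ hT

end Fermat.Agent.FlatJ
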