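import Fermat.Agent.FlatJ.Good

/-!
Normalised bases of Riemann-Roch spaces as coordinates of effective divisors.
-/

set_option autoImplicit false
set_option linter.unusedSectionVars false
set_option linter.unusedVariables false
set_option synthInstance.maxHeartbeats 100000

noncomputable section

open AlgebraicCurve ModularCurve

namespace Fermat.Agent.FlatJ

open Fermat.Agent.RED.TorsionCore (RRCurve le_ord_of_mem mul_mem_rr rr_mono)

section Curve

variable {K F : Type*} [Field K] [Field F] [Algebra K F]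

theorem finrank_eq_of_principal {X Y : Divisor K F} (h : Divisor.IsPrincipal (X - Y)) :
    Module.finrank K (riemannRochSpace X) = Module.finrank K (riemannRochSpace Y) := by
  obtain ⟨f, hf, hfd⟩ := h
  conv_rhs => rw [show Y = X - (X - Y) by abel]
  exact (finrank_shift hf hfd X).symm

theorem exists_effective {g : ℕ} (hC : RRCurve K F g) {X : Divisor K F}
    (h : 0 < Module.finrank K (riemannRochSpace X)) :
    ∃ G : Divisor K F, 0 ≤ G ∧ Divisor.IsPrincipal (G - X) := by
  obtain ⟨f, hf, hf0⟩ := (Submodule.ne_bot_iff _).1 (fun e : riemannRochSpace X = ⊥ => by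
    rw [e, finrank_bot] at h; exact lt_irrefl 0 h)
  obtain ⟨E, hE, -⟩ := hC.hasPrincipalDivisors.exists_divisor f hf0
  exact ⟨E + X, zero_le_of_mem hf hf0 hE, by rw [add_sub_cancel_right]; exact ⟨f, hf0, hE⟩⟩

theorem degree_eq_of_principal {g : ℕ} (hC : RRCurve K F g) {X Y : Divisor K F}
    (h : Divisor.IsPrincipal (X - Y)) : Divisor.degree X = Divisor.degree Y := by
  obtain ⟨f, hf, hfd⟩ := h
  obtain ⟨E, hE, hE0⟩ := hC.hasPrincipalDivisors.exists_divisor f hf
  rw [show E = X - Y from Finsupp.ext fun v => by rw [hE, hfd], map_sub] at hE0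
  omega

theorem infinite_places [Infinite K] {g : ℕ} (hC : RRCurve K F g) [Nonempty (Place K F)] :
    Infinite (Place K F) := by
  refine not_finite_iff_infinite.1 fun hfin => ?_
  let v₀ := Classical.arbitrary (Place K F)
  let X : Divisor K F := Finsupp.single v₀ (2 * g + 1 : ℤ)
  have hX : Divisor.degree X = (2 * g + 1 : ℤ) := degree_single' hC _ _
  have := hC.finite_rr X
  let p : Place K F → Submodule K (riemannRochSpace X) := fun v =>
    (riemannRochSpace (X - Finsupp.single v 1)).comap (riemannRochSpace X).subtype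
  obtain ⟨h, hh⟩ := Submodule.exists_forall_notMem_of_forall_ne_top p fun v htop => by
    simp only [p, Submodule.comap_subtype_eq_top] at htop
    exact (lt_sub_single hC hX.ge v).not_ge htop
  have hv : ∀ v, (h : F) ≠ 0 ∧ v.ord (h : F) = -X v := fun v =>
    ord_eq_of_notMem hC h.2 (hh v)
  obtain ⟨E, hE, hE0⟩ := hC.hasPrincipalDivisors.exists_divisor (h : F) (hv v₀).1
  rw [show E = -X from Finsupp.ext fun v => by rw [hE, (hv v).2, Finsupp.neg_apply], map_neg,
    hX] at hE0
  omega

theorem exists_finrank_eq_one [Infinite K] {g : ℕ} (hC : RRCurve K F g) [Nonempty (Place K F)] :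
    ∃ X : Divisor K F, 0 ≤ X ∧ Divisor.degree X = g ∧
      Module.finrank K (riemannRochSpace X) = 1 := by
  have := infinite_places hC
  suffices key : ∀ (n : ℕ) (X : Divisor K F), Divisor.degree X = g + n →
      Module.finrank K (riemannRochSpace X) = n + 1 →
      ∃ Y : Divisor K F, Divisor.degree Y = g ∧ Module.finrank K (riemannRochSpace Y) = 1 by
    let v₀ := Classical.arbitrary (Place K F)
    have hd : Divisor.degree (Finsupp.single v₀ (2 * g : ℤ)) = (2 * g : ℤ) := degree_single' hC _ _
    have := hC.finrank_rr _ hd.ge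
    rw [hd] at this
    obtain ⟨Y, hY, hY1⟩ := key g (Finsupp.single v₀ (2 * g : ℤ)) (by omega) (by omega)
    obtain ⟨G, hG0, hGY⟩ := exists_effective hC (X := Y) (by omega)
    exact ⟨G, hG0, by rw [degree_eq_of_principal hC hGY, hY],
      by rw [finrank_eq_of_principal hGY, hY1]⟩
  intro n
  induction n with
  | zero => exact fun X hX hl => ⟨X, by simpa using hX, by simpa using hl⟩
  | succ n ih =>
    intro X hX hl
    have := hC.finite_rr X
    obtain ⟨f, hf, hf0⟩ := (Submodule.ne_bot_iff _).1 (fun e : riemannRochSpace X = ⊥ => by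
      rw [e, finrank_bot] at hl; omega)
    obtain ⟨E, hE, -⟩ := hC.hasPrincipalDivisors.exists_divisor f hf0
    obtain ⟨v, hv⟩ := Infinite.exists_notMem_finset (E + X).support
    have hv' : f ∉ riemannRochSpace (X - Finsupp.single v 1) := fun hmem => by
      have h1 := le_ord_of_mem hmem hf0 v
      rw [Finsupp.notMem_support_iff, Finsupp.add_apply, hE] at hv
      rw [Finsupp.sub_apply, Finsupp.single_eq_same] at h1
      omega
    have hlt : riemannRochSpace (X - Finsupp.single v 1) < riemannRochSpace X :=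
      lt_of_le_of_ne (rr_mono (sub_le_self _ (Finsupp.single_nonneg.2 zero_le_one)))
        fun e => hv' (e ▸ hf)
    have h1 := Submodule.finrank_lt_finrank_of_lt hlt
    have h2 := rrLead_range_le hC v (X - Finsupp.single v 1)
    rw [sub_add_cancel] at h2
    refine ih (X - Finsupp.single v 1) ?_ (by omega)
    rw [map_sub, degree_single' hC]
    omega

end Curve

variable {K k : Type} [Field K] [Field k] {A : ValuationSubring K} {π : A →+* k}
  {F Fk : Type} [Field F] [Algebra K F] [Field Fk] [Algebra k Fk]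
  [LaurentEmb K F] [LaurentEmb k Fk]

namespace RedSetup

variable (D : RedSetup A π F Fk)
include D

theorem isPrincipal_mapDomain {X : Divisor K F} (h : Divisor.IsPrincipal X) :
    Divisor.IsPrincipal (Finsupp.mapDomain D.r X) := by
  obtain ⟨f, hf, hfd⟩ := h
  obtain ⟨n, b, ψ, Eb, hred, hψ, -, hEb, hle⟩ := D.exists_dominating (-X)
  have hb0 := hred.ne_zero hψ
  have hmem : f * b ∈ riemannRochSpace (n • D.H) := mem_riemannRochSpace_iff.2 fun v => Or.inr (by
    have := Finsupp.le_def.1 hle v
    rw [Finsupp.neg_apply, Finsupp.add_apply, hfd, hEb] at this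
    rw [v.ord_mul hf hb0]
    omega)
  obtain ⟨a, m, φ, -, ha, hred', hφm, -⟩ := D.exists_normalised ⊤ ⟨n, hmem⟩
    (fun _ => Subfield.mem_top _) (mul_ne_zero hf hb0)
  have hφ : φ ≠ 0 := fun e => by rw [e, map_zero] at hφm; exact zero_ne_one hφm
  refine ⟨φ * ψ⁻¹, mul_ne_zero hφ (inv_ne_zero hψ), fun w => ?_⟩
  rw [w.ord_mul hφ (inv_ne_zero hψ), w.ord_inv, ← D.compat _ φ hred' hφ (X + Eb) (fun v => ?_) w,
    ← D.compat _ ψ hred hψ Eb hEb w, Finsupp.mapDomain_add, Finsupp.add_apply]
  · ring
  · rw [Finsupp.add_apply, hfd v, hEb, Algebra.smul_def,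
      v.ord_mul (by simpa using ha) (mul_ne_zero hf hb0), FF.ord_algebraMap, v.ord_mul hf hb0,
      zero_add]

theorem isPrincipal_red_sub {X Y : Divisor K F} (h : Divisor.IsPrincipal (X - Y)) :
    Divisor.IsPrincipal (Finsupp.mapDomain D.r X - Finsupp.mapDomain D.r Y) :=
  mapDomain_sub' D.r X Y ▸ D.isPrincipal_mapDomain h

end RedSetup

/-- A basis of a space on the special fibre, normalised at chosen exponents. -/
structure NormBasis {k Fk : Type} [Field k] [Field Fk] [Algebra k Fk] [LaurentEmb k Fk]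
    (Xb : Divisor k Fk) where
  /-- the dimension -/
  d : ℕ
  /-- the exponents -/
  m : Fin d → ℤ
  /-- the basis -/
  φ : Fin d → Fk
  mem : ∀ i, φ i ∈ riemannRochSpace Xb
  coeff : ∀ i j, (emb (φ i)).coeff (m j) = (1 : Matrix (Fin d) (Fin d) k) i j
  dim : Module.finrank k (riemannRochSpace Xb) = d

theorem exists_normBasis {g : ℕ} (hC : RRCurve k Fk g) (Xb : Divisor k Fk) :
    Nonempty (NormBasis Xb) := by
  classical
  have := hC.finite_rr Xb
  let b := Module.finBasis k (riemannRochSpace Xb)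
  let n := Module.finrank k (riemannRochSpace Xb)
  have hind : LinearIndependent k (fun (i : Fin n) (x : ℤ) => (emb (b i : Fk)).coeff x) := by
    rw [Fintype.linearIndependent_iff]
    intro c hc
    refine Fintype.linearIndependent_iff.1 b.linearIndependent c (Subtype.ext ?_)
    refine emb_injective (HahnSeries.ext (funext fun x => ?_))
    have := congrFun hc x
    simpa [map_sum, HahnSeries.coeff_sum] using this
  obtain ⟨m, hm⟩ := exists_minor _ hind
  set T := Matrix.of fun (i : Fin n) (j : Fin n) => (emb (b i : Fk)).coeff (m j) with hT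
  refine ⟨⟨n, m, fun i => ∑ j, T⁻¹ i j • (b j : Fk),
    fun i => sum_mem fun j _ => Submodule.smul_mem _ _ (b j).2, fun i t => ?_, rfl⟩⟩
  rw [← Matrix.nonsing_inv_mul T (isUnit_iff_ne_zero.2 hm)]
  simp [map_sum, HahnSeries.coeff_sum, Matrix.mul_apply, hT]

namespace NormBasis

variable {Xb : Divisor k Fk} (N : NormBasis Xb)

theorem indep : LinearIndependent k N.φ := by
  rw [Fintype.linearIndependent_iff]
  intro c hc i
  have := congrArg (fun x : Fk => (emb x).coeff (N.m i)) hc
  simpa [map_sum, HahnSeries.coeff_sum, N.coeff, Matrix.one_apply] using this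

theorem span_eq {g : ℕ} (hC : RRCurve k Fk g) :
    Submodule.span k (Set.range N.φ) = riemannRochSpace Xb := by
  have := hC.finite_rr Xb
  refine Submodule.eq_of_le_of_finrank_le (Submodule.span_le.2 ?_) ?_
  · rintro _ ⟨i, rfl⟩
    exact N.mem i
  · rw [finrank_span_eq_card N.indep, Fintype.card_fin, N.dim]

theorem eq_sum {g : ℕ} (hC : RRCurve k Fk g) {x : Fk} (hx : x ∈ riemannRochSpace Xb) :
    x = ∑ i, (emb x).coeff (N.m i) • N.φ i := by
  rw [← N.span_eq hC, Submodule.mem_span_range_iff_exists_fun] at hx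
  obtain ⟨c, rfl⟩ := hx
  refine Finset.sum_congr rfl fun i _ => ?_
  simp [map_sum, HahnSeries.coeff_sum, N.coeff, Matrix.one_apply]

theorem isUnit_minor {g : ℕ} (hC : RRCurve k Fk g) {ψ : Fin N.d → Fk}
    (hψ : ∀ i, ψ i ∈ riemannRochSpace Xb) (hi : LinearIndependent k ψ) :
    IsUnit (Matrix.of fun i j => (emb (ψ i)).coeff (N.m j)) := by
  rw [← Matrix.linearIndependent_rows_iff_isUnit, Fintype.linearIndependent_iff]
  intro c hc i
  refine Fintype.linearIndependent_iff.1 hi c ?_ i
  refine (N.eq_sum hC (sum_mem fun j _ => Submodule.smul_mem _ _ (hψ j))).trans ?_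
  refine Finset.sum_eq_zero fun j _ => ?_
  have := congrFun hc j
  simp only [Finset.sum_apply, Pi.smul_apply, smul_eq_mul, Matrix.row, Matrix.of_apply,
    Pi.zero_apply] at this
  simp [map_sum, HahnSeries.coeff_sum, this]

end NormBasis

/-- The normalised family of a divisor over a normalised basis on the special fibre. -/
structure IsNormal (D : RedSetup A π F Fk) {Xb : Divisor k Fk} (N : NormBasis Xb)
    (X : Divisor K F) (e : Fin N.d → F) : Prop where
  mem : ∀ i, e i ∈ riemannRochSpace X
  coeff : ∀ i j, (emb (e i)).coeff (N.m j) = (1 : Matrix (Fin N.d) (Fin N.d) K) i j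
  red : ∀ i, Reduces π (e i) (N.φ i)
  dim : Module.finrank K (riemannRochSpace X) = N.d
  red_eq : Finsupp.mapDomain D.r X = Xb

variable (D : RedSetup A π F Fk)

theorem exists_isNormal {Xb : Divisor k Fk} (N : NormBasis Xb) {X : Divisor K F} (hXb : D.Bdd X)
    (hr : Finsupp.mapDomain D.r X = Xb)
    (hdim : Module.finrank K (riemannRochSpace X) = N.d) : ∃ e, IsNormal D N X e := by
  classical
  subst hr
  have := D.hF.finite_rr X
  obtain ⟨b, ψ, hb, hi⟩ := D.exists_basis_rat ⊤ N.d (riemannRochSpace X) inferInstance hdim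
    (fun f hf => hXb.exists_mem D hf) fun f hf => Submodule.subset_span ⟨hf, fun m => Subfield.mem_top _⟩
  let T : Matrix (Fin N.d) (Fin N.d) A := Matrix.of fun i j => ⟨_, (hb i).2.2.coeff_mem (N.m j)⟩
  have hcoef : ∀ i j, π (T i j) = (emb (ψ i)).coeff (N.m j) := fun i j => by
    obtain ⟨y, hy, hy'⟩ := (hb i).2.2
    rw [← hy', coeffMap_coeff]
    congr 1
    apply Subtype.ext
    show (emb (b i)).coeff (N.m j) = _
    rw [← hy]
    rfl
  have hT : IsUnit T.det := by
    refine D.isUnit_of_ne_zero ?_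
    rw [RingHom.map_det, RingHom.mapMatrix_apply, ← isUnit_iff_ne_zero,
      ← Matrix.isUnit_iff_isUnit_det, show T.map π = Matrix.of (fun i j => (emb (ψ i)).coeff (N.m j))
        from Matrix.ext hcoef]
    exact N.isUnit_minor D.hk (fun i => D.mem_rr_of_reduces (hb i).2.2 (hb i).1) hi
  refine ⟨fun i => ∑ j, ((T⁻¹ i j : A) : K) • b j, ?_⟩
  have hc : ∀ i t, (emb (∑ j, ((T⁻¹ i j : A) : K) • b j)).coeff (N.m t) =
      (1 : Matrix (Fin N.d) (Fin N.d) K) i t := by
    intro i t
    have h := congrArg (fun M : Matrix (Fin N.d) (Fin N.d) A => ((M i t : A) : K))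
      (Matrix.nonsing_inv_mul T hT)
    simp only [Matrix.mul_apply] at h
    rw [show (1 : Matrix (Fin N.d) (Fin N.d) K) i t =
      (((1 : Matrix (Fin N.d) (Fin N.d) A) i t : A) : K) by
        rw [Matrix.one_apply, Matrix.one_apply]; split_ifs <;> simp, ← h]
    simp [map_sum, HahnSeries.coeff_sum, T]
  refine ⟨fun i => sum_mem fun j _ => Submodule.smul_mem _ _ (hb j).1, hc, fun i => ?_, hdim, rfl⟩
  have hred := Reduces.sum (s := Finset.univ) fun j _ => (hb j).2.2.smul (T⁻¹ i j)
  suffices h : ∑ j, π (T⁻¹ i j) • ψ j = N.φ i by rwa [h] at hred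
  have hmem := D.mem_rr_of_reduces hred
    (sum_mem fun j _ => Submodule.smul_mem _ _ (hb j).1)
  rw [N.eq_sum D.hk hmem, N.eq_sum D.hk (N.mem i)]
  refine Finset.sum_congr rfl fun t _ => ?_
  congr 1
  obtain ⟨y, hy, hy'⟩ := hred
  rw [← hy', coeffMap_coeff, N.coeff]
  have : y.coeff (N.m t) = (1 : Matrix (Fin N.d) (Fin N.d) A) i t := by
    apply Subtype.ext
    have h := congrArg (fun z : LaurentSeries K => z.coeff (N.m t)) hy
    simp only [coeffMap_coeff, hc] at h
    refine h.trans ?_
    rw [Matrix.one_apply, Matrix.one_apply]; split_ifs <;> simp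
  rw [this, Matrix.one_apply, Matrix.one_apply]
  split_ifs <;> simp

namespace IsNormal

variable {D}
variable {Xb : Divisor k Fk} {N : NormBasis Xb} {X : Divisor K F} {e : Fin N.d → F}

theorem span_eq (h : IsNormal D N X e) :
    Submodule.span K (Set.range e) = riemannRochSpace X := by
  have := D.hF.finite_rr X
  have hi : LinearIndependent K e := by
    rw [Fintype.linearIndependent_iff]
    intro c hc i
    have := congrArg (fun x : F => (emb x).coeff (N.m i)) hc
    simpa [map_sum, HahnSeries.coeff_sum, h.coeff, Matrix.one_apply] using this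
  refine Submodule.eq_of_le_of_finrank_le (Submodule.span_le.2 ?_) ?_
  · rintro _ ⟨i, rfl⟩
    exact h.mem i
  · rw [finrank_span_eq_card hi, Fintype.card_fin, h.dim]

theorem eq_sum (h : IsNormal D N X e) {x : F} (hx : x ∈ riemannRochSpace X) :
    x = ∑ i, (emb x).coeff (N.m i) • e i := by
  rw [← h.span_eq, Submodule.mem_span_range_iff_exists_fun] at hx
  obtain ⟨c, rfl⟩ := hx
  refine Finset.sum_congr rfl fun i _ => ?_
  simp [map_sum, HahnSeries.coeff_sum, h.coeff, Matrix.one_apply]

theorem eq_of_coeff (h : IsNormal D N X e) {x : F} (hx : x ∈ riemannRochSpace X) {i : Fin N.d}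
    (hc : ∀ j, (emb x).coeff (N.m j) = (1 : Matrix (Fin N.d) (Fin N.d) K) i j) : x = e i := by
  rw [h.eq_sum hx]
  simp [hc, Matrix.one_apply]

theorem unique {e' : Fin N.d → F} (h : IsNormal D N X e) (h' : IsNormal D N X e') : e' = e :=
  funext fun i => h.eq_of_coeff (h'.mem i) (h'.coeff i)

end IsNormal

section Families

variable {S : Type} {R : Subring (S → A)}

theorem isVec_of_forall [Finite S] {u : S → F} (hA : ∀ s t, (emb (u s)).coeff t ∈ A)
    (hR : ∀ t, (fun s => (⟨_, hA s t⟩ : A)) ∈ R) : IsVec R u := by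
  classical
  cases nonempty_fintype S
  refine ⟨{ coeff := fun t => ⟨_, hR t⟩, isPWO_support' := ?_ }, fun s => ?_⟩
  · refine ((Finset.univ : Finset S).isPWO_bUnion.2 fun s _ => (emb (u s)).isPWO_support).mono
      fun t ht => ?_
    simp only [Function.mem_support, ne_eq, Set.mem_iUnion, HahnSeries.mem_support] at ht ⊢
    by_contra hno
    push Not at hno
    exact ht (Subtype.ext (funext fun s => Subtype.ext (hno s (Finset.mem_univ s))))
  · ext t
    rfl

variable [Nonempty S] (hR : IsLocalFamily π R) (P : Pol D R)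
include hR

theorem isGood_of_coeff [Infinite k] [Finite S] {E : S → Divisor K F} {Eb : Divisor k Fk} {n₀ : ℕ}
    {N : NormBasis (n₀ • P.Hb - Eb)} {e : Fin N.d → S → F}
    (he : ∀ s, IsNormal D N (n₀ • D.H - E s) (fun i => e i s))
    (hc : ∀ i t, (fun s => (⟨_, ((he s).red i).coeff_mem t⟩ : A)) ∈ R)
    (hdeg : (2 * D.g + 1 : ℤ) ≤ Divisor.degree (n₀ • P.Hb - Eb)) : IsGood P E Eb := by
  refine isGood_of_fam P hR (n₀ := n₀) ⟨⟨N.d, e, fun i => ?_, N.φ, fun i s => (he s).mem i,
    fun i s => (he s).red i, N.indep, N.span_eq D.hk, fun s => (he s).dim, fun s => (he s).red_eq⟩⟩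
    hdeg
  exact isVec_of_forall (fun s t => ((he s).red i).coeff_mem t) (hc i)

theorem isGood_const {K₀ : Subfield K} (hK₀ : ∀ a : A, (a : K) ∈ K₀ → (fun _ : S => a) ∈ R)
    {B : Divisor K F} (hB0 : 0 ≤ B) (hB : ∀ n : ℕ, riemannRochSpace (n • D.H - B) ≤
      Submodule.span K {f | f ∈ riemannRochSpace (n • D.H - B) ∧ RatCoeff K₀ f}) :
    IsGood P (fun _ => B) (Finsupp.mapDomain D.r B) := by
  obtain ⟨N, hN⟩ := P.exists_nat (2 * D.g + Divisor.degree B)
  refine ⟨fun _ => rfl, N, fun n hn => ?_⟩
  have := isFam_const D hR hK₀ (hB n) (D.bdd_nsmul_sub hB0 n) (by rw [map_sub]; have := hN n hn; omega)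
  rwa [mapDomain_sub', mapDomain_nsmul'] at this

/-- The coordinates of a divisor family equivalent to a difference of good families lie in the
ring. -/
theorem coeff_mem [Infinite k] [Nonempty (Place K F)] {X Y : S → Divisor K F}
    {Xb Yb : Divisor k Fk} (hX : IsGood P X Xb) (hY : IsGood P Y Yb) (hY0 : ∀ s, 0 ≤ Y s)
    {E : S → Divisor K F} (hE0 : ∀ s, 0 ≤ E s) {Eb : Divisor k Fk}
    (hEr : ∀ s, Finsupp.mapDomain D.r (E s) = Eb)
    (hEd : Divisor.degree Eb = D.g) (hEl : Module.finrank k (riemannRochSpace Eb) = 1)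
    (hEXY : ∀ s, Divisor.IsPrincipal (E s - (X s - Y s)))
    {n₀ : ℕ} {Xn : Divisor k Fk} {N : NormBasis Xn}
    (hXn : n₀ • P.Hb - Eb = Xn) {e : Fin N.d → S → F}
    (he : ∀ s, IsNormal D N (n₀ • D.H - E s) (fun i => e i s)) (i : Fin N.d) (t : ℤ) :
    (fun s => (⟨_, ((he s).red i).coeff_mem t⟩ : A)) ∈ R := by
  classical
  let s₀ : S := Classical.arbitrary S
  have hb : Divisor.IsPrincipal (Eb - (Xb - Yb)) := by
    have := D.isPrincipal_red_sub (hEXY s₀)
    rwa [mapDomain_sub' D.r (X s₀), hX.1, hY.1, hEr] at this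
  obtain ⟨E', Eb', hE', hE'0, hE'p, hEb'p⟩ := exists_good_equiv P hR hX hY hY0 (by
      rw [← map_sub, ← degree_eq_of_principal D.hk hb, hEd])
    (by rw [← finrank_eq_of_principal hb, hEl])
  have hEq : E' = E := funext fun s => by
    refine eq_of_principal_sub (hE'0 s) (hE0 s) ?_ (D.finrank_eq_one ?_ ?_)
    · have := sub_mem (show (E' s - (X s - Y s)) ∈ Divisor.principal (K := K) (F := F) from hE'p s)
        (show (E s - (X s - Y s)) ∈ Divisor.principal (K := K) (F := F) from hEXY s)
      rwa [sub_sub_sub_cancel_right] at this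
    · rw [← D.degree_mapDomain, hEr, hEd]
    · rw [hEr, hEl]
  have hEbb : Eb' = Eb := by rw [← hE'.1 s₀, hEq, hEr]
  subst hEq hEbb
  obtain ⟨B⟩ := hE'.isFam P hR hE'0 n₀ fun s => by
    rw [(he s).dim, hXn, N.dim]
  obtain ⟨d, u, hu, ψ, hmem, hred, hind, hspan, hdim, hredeq⟩ := B
  obtain rfl : d = N.d := by rw [← hdim s₀, (he s₀).dim]
  choose w hw using hu
  have hwk : ∀ j, coeffMap (valk R π s₀) (w j) = emb (ψ j) := by
    intro j
    obtain ⟨y, hy, hy'⟩ := hred j s₀
    have : y = coeffMap (evPt R s₀) (w j) :=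
      coeffMap_injective (f := A.subtype) Subtype.val_injective (by
        rw [coeffMap_coeffMap]
        exact hy.trans (hw j s₀).symm)
    rw [← hy', this, coeffMap_coeffMap]
    rfl
  obtain ⟨T, hT, -⟩ := hR.exists_inverse (fun a ha => D.isUnit_of_ne_zero ha) s₀
    (Matrix.of fun a b => (w a).coeff (N.m b)) (by
      rw [← isUnit_iff_ne_zero, ← Matrix.isUnit_iff_isUnit_det]
      convert N.isUnit_minor D.hk (ψ := ψ) (fun j => by
        rw [← hXn, ← hspan]; exact Submodule.subset_span ⟨j, rfl⟩) hind using 1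
      ext a b
      exact congrArg (fun z : LaurentSeries k => z.coeff (N.m b)) (hwk a))
  have hT' : T * Matrix.of (fun a b => (w a).coeff (N.m b)) = 1 := mul_eq_one_comm.1 hT
  have key : ∀ s, e i s = ∑ a, valK R s (T i a) • u a s := by
    intro s
    refine ((he s).eq_of_coeff (sum_mem fun a _ => Submodule.smul_mem _ _ (hmem a s))
      fun b => ?_).symm
    have h := congrArg (fun M => valK R s (M i b)) hT'
    simp only [Matrix.mul_apply, map_sum, map_mul, Matrix.of_apply] at h
    rw [show (1 : Matrix (Fin N.d) (Fin N.d) K) i b =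
      valK R s ((1 : Matrix (Fin N.d) (Fin N.d) R) i b) by
        rw [Matrix.one_apply, Matrix.one_apply]; split_ifs <;> simp, ← h]
    simp [map_sum, HahnSeries.coeff_sum, ← hw]
  convert (∑ a, T i a * (w a).coeff t : R).2 using 1
  funext s
  apply Subtype.ext
  show (emb (e i s)).coeff t = valK R s (∑ a, T i a * (w a).coeff t)
  rw [key s]
  simp [map_sum, HahnSeries.coeff_sum, ← hw]

end Families

end Fermat.Agent.FlatJ
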