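import Fermat.Agent.FlatJ.Semilinear
import Fermat.Agent.FlatJ.Conjugates
import Fermat.Agent.Galois.Decomposition

/-!
The decomposition group at a place of `ℚ̄` and the residue field: Teichmüller lifts, lifting of
automorphisms from a finite Galois level.
-/

set_option autoImplicit false
set_option linter.unusedSectionVars false

noncomputable section

open IsLocalRing

namespace Fermat.Agent.FlatJ

open Fermat.Agent.RED.TorsionCore (map_ne_zero_iff_isUnit)

variable {A : ValuationSubring Qb} {k : Type} [Field k] {π : A →+* k}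

theorem eq_zero_iff_nonunits (hπ : Function.Surjective π) (a : A) :
    π a = 0 ↔ (a : Qb) ∈ A.nonunits := by
  rw [← not_iff_not, ← ne_eq, map_ne_zero_iff_isUnit hπ, A.coe_mem_nonunits_iff,
    IsLocalRing.mem_maximalIdeal, mem_nonunits_iff, not_not]

theorem exists_residue_ringEquiv (hπ : Function.Surjective π) :
    ∃ e : ResidueField A ≃+* k, ∀ a, e (residue A a) = π a := by
  have hker : ∀ a : A, residue A a = 0 → π a = 0 := fun a ha =>
    (eq_zero_iff_nonunits hπ a).2 (A.coe_mem_nonunits_iff.2 ((residue_eq_zero_iff a).1 ha))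
  let f : ResidueField A →+* k := Ideal.Quotient.lift (maximalIdeal A) π
    fun a ha => hker a ((residue_eq_zero_iff a).2 ha)
  exact ⟨RingEquiv.ofBijective f ⟨f.injective, fun c => by
    obtain ⟨a, rfl⟩ := hπ c
    exact ⟨residue A a, rfl⟩⟩, fun a => rfl⟩

/-- An element of the decomposition group acts on the residue field. -/
theorem exists_compat (hπ : Function.Surjective π) {σ : Gam}
    (hσ : σ ∈ A.decompositionSubgroup ℚ) : ∃ φ : k ≃+* k, Compat π σ φ := by
  obtain ⟨e, he⟩ := exists_residue_ringEquiv hπ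
  let t := MulSemiringAction.toRingEquiv (A.decompositionSubgroup ℚ) (ResidueField A)
    (⟨σ, hσ⟩ : A.decompositionSubgroup ℚ)
  refine ⟨(e.symm.trans t).trans e, ⟨fun x => Galois.mem_decomposition_iff.1 hσ x, fun a => ?_⟩⟩
  rw [RingEquiv.trans_apply, RingEquiv.trans_apply, ← he a, RingEquiv.symm_apply_apply, ← he]
  congr 1

theorem compat_inertia (hπ : Function.Surjective π) {σ : Gam}
    (hσ : σ ∈ A.inertiaSubgroupIn ℚ) : Compat π σ (RingEquiv.refl k) := by
  obtain ⟨hD, hI⟩ := Galois.mem_inertia_iff.1 hσ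
  refine ⟨fun x => Galois.mem_decomposition_iff.1 hD x, fun a => ?_⟩
  have h := (eq_zero_iff_nonunits hπ
    (⟨σ a, (Galois.mem_decomposition_iff.1 hD a).2 a.2⟩ - a)).2 (hI a a.2)
  rw [map_sub, sub_eq_zero] at h
  exact h

/-- Every residue has a lift fixed by inertia. -/
theorem exists_inertia_fixed_lift (hπ : Function.Surjective π) {ℓ : ℕ} (hA : A.LiesOverPrime ℓ)
    (hℓ : ℓ.Prime) (c : k) :
    ∃ a : A, π a = c ∧ ∀ σ ∈ A.inertiaSubgroupIn ℚ, σ a = a := by
  obtain ⟨x, rfl⟩ := hπ c
  by_cases hx : π x = 0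
  · exact ⟨0, by rw [map_zero, hx], fun σ _ => by simp⟩
  obtain ⟨e, he⟩ := exists_residue_ringEquiv hπ
  obtain ⟨j, hj, hjx⟩ := Galois.place_exists_pow_eq hA hℓ (residue A x)
  have hpow : π x ^ ℓ ^ j = π x := by
    have := congrArg e hjx
    rwa [map_pow, he] at this
  have h1 : 1 ≤ ℓ ^ j := Nat.one_le_pow _ _ hℓ.pos
  set n := ℓ ^ j - 1 with hn
  have hxn : π x ^ n = 1 := by
    apply mul_right_cancel₀ hx
    rw [← pow_succ, one_mul, hn, Nat.sub_add_cancel h1, hpow]
  have hℓk : (ℓ : k) = 0 := by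
    have := (eq_zero_iff_nonunits hπ (ℓ : A)).2 (show (((ℓ : A) : Qb)) ∈ A.nonunits by rw [show ((ℓ : A) : Qb) = (ℓ : Qb) from map_natCast A.subtype ℓ]; exact hA)
    simpa using this
  have hnk : (n : k) = -1 := by
    rw [hn, Nat.cast_sub h1, Nat.cast_pow, hℓk, zero_pow hj.ne', Nat.cast_one, zero_sub]
  have hn0 : n ≠ 0 := fun h => by simp [h] at hnk
  have hdeg : (Polynomial.X ^ n - Polynomial.C (1 : A)).natDegree = n :=
    Polynomial.natDegree_X_pow_sub_C
  obtain ⟨b, hb, hbx⟩ := Galois.place_exists_root_sub_mem A (Polynomial.X ^ n - Polynomial.C (1 : A))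
    (Polynomial.monic_X_pow_sub_C _ hn0) x (by
      rw [← A.coe_mem_nonunits_iff, ← eq_zero_iff_nonunits hπ]
      simp [hxn]) (by rw [hdeg]; exact hn0)
  have hbn : b ^ n = 1 := by
    have := hb.eq_zero
    simpa [sub_eq_zero] using this
  refine ⟨b, ?_, fun σ hσ => ?_⟩
  · have := (eq_zero_iff_nonunits hπ (b - x)).2 (A.coe_mem_nonunits_iff.2 hbx)
    rwa [map_sub, sub_eq_zero] at this
  · have hc := compat_inertia hπ hσ
    let b' : A := ⟨σ b, (hc.mem_iff b).2 b.2⟩
    have hb'n : b' ^ n = 1 := Subtype.ext (by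
      show σ (b : Qb) ^ n = 1
      rw [← map_pow, show (b : Qb) ^ n = 1 from congrArg Subtype.val hbn, map_one])
    have hres : π b' = π b := hc.res b
    have hu : π b ≠ 0 := fun h => by
      have := congrArg π hbn
      rw [map_pow, h, zero_pow hn0, map_one] at this
      exact zero_ne_one this
    -- `b' = b * u` with `u ≡ 1`
    obtain ⟨binv, hbinv⟩ := ((map_ne_zero_iff_isUnit hπ b).1 hu).exists_right_inv
    set u := b' * binv with hudef
    have hu1 : π u = 1 := by
      rw [hudef, map_mul, hres, ← map_mul, hbinv, map_one]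
    have hun : u ^ n = 1 := by
      rw [hudef, mul_pow, hb'n, one_mul]
      have := congrArg (· ^ n) hbinv
      simpa [mul_pow, hbn] using this
    have hgeom := geom_sum_mul u n
    rw [hun, sub_self, mul_eq_zero] at hgeom
    rcases hgeom with h | h
    · have := congrArg π h
      simp [map_sum, hu1, hnk] at this
    · have : b' = b := by
        calc b' = b' * (b * binv) := by rw [hbinv, mul_one]
          _ = b * u := by rw [hudef]; ring
          _ = b := by rw [sub_eq_zero.1 h, mul_one]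
      exact congrArg Subtype.val this

variable {L : IntermediateField ℚ Qb}

theorem mem_nonunits_comap {x : L} :
    x ∈ (A.comap (algebraMap L Qb)).nonunits ↔ (x : Qb) ∈ A.nonunits := by
  rw [ValuationSubring.mem_nonunits_iff_or, ValuationSubring.mem_nonunits_iff_or]
  refine or_congr ⟨fun h => by rw [h]; rfl, fun h => Subtype.ext h⟩ (not_congr ?_)
  rw [ValuationSubring.mem_comap]
  simp

theorem liesOverPrime_comap {ℓ : ℕ} (hA : A.LiesOverPrime ℓ) :
    (A.comap (algebraMap L Qb)).LiesOverPrime ℓ := by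
  show (ℓ : L) ∈ (A.comap (algebraMap L Qb)).nonunits
  rw [mem_nonunits_comap]
  exact hA

variable [Normal ℚ L]

theorem liftNormal_coe (η : L ≃ₐ[ℚ] L) (x : L) : (η.liftNormal Qb) (x : Qb) = η x :=
  η.liftNormal_commutes Qb x

/-- Inertia of a finite level lifts to inertia. -/
theorem exists_inertia_lift {ℓ : ℕ} (hA : A.LiesOverPrime ℓ) (hℓ : ℓ.Prime) {η : L ≃ₐ[ℚ] L}
    (hη : η ∈ inertG (A.comap (algebraMap L Qb))) :
    ∃ σ ∈ A.inertiaSubgroupIn ℚ, ∀ x : L, σ (x : Qb) = η x := by
  obtain ⟨σ, hσ, heq⟩ := Galois.exists_inertia_eq_on (σ := η.liftNormal Qb) L hA hℓ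
    fun x hx hxi => by
      rw [show x = ((⟨x, hx⟩ : L) : Qb) from rfl, liftNormal_coe]
      have hxP : (⟨x, hx⟩ : L) ∈ A.comap (algebraMap L Qb) :=
        Galois.place_mem_of_isIntegral A hxi
      have h := hη.2 _ hxP
      rw [← ValuationSubring.mem_nonunits_iff, mem_nonunits_comap] at h
      exact h
  exact ⟨σ, hσ, fun x => (heq x x.2).trans (liftNormal_coe η x)⟩

/-- Stabilisers of a finite level lift to the decomposition group. -/
theorem exists_decomposition_lift {ℓ : ℕ} (hA : A.LiesOverPrime ℓ) (hℓ : ℓ.Prime) {η : L ≃ₐ[ℚ] L}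
    (hη : Stabilises (A.comap (algebraMap L Qb)) η) :
    ∃ σ ∈ A.decompositionSubgroup ℚ, ∀ x : L, σ (x : Qb) = η x := by
  obtain ⟨σ, hσ, heq⟩ := Galois.exists_decomposition_eq_on (σ := η.liftNormal Qb) L hA hℓ
    fun x hx _ => by
      rw [show x = ((⟨x, hx⟩ : L) : Qb) from rfl, liftNormal_coe, ← mem_nonunits_comap,
        ← mem_nonunits_comap, ValuationSubring.mem_nonunits_iff_or,
        ValuationSubring.mem_nonunits_iff_or, ← map_inv₀, hη, EmbeddingLike.map_eq_zero_iff]
  exact ⟨σ, hσ, fun x => (heq x x.2).trans (liftNormal_coe η x)⟩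

end Fermat.Agent.FlatJ
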