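import Fermat.Agent.FlatJ.Chart
import Fermat.Agent.FlatJ.Local

/-!
Classes of a Galois stable group of divisor classes under reduction, and the chart of each class.
-/

set_option autoImplicit false
set_option linter.unusedSectionVars false
set_option linter.unusedVariables false
set_option synthInstance.maxHeartbeats 400000
set_option maxHeartbeats 800000

noncomputable section

open AlgebraicCurve ModularCurve

namespace Fermat.Agent.FlatJ

open Fermat.Agent.RED.TorsionCore (RRCurve le_ord_of_mem mul_mem_rr rr_mono)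

/-! ### Linear equivalence -/

section Lin

variable {K F : Type*} [Field K] [Field F] [Algebra K F]

/-- linear equivalence -/
def Lin (X Y : Divisor K F) : Prop := X - Y ∈ Divisor.principal (K := K) (F := F)

theorem Lin.refl (X : Divisor K F) : Lin X X := by simp [Lin]

theorem Lin.of_eq {X Y : Divisor K F} (h : X = Y) : Lin X Y := h ▸ Lin.refl X

theorem Lin.symm {X Y : Divisor K F} (h : Lin X Y) : Lin Y X := by
  unfold Lin at *
  rw [← neg_sub]
  exact neg_mem h

theorem Lin.trans {X Y Z : Divisor K F} (h : Lin X Y) (h' : Lin Y Z) : Lin X Z := by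
  unfold Lin at *
  rw [← sub_add_sub_cancel X Y Z]
  exact add_mem h h'

theorem Lin.add {X Y X' Y' : Divisor K F} (h : Lin X Y) (h' : Lin X' Y') :
    Lin (X + X') (Y + Y') := by
  unfold Lin at *
  rw [add_sub_add_comm]
  exact add_mem h h'

theorem Lin.sub {X Y X' Y' : Divisor K F} (h : Lin X Y) (h' : Lin X' Y') :
    Lin (X - X') (Y - Y') := by
  unfold Lin at *
  rw [sub_sub_sub_comm]
  exact sub_mem h h'

theorem Lin.finrank_eq {X Y : Divisor K F} (h : Lin X Y) :
    Module.finrank K (riemannRochSpace X) = Module.finrank K (riemannRochSpace Y) :=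
  finrank_eq_of_principal h

theorem Lin.degree_eq {g : ℕ} (hC : RRCurve K F g) {X Y : Divisor K F} (h : Lin X Y) :
    Divisor.degree X = Divisor.degree Y :=
  degree_eq_of_principal hC h

theorem lin_zero_of_finrank_pos {g : ℕ} (hC : RRCurve K F g) {X : Divisor K F}
    (hd : Divisor.degree X = 0) (hl : 0 < Module.finrank K (riemannRochSpace X)) : Lin X 0 := by
  obtain ⟨G, hG0, hG⟩ := exists_effective hC hl
  have hGd : Divisor.degree G = 0 := (degree_eq_of_principal hC hG).trans hd
  have : G = 0 := by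
    ext v
    by_contra hv
    have h0 : ∀ w, 0 ≤ G w := fun w => Finsupp.le_def.1 hG0 w
    have hsum : Divisor.degree G = G.sum fun w n => n * (w.deg : ℤ) := by
      simp [Divisor.degree, Finsupp.sum]
    rw [hsum, Finsupp.sum, Finset.sum_eq_zero_iff_of_nonneg
      (fun w _ => mul_nonneg (h0 w) (Int.natCast_nonneg _))] at hGd
    have := hGd v (Finsupp.mem_support_iff.2 hv)
    rw [hC.deg_one] at this
    simp at this
    exact hv this
  rw [this] at hG
  exact Lin.symm hG

theorem lin_iff_finrank_pos {g : ℕ} (hC : RRCurve K F g) {X Y : Divisor K F}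
    (hd : Divisor.degree X = Divisor.degree Y) :
    Lin X Y ↔ 0 < Module.finrank K (riemannRochSpace (X - Y)) := by
  constructor
  · intro h
    have h0 : Lin (X - Y) 0 := by simpa [Lin] using h
    rw [h0.finrank_eq, hC.finrank_rr_zero]
    exact one_pos
  · intro h
    have := lin_zero_of_finrank_pos hC (X := X - Y) (by rw [map_sub]; omega) h
    simpa [Lin] using this

theorem pic0_mk_eq_iff {X Y : Divisor.degZero (K := K) (F := F)} :
    Pic0.mk X = Pic0.mk Y ↔ Lin (X : Divisor K F) Y := by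
  rw [Pic0.mk, Pic0.mk, QuotientAddGroup.eq, AddSubgroup.mem_addSubgroupOf]
  refine ⟨fun h => Lin.symm ?_, fun h => ?_⟩
  · unfold Lin
    convert h using 1
    simp [sub_eq_neg_add]
  · have := Lin.symm h
    unfold Lin at this
    convert this using 1
    simp [sub_eq_neg_add]

end Lin

theorem Lin.red {K k : Type} [Field K] [Field k] {A : ValuationSubring K} {π : A →+* k}
    {F Fk : Type} [Field F] [Algebra K F] [Field Fk] [Algebra k Fk] [LaurentEmb K F]
    [LaurentEmb k Fk] (D : RedSetup A π F Fk) {X Y : Divisor K F} (h : Lin X Y) :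
    Lin (Finsupp.mapDomain D.r X) (Finsupp.mapDomain D.r Y) :=
  D.isPrincipal_red_sub h

theorem RedSetup.nonempty_place {K k : Type} [Field K] [Field k] {A : ValuationSubring K}
    {π : A →+* k} {F Fk : Type} [Field F] [Algebra K F] [Field Fk] [Algebra k Fk] [LaurentEmb K F]
    [LaurentEmb k Fk] (D : RedSetup A π F Fk) : Nonempty (Place K F) := by
  by_contra h
  rw [not_nonempty_iff] at h
  have := D.H_pos
  rw [Subsingleton.elim D.H 0, map_zero] at this
  exact lt_irrefl 0 this

variable {F₀ : IntermediateField ℚ (LaurentSeries ℚ)}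

theorem Lin.gal {X Y : Divisor Qb (laurentBaseChange Qb F₀)} (h : Lin X Y) (σ : Gam) :
    Lin (gact F₀ σ • X) (gact F₀ σ • Y) := by
  unfold Lin at *
  rw [← smul_sub]
  exact SemilinearAut.smul_mem_principal _ h

/-! ### A Galois stable group of classes -/

section Stable

variable (N : AddSubgroup (Pic0 Qb (laurentBaseChange Qb F₀)))

/-- a representative of a class -/
def repDiv (x : N) : Divisor Qb (laurentBaseChange Qb F₀) :=
  ((Pic0.mk_surjective (x : Pic0 Qb (laurentBaseChange Qb F₀))).choose :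
    Divisor.degZero (K := Qb) (F := laurentBaseChange Qb F₀))

variable {N}

theorem degree_repDiv (x : N) : Divisor.degree (repDiv N x) = 0 :=
  Divisor.mem_degZero.1 (Pic0.mk_surjective (x : Pic0 Qb (laurentBaseChange Qb F₀))).choose.2

theorem mk_repDiv (x : N) :
    Pic0.mk ⟨repDiv N x, Divisor.mem_degZero.2 (degree_repDiv x)⟩ =
      (x : Pic0 Qb (laurentBaseChange Qb F₀)) :=
  (Pic0.mk_surjective (x : Pic0 Qb (laurentBaseChange Qb F₀))).choose_spec

theorem eq_iff_lin (x y : N) : x = y ↔ Lin (repDiv N x) (repDiv N y) := by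
  rw [Subtype.ext_iff, ← mk_repDiv x, ← mk_repDiv y, pic0_mk_eq_iff]

theorem lin_of_mk_eq {X Y : Divisor Qb (laurentBaseChange Qb F₀)}
    {hX : X ∈ Divisor.degZero (K := Qb) (F := laurentBaseChange Qb F₀)}
    {hY : Y ∈ Divisor.degZero (K := Qb) (F := laurentBaseChange Qb F₀)}
    (h : Pic0.mk ⟨X, hX⟩ = Pic0.mk ⟨Y, hY⟩) : Lin X Y :=
  pic0_mk_eq_iff.1 h

theorem repDiv_add (x y : N) : Lin (repDiv N (x + y)) (repDiv N x + repDiv N y) := by
  refine lin_of_mk_eq (hX := Divisor.mem_degZero.2 (degree_repDiv _))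
    (hY := add_mem (Divisor.mem_degZero.2 (degree_repDiv x))
      (Divisor.mem_degZero.2 (degree_repDiv y))) ?_
  rw [mk_repDiv, AddSubgroup.coe_add, ← mk_repDiv x, ← mk_repDiv y, ← Pic0.mk_add]
  rfl

theorem repDiv_zero : Lin (repDiv N 0) 0 := by
  refine lin_of_mk_eq (hX := Divisor.mem_degZero.2 (degree_repDiv _)) (hY := zero_mem _) ?_
  rw [mk_repDiv, ZeroMemClass.coe_zero]
  exact (Pic0.mk_zero).symm

theorem repDiv_neg (x : N) : Lin (repDiv N (-x)) (-repDiv N x) := by
  have h := (repDiv_add (-x) x)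
  rw [neg_add_cancel] at h
  have h2 := (repDiv_zero (N := N)).symm.trans h |>.sub (Lin.refl (repDiv N x))
  rw [add_sub_cancel_right, zero_sub] at h2
  exact h2.symm

variable (hN : ∀ σ : Gam, ∀ x ∈ N, σ • x ∈ N)

/-- the Galois action on the group -/
def galN (σ : Gam) (x : N) : N := ⟨σ • (x : Pic0 Qb (laurentBaseChange Qb F₀)), hN σ x x.2⟩

@[simp] theorem coe_galN (σ : Gam) (x : N) :
    (galN hN σ x : Pic0 Qb (laurentBaseChange Qb F₀)) = σ • (x : Pic0 Qb (laurentBaseChange Qb F₀)) :=
  rfl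

theorem galN_one (x : N) : galN hN 1 x = x := Subtype.ext (one_smul _ _)

theorem galN_mul (σ τ : Gam) (x : N) : galN hN (σ * τ) x = galN hN σ (galN hN τ x) :=
  Subtype.ext (mul_smul σ τ _)

theorem galN_add (σ : Gam) (x y : N) : galN hN σ (x + y) = galN hN σ x + galN hN σ y :=
  Subtype.ext (smul_add σ _ _)

theorem galN_zero (σ : Gam) : galN hN σ (0 : N) = 0 :=
  Subtype.ext (smul_zero σ)

theorem repDiv_gal (σ : Gam) (x : N) : Lin (repDiv N (galN hN σ x)) (gact F₀ σ • repDiv N x) := by
  refine lin_of_mk_eq (hX := Divisor.mem_degZero.2 (degree_repDiv _))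
    (hY := SemilinearAut.smul_mem_degZero _ (Divisor.mem_degZero.2 (degree_repDiv x))) ?_
  rw [mk_repDiv, coe_galN, ← mk_repDiv x, galois_smul_pic0_def, SemilinearAut.pic0_smul_mk]
  exact congrArg Pic0.mk (Subtype.ext (SemilinearAut.coe_degZeroSMulHom _ _))

end Stable

/-! ### Classes -/

section Cls

variable {A : ValuationSubring Qb} {k : Type} [Field k] {π : A →+* k}
  {Fk : Type} [Field Fk] [Algebra k Fk] [LaurentEmb k Fk]
variable (D : RedSetup A π (laurentBaseChange Qb F₀) Fk)
variable (N : AddSubgroup (Pic0 Qb (laurentBaseChange Qb F₀)))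

/-- same reduction -/
def clsSetoid : Setoid N where
  r x y := Lin (Finsupp.mapDomain D.r (repDiv N x)) (Finsupp.mapDomain D.r (repDiv N y))
  iseqv := ⟨fun _ => Lin.refl _, Lin.symm, Lin.trans⟩

/-- the classes for the reduction -/
def Cls : Type := Quotient (clsSetoid D N)

/-- the class of an element -/
def clsOf (x : N) : Cls D N := Quotient.mk (clsSetoid D N) x

instance [Finite N] : Finite (Cls D N) := Quotient.finite _

variable {D N}

theorem clsOf_eq_iff {x y : N} : clsOf D N x = clsOf D N y ↔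
    Lin (Finsupp.mapDomain D.r (repDiv N x)) (Finsupp.mapDomain D.r (repDiv N y)) :=
  ⟨fun h => Quotient.exact h, fun h => Quotient.sound h⟩

theorem clsOf_add {x x' y y' : N} (hx : clsOf D N x = clsOf D N x')
    (hy : clsOf D N y = clsOf D N y') : clsOf D N (x + y) = clsOf D N (x' + y') := by
  rw [clsOf_eq_iff] at hx hy ⊢
  refine ((repDiv_add x y).red D).trans (Lin.trans ?_ ((repDiv_add x' y').red D).symm)
  rw [Finsupp.mapDomain_add, Finsupp.mapDomain_add]
  exact hx.add hy

theorem clsOf_neg {x x' : N} (hx : clsOf D N x = clsOf D N x') :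
    clsOf D N (-x) = clsOf D N (-x') := by
  rw [clsOf_eq_iff] at hx ⊢
  refine ((repDiv_neg x).red D).trans (Lin.trans ?_ ((repDiv_neg x').red D).symm)
  have e : ∀ a : Divisor Qb (laurentBaseChange Qb F₀),
      Finsupp.mapDomain D.r (-a) = -Finsupp.mapDomain D.r a := fun a =>
    map_neg (Finsupp.mapDomain.addMonoidHom (M := ℤ) D.r) a
  rw [e, e, ← zero_sub, ← zero_sub (Finsupp.mapDomain D.r (repDiv N x'))]
  exact (Lin.refl 0).sub hx

variable (hN : ∀ σ : Gam, ∀ x ∈ N, σ • x ∈ N)

theorem clsOf_gal {σ : Gam} {φ : k ≃+* k} (h : Compat π σ φ) (P : FixedPol F₀) (hP : D.H = P.H)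
    {x x' : N} (hx : clsOf D N x = clsOf D N x') :
    clsOf D N (galN hN σ x) = clsOf D N (galN hN σ x') := by
  rw [clsOf_eq_iff] at hx ⊢
  refine ((repDiv_gal hN σ x).red D).trans (Lin.trans ?_ ((repDiv_gal hN σ x').red D).symm)
  have e : ∀ a b : Divisor Qb (laurentBaseChange Qb F₀), Finsupp.mapDomain D.r (a - b) =
      Finsupp.mapDomain D.r a - Finsupp.mapDomain D.r b := fun a b => mapDomain_sub' D.r a b
  have hd : ∀ z : N, Divisor.degree (Finsupp.mapDomain D.r (repDiv N z)) = 0 := fun z => by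
    rw [D.degree_mapDomain, degree_repDiv]
  rw [lin_iff_finrank_pos D.hk (by rw [hd, hd]), ← e] at hx
  rw [lin_iff_finrank_pos D.hk (by simp [D.degree_mapDomain, degree_repDiv]), ← e, ← smul_sub]
  exact lt_of_lt_of_le hx (finrank_red_gal_le D h P hP _)

theorem clsOf_gal_inertia {σ : Gam} (h : Compat π σ (RingEquiv.refl k)) (P : FixedPol F₀)
    (hP : D.H = P.H) (x : N) : clsOf D N (galN hN σ x) = clsOf D N x := by
  rw [clsOf_eq_iff, ← mapDomain_gal_inertia D h P hP (repDiv N x)]
  exact (repDiv_gal hN σ x).red D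

end Cls

/-! ### Charts -/

section Chart

variable {A : ValuationSubring Qb} {k : Type} [Field k] {π : A →+* k}
  {Fk : Type} [Field Fk] [Algebra k Fk] [LaurentEmb k Fk]

/-- An effective divisor `E x` of degree `g`, with constant reduction, for every element; the
shift `B` depends only on the class. -/
structure Charts (D : RedSetup A π (laurentBaseChange Qb F₀) Fk)
    (N : AddSubgroup (Pic0 Qb (laurentBaseChange Qb F₀))) where
  /-- the multiple of `H` -/
  c : ℕ
  /-- the reduced divisor -/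
  Eb : Divisor k Fk
  Eb_eff : 0 ≤ Eb
  Eb_deg : Divisor.degree Eb = D.g
  Eb_l : Module.finrank k (riemannRochSpace Eb) = 1
  /-- the shift of a class -/
  B : Cls D N → Divisor Qb (laurentBaseChange Qb F₀)
  B_eff : ∀ q, 0 ≤ B q
  B_fix : ∀ q, ∀ σ ∈ A.inertiaSubgroupIn ℚ, gact F₀ σ • B q = B q
  /-- the effective divisor of an element -/
  E : N → Divisor Qb (laurentBaseChange Qb F₀)
  E_eff : ∀ x, 0 ≤ E x
  E_red : ∀ x, Finsupp.mapDomain D.r (E x) = Eb
  E_rel : ∀ x, Lin (E x) (repDiv N x + B (clsOf D N x) - c • D.H)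
  /-- the exponent -/
  n₀ : ℕ
  n₀_deg : (3 * D.g + 1 : ℤ) ≤ Divisor.degree (n₀ • D.H)
  /-- the normalised basis on the special fibre -/
  nb : NormBasis (n₀ • Finsupp.mapDomain D.r D.H - Eb)
  /-- the normalised bases -/
  e : Fin nb.d → N → laurentBaseChange Qb F₀
  e_normal : ∀ x, IsNormal D nb (n₀ • D.H - E x) (fun i => e i x)

variable (D : RedSetup A π (laurentBaseChange Qb F₀) Fk)
  (N : AddSubgroup (Pic0 Qb (laurentBaseChange Qb F₀)))

theorem exists_charts [Infinite k] (P : FixedPol F₀) (hP : D.H = P.H) {ℓ : ℕ}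
    (hA : A.LiesOverPrime ℓ) (hℓ : ℓ.Prime) : Nonempty (Charts D N) := by
  classical
  have := D.nonempty_place
  have := D.nonempty_place_special
  obtain ⟨Eb, hEb0, hEbd, hEbl⟩ := exists_finrank_eq_one D.hk
  set c := 2 * D.g with hc
  have hcd : (2 * D.g : ℤ) ≤ Divisor.degree (c • D.H) := by
    rw [map_nsmul, nsmul_eq_mul]
    have := D.H_pos
    push_cast [hc]
    nlinarith
  have hBb : ∀ q : Cls D N, ∃ G : Divisor k Fk, 0 ≤ G ∧ Lin G
      (Eb - Finsupp.mapDomain D.r (repDiv N (Quotient.out q)) + Finsupp.mapDomain D.r (c • D.H)) := by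
    intro q
    set X := Eb - Finsupp.mapDomain D.r (repDiv N (Quotient.out q)) +
      Finsupp.mapDomain D.r (c • D.H) with hX
    have hd : (2 * D.g : ℤ) ≤ Divisor.degree X := by
      rw [hX, map_add, map_sub, D.degree_mapDomain, D.degree_mapDomain, degree_repDiv, hEbd]
      omega
    have hl := D.hk.finrank_rr X hd
    obtain ⟨G, hG, hGX⟩ := exists_effective D.hk (X := X) (by
      rcases Nat.eq_zero_or_pos D.g with h0 | h0 <;> omega)
    exact ⟨G, hG, hGX⟩
  choose G hG0 hG using hBb
  choose lift hlift hliftfix using exists_fixed_lift D (A.inertiaSubgroupIn ℚ)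
    (fun σ hσ => compat_inertia D.surj hσ) (fun c => by
      obtain ⟨a, ha, hfix⟩ := exists_inertia_fixed_lift D.surj hA hℓ c
      exact ⟨a, ha, mem_fixK.2 hfix⟩) P hP
  let B : Cls D N → Divisor Qb (laurentBaseChange Qb F₀) := fun q => Finsupp.mapDomain lift (G q)
  have hBr : ∀ q, Finsupp.mapDomain D.r (B q) = G q := fun q => by
    rw [← Finsupp.mapDomain_comp, show D.r ∘ lift = id from funext hlift, Finsupp.mapDomain_id]
  have hB0 : ∀ q, 0 ≤ B q := fun q => by
    have := Finsupp.mapDomain_mono (f := lift) (hG0 q)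
    rwa [Finsupp.mapDomain_zero] at this
  have hBfix : ∀ q, ∀ σ ∈ A.inertiaSubgroupIn ℚ, gact F₀ σ • B q = B q := fun q σ hσ => by
    show gact F₀ σ • Finsupp.mapDomain lift (G q) = Finsupp.mapDomain lift (G q)
    rw [SemilinearAut.divisor_smul_def, ← Finsupp.mapDomain_comp]
    congr 1
    funext w
    exact hliftfix w σ hσ
  have hE : ∀ x : N, ∃ E, 0 ≤ E ∧ Finsupp.mapDomain D.r E = Eb ∧
      Lin E (repDiv N x + B (clsOf D N x) - c • D.H) := by
    intro x
    set X := repDiv N x + B (clsOf D N x) - c • D.H with hX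
    have hred : Lin (Finsupp.mapDomain D.r X) Eb := by
      have h1 : Lin (Finsupp.mapDomain D.r (repDiv N x))
          (Finsupp.mapDomain D.r (repDiv N (Quotient.out (clsOf D N x)))) :=
        clsOf_eq_iff.1 (Quotient.out_eq (clsOf D N x)).symm
      have h2 := (h1.add (hG (clsOf D N x))).sub (Lin.refl (Finsupp.mapDomain D.r (c • D.H)))
      rw [show Finsupp.mapDomain D.r X = Finsupp.mapDomain D.r (repDiv N x) + G (clsOf D N x) -
        Finsupp.mapDomain D.r (c • D.H) by rw [hX, mapDomain_sub', Finsupp.mapDomain_add, hBr]]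
      convert h2 using 1
      abel
    have hl1 : Module.finrank k (riemannRochSpace (Finsupp.mapDomain D.r X)) = 1 := by
      rw [hred.finrank_eq, hEbl]
    have hXd : Divisor.degree X = D.g := by
      rw [← D.degree_mapDomain, hred.degree_eq D.hk, hEbd]
    have hlX := D.finrank_eq_one hXd hl1
    obtain ⟨E, hE0, hEX⟩ := exists_effective D.hF (X := X) (by omega)
    refine ⟨E, hE0, eq_of_principal_sub ?_ hEb0 ((Lin.red D hEX).trans hred) hEbl, hEX⟩
    have := Finsupp.mapDomain_mono (f := D.r) hE0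
    rwa [Finsupp.mapDomain_zero] at this
  choose E hE0 hEr hErel using hE
  set n₀ := 3 * D.g + 1 with hn₀
  have hn₀d : (3 * D.g + 1 : ℤ) ≤ Divisor.degree (n₀ • D.H) := by
    rw [map_nsmul, nsmul_eq_mul]
    have := D.H_pos
    push_cast [hn₀]
    nlinarith
  obtain ⟨nb⟩ := exists_normBasis D.hk (n₀ • Finsupp.mapDomain D.r D.H - Eb)
  have hn : ∀ x, ∃ e, IsNormal D nb (n₀ • D.H - E x) e := by
    intro x
    have hr : Finsupp.mapDomain D.r (n₀ • D.H - E x) = n₀ • Finsupp.mapDomain D.r D.H - Eb := by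
      rw [mapDomain_sub', mapDomain_nsmul', hEr]
    refine exists_isNormal D nb (D.bdd_nsmul_sub (hE0 x) n₀) hr ?_
    rw [← nb.dim, ← hr, D.finrank_eq]
    rw [map_sub, ← D.degree_mapDomain (E x), hEr, hEbd]
    omega
  choose e he using hn
  exact ⟨⟨c, Eb, hEb0, hEbd, hEbl, B, hB0, hBfix, E, hE0, hEr, hErel, n₀, hn₀d, nb,
    fun i x => e x i, he⟩⟩

namespace Charts

variable {D N} (C : Charts D N)

theorem deg_E (x : N) : Divisor.degree (C.E x) = D.g := by
  rw [← D.degree_mapDomain, C.E_red, C.Eb_deg]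

theorem l_E (x : N) : Module.finrank Qb (riemannRochSpace (C.E x)) = 1 := by
  have := D.nonempty_place
  exact D.finrank_eq_one (C.deg_E x) (by rw [C.E_red, C.Eb_l])

theorem eq_E {x : N} {X : Divisor Qb (laurentBaseChange Qb F₀)} (h0 : 0 ≤ X)
    (h : Lin X (repDiv N x + C.B (clsOf D N x) - C.c • D.H)) : X = C.E x :=
  eq_of_principal_sub h0 (C.E_eff x) (h.trans (C.E_rel x).symm) (C.l_E x)

/-- distinct elements of a class have distinct bases -/
theorem eq_of_e_eq {x y : N} (hc : clsOf D N x = clsOf D N y) (he : ∀ i, C.e i x = C.e i y) :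
    x = y := by
  have h1 : riemannRochSpace (C.n₀ • D.H - C.E x) = riemannRochSpace (C.n₀ • D.H - C.E y) := by
    rw [← (C.e_normal x).span_eq, ← (C.e_normal y).span_eq, funext he]
  have hd : ∀ z, (2 * D.g + 1 : ℤ) ≤ Divisor.degree (C.n₀ • D.H - C.E z) := fun z => by
    rw [map_sub, C.deg_E]
    have := C.n₀_deg
    omega
  have h2 := sub_right_inj.1 (eq_of_rr_eq D.hF (hd x) (hd y) h1)
  rw [eq_iff_lin]
  have h3 := ((C.E_rel x).symm.trans (Lin.of_eq h2)).trans (C.E_rel y)
  rw [hc] at h3
  have h4 := h3.add (Lin.refl (C.c • D.H - C.B (clsOf D N y)))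
  convert h4 using 1 <;> abel

end Charts

end Chart

end Fermat.Agent.FlatJ
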