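import Fermat.Agent.RED.TorsionCore
import Fermat.Agent.FF.RiemannRochBasic
import Fermat.Prelude.Def_ModularCurve_LaurentCoeff

/-!
Riemann-Roch spaces in large degree: base points, multiplication, division.
-/

set_option autoImplicit false
set_option linter.unusedSectionVars false

noncomputable section

open AlgebraicCurve

namespace Fermat.Agent.FlatJ

open Fermat.Agent.RED.TorsionCore (RRCurve le_ord_of_mem mul_mem_rr rr_mono)

variable {K F : Type*} [Field K] [Field F] [Algebra K F] {g : ℕ}

theorem rr_shift_iff {D E : Divisor K F} {h : F} (hh : h ≠ 0) (hE : ∀ v : Place K F, E v = v.ord h)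
    (x : F) : h * x ∈ riemannRochSpace (D - E) ↔ x ∈ riemannRochSpace D := by
  rcases eq_or_ne x 0 with rfl | hx
  · simp
  simp only [mem_riemannRochSpace_iff, mul_ne_zero hh hx, hx, false_or]
  refine forall_congr' fun v => ?_
  rw [v.ord_mul hh hx, Finsupp.sub_apply, hE v]
  omega

theorem zero_le_of_mem {D : Divisor K F} {h : F} (hh : h ∈ riemannRochSpace D) (h0 : h ≠ 0)
    {E : Divisor K F} (hE : ∀ v : Place K F, E v = v.ord h) : 0 ≤ E + D :=
  Finsupp.le_def.2 fun v => by
    have := le_ord_of_mem hh h0 v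
    rw [Finsupp.add_apply, hE v, Finsupp.zero_apply]
    omega

theorem finrank_shift {L E : Type*} [Field L] [Field E] [Algebra L E] {h : E} (hh : h ≠ 0)
    {Eh : Divisor L E} (hEh : ∀ v : Place L E, Eh v = v.ord h) (X : Divisor L E) :
    Module.finrank L (riemannRochSpace (X - Eh)) = Module.finrank L (riemannRochSpace X) := by
  refine (LinearEquiv.finrank_eq ?_).symm
  refine LinearEquiv.ofBijective ((LinearMap.mulLeft L h).restrict fun x hx =>
    (rr_shift_iff hh hEh x).2 hx) ⟨?_, ?_⟩
  · intro a b hab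
    exact Subtype.ext (mul_left_cancel₀ hh (congrArg Subtype.val hab))
  · rintro ⟨y, hy⟩
    have hy' : y = h * (h⁻¹ * y) := by rw [← mul_assoc, mul_inv_cancel₀ hh, one_mul]
    refine ⟨⟨h⁻¹ * y, ?_⟩, Subtype.ext hy'.symm⟩
    rwa [hy', rr_shift_iff hh hEh] at hy

section

variable (hC : RRCurve K F g)
include hC

theorem degree_single' (v : Place K F) (n : ℤ) : Divisor.degree (Finsupp.single v n) = n := by
  simp [hC.deg_one]

theorem rrLead_range_le (v : Place K F) (D : Divisor K F) :
    Module.finrank K (riemannRochSpace (D + Finsupp.single v 1)) ≤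
      Module.finrank K (riemannRochSpace D) + 1 := by
  have := hC.finite_rr (D + Finsupp.single v 1)
  have := hC.finite_rr D
  have h1 : Module.finrank K v.ResidueField = 1 := hC.deg_one v
  have : Module.Finite K v.ResidueField := Module.finite_of_finrank_eq_succ h1
  have h2 := (FF.rrLead v D).finrank_range_add_finrank_ker
  have h3 : Module.finrank K (LinearMap.range (FF.rrLead v D)) ≤ 1 :=
    h1 ▸ Submodule.finrank_le _
  have h4 : Module.finrank K (LinearMap.ker (FF.rrLead v D)) ≤
      Module.finrank K (riemannRochSpace D) := by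
    refine LinearMap.finrank_le_finrank_of_injective (f := LinearMap.codRestrict _
      ((riemannRochSpace (D + Finsupp.single v 1)).subtype.comp (LinearMap.ker (FF.rrLead v D)).subtype)
      (fun x => (FF.rrLead_eq_zero_iff v D x).1 x.2)) ?_
    intro x y hxy
    have := congrArg Subtype.val hxy
    exact Subtype.ext (Subtype.ext this)
  omega

/-- Riemann's inequality from Riemann-Roch in large degree. -/
theorem riemann_le [Nonempty (Place K F)] (D : Divisor K F) :
    Divisor.degree D + 1 - g ≤ Module.finrank K (riemannRochSpace D) := by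
  let v := Classical.arbitrary (Place K F)
  have key : ∀ (n : ℕ) (E : Divisor K F), (2 * g : ℤ) ≤ Divisor.degree E + n →
      Divisor.degree E + 1 - g ≤ Module.finrank K (riemannRochSpace E) := by
    intro n
    induction n with
    | zero => intro E hE; rw [hC.finrank_rr E (by simpa using hE)]
    | succ n ih =>
      intro E hE
      have h1 := ih (E + Finsupp.single v 1) (by
        rw [map_add, degree_single' hC]; push_cast at hE ⊢; omega)
      rw [map_add, degree_single' hC] at h1
      have h2 := rrLead_range_le hC v E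
      omega
  exact key ((2 * g : ℤ) - Divisor.degree D).toNat D (by omega)

theorem lt_sub_single {D : Divisor K F} (hD : (2 * g + 1 : ℤ) ≤ Divisor.degree D) (v : Place K F) :
    riemannRochSpace (D - Finsupp.single v 1) < riemannRochSpace D := by
  have := hC.finite_rr D
  have := hC.finite_rr (D - Finsupp.single v 1)
  refine lt_of_le_of_ne (rr_mono (sub_le_self _ (Finsupp.single_nonneg.2 zero_le_one))) fun h => ?_
  have h1 := hC.finrank_rr D (by omega)
  have h2 := hC.finrank_rr (D - Finsupp.single v 1) (by rw [map_sub, degree_single' hC]; omega)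
  rw [map_sub, degree_single' hC, h, h1] at h2
  omega

theorem ord_eq_of_notMem {D : Divisor K F} {v : Place K F} {f : F} (hf : f ∈ riemannRochSpace D)
    (hf' : f ∉ riemannRochSpace (D - Finsupp.single v 1)) : f ≠ 0 ∧ v.ord f = -D v := by
  have h0 : f ≠ 0 := fun h => hf' (h ▸ zero_mem _)
  refine ⟨h0, ?_⟩
  by_contra hne
  refine hf' ((mem_riemannRochSpace_iff).2 fun w => Or.inr ?_)
  have hw := le_ord_of_mem hf h0 w
  rcases eq_or_ne w v with rfl | h
  · rw [Finsupp.sub_apply, Finsupp.single_eq_same]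
    omega
  · rw [Finsupp.sub_apply, Finsupp.single_eq_of_ne h]
    omega

theorem exists_ord_eq {D : Divisor K F} (hD : (2 * g + 1 : ℤ) ≤ Divisor.degree D) (v : Place K F) :
    ∃ f ∈ riemannRochSpace D, f ≠ 0 ∧ v.ord f = -D v :=
  let ⟨f, hf, hf'⟩ := SetLike.exists_of_lt (lt_sub_single hC hD v)
  ⟨f, hf, ord_eq_of_notMem hC hf hf'⟩

/-- Division by a space without base points. -/
theorem mem_rr_sub_of_mul_mem {D₂ D₃ : Divisor K F} (hD : (2 * g + 1 : ℤ) ≤ Divisor.degree D₂)
    {x : F} (h : ∀ f ∈ riemannRochSpace D₂, x * f ∈ riemannRochSpace D₃) :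
    x ∈ riemannRochSpace (D₃ - D₂) := by
  rw [mem_riemannRochSpace_iff]
  intro v
  rcases eq_or_ne x 0 with hx | hx
  · exact Or.inl hx
  right
  obtain ⟨f, hf, hf0, hord⟩ := exists_ord_eq hC hD v
  have := le_ord_of_mem (h f hf) (mul_ne_zero hx hf0) v
  rw [v.ord_mul hx hf0, hord] at this
  rw [Finsupp.sub_apply]
  omega

theorem mem_rr_sub_iff {D₁ D₂ D₃ : Divisor K F} (hD : (2 * g + 1 : ℤ) ≤ Divisor.degree D₂)
    (hle : D₃ - D₂ ≤ D₁) {x : F} :
    (x ∈ riemannRochSpace D₁ ∧ ∀ f ∈ riemannRochSpace D₂, x * f ∈ riemannRochSpace D₃) ↔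
      x ∈ riemannRochSpace (D₃ - D₂) := by
  refine ⟨fun h => mem_rr_sub_of_mul_mem hC hD h.2, fun h => ⟨rr_mono hle h, fun f hf => ?_⟩⟩
  simpa using mul_mem_rr h hf

/-- Large Riemann-Roch spaces determine their divisor. -/
theorem eq_of_rr_eq {D D' : Divisor K F} (hD : (2 * g + 1 : ℤ) ≤ Divisor.degree D)
    (hD' : (2 * g + 1 : ℤ) ≤ Divisor.degree D')
    (h : riemannRochSpace D = riemannRochSpace D') : D = D' := by
  ext v
  obtain ⟨f, hf, hf0, hord⟩ := exists_ord_eq hC hD v
  obtain ⟨f', hf', hf0', hord'⟩ := exists_ord_eq hC hD' v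
  have h1 := le_ord_of_mem (h ▸ hf) hf0 v
  have h2 := le_ord_of_mem (h.symm ▸ hf') hf0' v
  omega

/-- The base-point-free pencil trick. -/
theorem exists_pencil [Infinite K] {D₁ D₂ : Divisor K F} (h1 : (2 * g + 1 : ℤ) ≤ Divisor.degree D₁)
    (h2 : (2 * g : ℤ) + Divisor.degree D₁ ≤ Divisor.degree D₂) :
    ∀ z ∈ riemannRochSpace (D₁ + D₂), ∃ f ∈ riemannRochSpace D₁, ∃ h ∈ riemannRochSpace D₁,
      ∃ a ∈ riemannRochSpace D₂, ∃ b ∈ riemannRochSpace D₂, f * a + h * b = z := by
  classical
  have := hC.finite_rr D₁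
  have := hC.finite_rr D₂
  have := hC.finite_rr (D₁ + D₂)
  have := hC.finite_rr (D₂ - D₁)
  have hdim := hC.finrank_rr D₁ (by omega)
  obtain ⟨f, hf, hf0⟩ : ∃ f ∈ riemannRochSpace D₁, f ≠ 0 := by
    refine (Submodule.ne_bot_iff _).1 fun h => ?_
    rw [h, finrank_bot] at hdim
    omega
  obtain ⟨Ef, hEf, -⟩ := hC.hasPrincipalDivisors.exists_divisor f hf0
  let Z := (Ef + D₁).support
  obtain ⟨h, hh, hh0, hhZ⟩ : ∃ h ∈ riemannRochSpace D₁, h ≠ 0 ∧
      ∀ v ∈ Z, v.ord h = -D₁ v := by
    let p : Option Z → Submodule K (riemannRochSpace D₁) := fun o =>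
      o.elim ⊥ fun v => (riemannRochSpace (D₁ - Finsupp.single v.1 1)).comap
        (riemannRochSpace D₁).subtype
    have hp : ∀ o, p o ≠ ⊤ := by
      rintro (_ | v) htop
      · simp only [p, Option.elim_none] at htop
        have := congrArg (fun V : Submodule K _ => Module.finrank K V) htop
        simp only [finrank_bot, finrank_top] at this
        omega
      · simp only [p, Option.elim_some, Submodule.comap_subtype_eq_top] at htop
        exact (lt_sub_single hC h1 v.1).not_ge htop
    obtain ⟨h, hh⟩ := Submodule.exists_forall_notMem_of_forall_ne_top p hp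
    have hh0 : (h : F) ≠ 0 := fun h0 => hh none (by
      simp only [p, Option.elim_none, Submodule.mem_bot]
      exact Subtype.ext h0)
    exact ⟨h, h.2, hh0, fun v hv => (ord_eq_of_notMem hC h.2 (hh (some ⟨v, hv⟩))).2⟩
  let φ : (riemannRochSpace D₂ × riemannRochSpace D₂) →ₗ[K] riemannRochSpace (D₁ + D₂) :=
    LinearMap.codRestrict _
      (((LinearMap.mulLeft K f).comp (riemannRochSpace D₂).subtype).coprod
        ((LinearMap.mulLeft K h).comp (riemannRochSpace D₂).subtype))
      fun p => Submodule.add_mem _ (mul_mem_rr hf p.1.2) (mul_mem_rr hh p.2.2)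
  have hker : Module.finrank K (LinearMap.ker φ) ≤
      Module.finrank K (riemannRochSpace (D₂ - D₁)) := by
    let ψ : LinearMap.ker φ →ₗ[K] F :=
      (LinearMap.mulLeft K h⁻¹).comp ((riemannRochSpace D₂).subtype.comp
        ((LinearMap.fst K _ _).comp (LinearMap.ker φ).subtype))
    have hmem : ∀ p, ψ p ∈ riemannRochSpace (D₂ - D₁) := by
      rintro ⟨⟨a, b⟩, hab⟩
      have heq : f * (a : F) + h * (b : F) = 0 := congrArg Subtype.val hab
      show h⁻¹ * (a : F) ∈ _
      rw [mem_riemannRochSpace_iff]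
      intro v
      rcases eq_or_ne (a : F) 0 with ha | ha
      · exact Or.inl (by rw [ha, mul_zero])
      right
      rw [v.ord_mul (inv_ne_zero hh0) ha, v.ord_inv, Finsupp.sub_apply]
      by_cases hv : v ∈ Z
      · have := le_ord_of_mem a.2 ha v
        rw [hhZ v hv]
        omega
      · have hfv : v.ord f = -D₁ v := by
          simp only [Z, Finsupp.mem_support_iff, not_not, Finsupp.add_apply, hEf v] at hv
          omega
        have hb : (b : F) ≠ 0 := by
          intro hb
          rw [hb, mul_zero, add_zero, mul_eq_zero] at heq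
          exact heq.elim hf0 ha
        have hfa : f * (a : F) = (-1 : F) * (h * (b : F)) := by linear_combination heq
        have h3 := congrArg v.ord hfa
        have hneg : v.ord (-1 : F) = 0 := by simp [Place.ord]
        rw [v.ord_mul hf0 ha, v.ord_mul (neg_ne_zero.2 one_ne_zero) (mul_ne_zero hh0 hb), hneg,
          v.ord_mul hh0 hb] at h3
        have := le_ord_of_mem b.2 hb v
        omega
    refine LinearMap.finrank_le_finrank_of_injective (f := ψ.codRestrict _ hmem) ?_
    rintro ⟨⟨a, b⟩, hab⟩ ⟨⟨a', b'⟩, hab'⟩ he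
    have h1 : h⁻¹ * (a : F) = h⁻¹ * (a' : F) := congrArg Subtype.val he
    have ha := mul_left_cancel₀ (inv_ne_zero hh0) h1
    have e1 : f * (a : F) + h * (b : F) = 0 := congrArg Subtype.val hab
    have e2 : f * (a' : F) + h * (b' : F) = 0 := congrArg Subtype.val hab'
    have hb : (b : F) = b' := mul_left_cancel₀ hh0 (by linear_combination e1 - e2 - f * ha)
    exact Subtype.ext (Prod.ext (Subtype.ext ha) (Subtype.ext hb))
  have hsurj : Function.Surjective φ := by
    rw [← LinearMap.range_eq_top]
    refine Submodule.eq_top_of_finrank_eq (le_antisymm (Submodule.finrank_le _) ?_)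
    have := φ.finrank_range_add_finrank_ker
    rw [Module.finrank_prod] at this
    have e2 := hC.finrank_rr D₂ (by omega)
    have e3 := hC.finrank_rr (D₁ + D₂) (by rw [map_add]; omega)
    have e4 := hC.finrank_rr (D₂ - D₁) (by rw [map_sub]; omega)
    rw [map_add] at e3
    rw [map_sub] at e4
    omega
  intro z hz
  obtain ⟨⟨a, b⟩, hab⟩ := hsurj ⟨z, hz⟩
  exact ⟨f, hf, h, hh, a, a.2, b, b.2, congrArg Subtype.val hab⟩

end

end Fermat.Agent.FlatJ
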