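import Fermat.Agent.FlatJ.Hopf
import Fermat.Agent.FlatJ.Conjugates

/-!
Descent from the inertia field: an inertia-equivariant lattice of functions on a finite
Galois module, stable under the decomposition group, comes from `ℤ_(ℓ)`.
-/

set_option autoImplicit false
set_option linter.unusedSectionVars false
set_option linter.unusedVariables false

noncomputable section

open Polynomial IsLocalRing
open scoped TensorProduct

namespace Fermat.Agent.FlatJ

variable {L : Type} [Field L] [CharZero L] [Algebra.IsAlgebraic ℚ L]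
variable {M : Type} [AddCommGroup M] [DistribMulAction (L ≃ₐ[ℚ] L) M]

/-- conjugation of functions `M → L` -/
def conjFun (σ : L ≃ₐ[ℚ] L) : (M → L) →+* (M → L) where
  toFun f x := σ (f (σ⁻¹ • x))
  map_one' := funext fun _ => map_one σ
  map_zero' := funext fun _ => map_zero σ
  map_add' f g := funext fun _ => map_add σ _ _
  map_mul' f g := funext fun _ => map_mul σ _ _

@[simp] theorem conjFun_apply (σ : L ≃ₐ[ℚ] L) (f : M → L) (x : M) :
    conjFun σ f x = σ (f (σ⁻¹ • x)) := rfl

theorem conjFun_conjFun (σ τ : L ≃ₐ[ℚ] L) (f : M → L) :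
    conjFun σ (conjFun τ f) = conjFun (σ * τ) f := by
  funext x
  simp [mul_smul]

theorem conjFun_smul (σ : L ≃ₐ[ℚ] L) (c : L) (f : M → L) :
    conjFun σ (c • f) = σ c • conjFun σ f := by
  funext x
  simp

/-- the subring of functions on pairs generated by functions of one variable -/
def pairRing (S : Subring (M → L)) : Subring (M × M → L) :=
  Subring.closure
    ((fun f : M → L => fun z : M × M => f z.1) '' S ∪ (fun f : M → L => fun z : M × M => f z.2) '' S)

/-- A lattice of `P`-integral inertia-equivariant functions, stable under the decomposition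
group and closed under the group law. -/
structure InertiaLattice (P : ValuationSubring L) (M : Type) [AddCommGroup M]
    [DistribMulAction (L ≃ₐ[ℚ] L) M] where
  /-- the functions -/
  S : Subring (M → L)
  val_mem : ∀ f ∈ S, ∀ x, f x ∈ P
  const_mem : ∀ a ∈ inertRing P, (fun _ : M => a) ∈ S
  equiv : ∀ f ∈ S, ∀ η ∈ inertG P, conjFun η f = f
  stab : ∀ f ∈ S, ∀ σ : L ≃ₐ[ℚ] L, Stabilises P σ → conjFun σ f ∈ S
  sep : ∀ x y : M, x ≠ y → ∃ f ∈ S, f x ≠ f y
  comul : ∀ f ∈ S, (fun z : M × M => f (z.1 + z.2)) ∈ pairRing S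
  neg : ∀ f ∈ S, (fun x => f (-x)) ∈ S

namespace InertiaLattice

variable {P : ValuationSubring L} (Λ : InertiaLattice P M)
variable [Finite M]

theorem span_eq_top : Submodule.span L (Λ.S : Set (M → L)) = ⊤ := by
  classical
  cases nonempty_fintype M
  have hadj : Subalgebra.toSubmodule (Algebra.adjoin L (Λ.S : Set (M → L))) =
      Submodule.span L (Λ.S : Set (M → L)) := by
    rw [Algebra.adjoin_eq_span]
    congr 1
    exact (SetLike.coe_set_eq.2 (Submonoid.closure_eq (Λ.S.toSubmonoid)))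
  rw [← hadj, eq_top_iff]
  intro v _
  rw [show v = ∑ x : M, v x • (Pi.single x 1 : M → L) by
    funext y; simp [Finset.sum_apply, Pi.single_apply]]
  refine sum_mem fun x _ => Submodule.smul_mem _ _ ?_
  rw [Subalgebra.mem_toSubmodule]
  choose! f hf hfx using fun y (h : y ≠ x) => Λ.sep y x h
  have : (Pi.single x 1 : M → L) =
      ∏ y ∈ Finset.univ.erase x, (f y x - f y y)⁻¹ • (f y - algebraMap L (M → L) (f y y)) := by
    funext z
    rw [Finset.prod_apply]
    by_cases hz : z = x
    · subst hz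
      rw [Pi.single_eq_same, Finset.prod_eq_one]
      intro y hy
      have := hfx y (Finset.ne_of_mem_erase hy)
      simp [Pi.algebraMap_apply, sub_ne_zero.2 this.symm]
    · rw [Pi.single_eq_of_ne hz]
      exact (Finset.prod_eq_zero (Finset.mem_erase.2 ⟨hz, Finset.mem_univ z⟩)
        (by simp [Pi.algebraMap_apply])).symm
  rw [this]
  exact prod_mem fun y hy => Subalgebra.smul_mem _ (sub_mem
    (Algebra.subset_adjoin (hf y (Finset.ne_of_mem_erase hy))) (Subalgebra.algebraMap_mem _ _)) _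

/-- An inertia-equivariant function with very divisible values is a combination, with
inertia-invariant integral coefficients, of any given equivariant basis. -/
theorem exists_tiny {ℓ : ℕ} (hP : P.LiesOverPrime ℓ) (hℓ : ℓ.Prime) {ι : Type} [Fintype ι]
    (b : Module.Basis ι L (M → L)) (hb : ∀ i, ∀ η ∈ inertG P, conjFun η (b i) = b i) :
    ∃ N : ℕ, ∀ v : M → L, (∀ η ∈ inertG P, conjFun η v = v) →
      (∀ x, v x / (ℓ : L) ^ N ∈ P) → ∃ c : ι → L, (∀ i, c i ∈ inertRing P) ∧
        v = ∑ i, c i • b i := by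
  classical
  cases nonempty_fintype M
  obtain ⟨N, hN⟩ := exists_pow_mul_mem_uniform P hP hℓ
    (fun p : ι × M => b.repr (Pi.single p.2 1) p.1)
  refine ⟨N, fun v hv hvP => ⟨fun i => b.repr v i, fun i => ⟨?_, fun η hη => ?_⟩,
    (b.sum_repr v).symm⟩⟩
  · have hdec : v = ∑ x : M, v x • (Pi.single x 1 : M → L) := by
      funext y; simp [Finset.sum_apply, Pi.single_apply]
    show b.repr v i ∈ P
    rw [hdec, map_sum, Finsupp.coe_finsetSum, Finset.sum_apply]
    refine sum_mem fun x _ => ?_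
    rw [map_smul, Finsupp.smul_apply, smul_eq_mul]
    have hℓ0 : ((ℓ : L) ^ N) ≠ 0 := pow_ne_zero _ (Nat.cast_ne_zero.2 hℓ.ne_zero)
    rw [show v x * b.repr (Pi.single x 1) i =
      (v x / (ℓ : L) ^ N) * ((ℓ : L) ^ N * b.repr (Pi.single x 1) i) by field_simp]
    exact mul_mem (hvP x) (hN (i, x))
  · have h := hv η hη
    conv_lhs at h => rw [← b.sum_repr v, map_sum]
    simp only [conjFun_smul, hb _ η hη] at h
    have h2 := congrArg (fun w => b.repr w i) h
    simpa [map_sum, Finsupp.single_apply] using h2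

variable [Finite (L ≃ₐ[ℚ] L)]

theorem exists_tiny_mem {ℓ : ℕ} (hP : P.LiesOverPrime ℓ) (hℓ : ℓ.Prime) :
    ∃ N : ℕ, ∀ v : M → L, (∀ η ∈ inertG P, conjFun η v = v) →
      (∀ x, v x / (ℓ : L) ^ N ∈ P) → v ∈ Λ.S := by
  obtain ⟨s, hs, hsS, hsi⟩ := exists_linearIndependent L (Λ.S : Set (M → L))
  rw [Λ.span_eq_top] at hsS
  let b : Module.Basis s L (M → L) := Module.Basis.mk hsi (by rw [Subtype.range_coe]; exact hsS.ge)
  have := Module.Finite.finite_basis b
  cases nonempty_fintype s
  have hbi : ∀ i, b i ∈ Λ.S := fun i => by simpa [b] using hs i.2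
  obtain ⟨N, hN⟩ := exists_tiny hP hℓ b fun i => Λ.equiv _ (hbi i)
  refine ⟨N, fun v hv hvP => ?_⟩
  obtain ⟨c, hc, rfl⟩ := hN v hv hvP
  exact sum_mem fun i _ => mul_mem (Λ.const_mem _ (hc i)) (hbi i)

/-- the functions fixed by all of Galois -/
def fixedFuns : AddSubgroup (M → L) where
  carrier := {f | f ∈ Λ.S ∧ ∀ σ, conjFun σ f = f}
  zero_mem' := ⟨zero_mem _, fun σ => map_zero _⟩
  add_mem' := fun ha hb => ⟨add_mem ha.1 hb.1, fun σ => by rw [map_add, ha.2 σ, hb.2 σ]⟩
  neg_mem' := fun ha => ⟨neg_mem ha.1, fun σ => by rw [map_neg, ha.2 σ]⟩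

/-- combinations of fixed functions with inertia-invariant integral coefficients -/
def fixedSpan : AddSubgroup (M → L) :=
  AddSubgroup.closure {v | ∃ a ∈ inertRing P, ∃ h ∈ Λ.fixedFuns, v = a • h}

theorem exists_fixed_basis {ℓ : ℕ} (hP : P.LiesOverPrime ℓ) (hℓ : ℓ.Prime) :
    ∃ (ι : Type) (_ : Fintype ι) (b : Module.Basis ι L (M → L)), ∀ i, b i ∈ Λ.fixedFuns := by
  classical
  cases nonempty_fintype (L ≃ₐ[ℚ] L)
  let T : L → (M → L) → (M → L) := fun a f => ∑ σ : L ≃ₐ[ℚ] L, conjFun σ (a • f)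
  have hfix : ∀ a f σ, conjFun σ (T a f) = T a f := by
    intro a f σ
    simp only [T, map_sum, conjFun_conjFun]
    exact Fintype.sum_equiv (Equiv.mulLeft σ) _ _ fun _ => rfl
  have hspan : Submodule.span L {v : M → L | ∀ σ, conjFun σ v = v} = ⊤ := by
    rw [← Subspace.dualAnnihilator_inj (K := L), Submodule.dualAnnihilator_top, eq_bot_iff]
    intro φ hφ
    rw [Submodule.mem_bot]
    refine LinearMap.ext fun f => ?_
    have h0 : ∀ a, ∑ σ : L ≃ₐ[ℚ] L, φ (conjFun σ f) * σ a = 0 := by
      intro a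
      have := (Submodule.mem_dualAnnihilator φ).1 hφ (T a f) (Submodule.subset_span (hfix a f))
      simp only [T, map_sum, conjFun_smul, map_smul, smul_eq_mul] at this
      rw [← this]
      exact Finset.sum_congr rfl fun σ _ => mul_comm _ _
    have hind := (linearIndependent_monoidHom L L).comp
      (fun σ : L ≃ₐ[ℚ] L => ((σ : L →+* L) : L →* L))
      (fun σ τ h => AlgEquiv.ext fun x => DFunLike.congr_fun h x)
    have := Fintype.linearIndependent_iff.1 hind (fun σ => φ (conjFun σ f)) (funext fun a => by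
      simpa using h0 a) 1
    have h1 : conjFun (1 : L ≃ₐ[ℚ] L) f = f := by funext x; simp
    simpa [h1] using this
  obtain ⟨N, hN⟩ := Λ.exists_tiny_mem hP hℓ
  obtain ⟨s, hs, hss, hsi⟩ := exists_linearIndependent L {v : M → L | ∀ σ, conjFun σ v = v}
  rw [hspan] at hss
  let b : Module.Basis s L (M → L) := Module.Basis.mk hsi (by rw [Subtype.range_coe]; exact hss.ge)
  have := Module.Finite.finite_basis b
  cases nonempty_fintype s
  cases nonempty_fintype M
  obtain ⟨k, hk⟩ := exists_pow_mul_mem_uniform P hP hℓ (fun p : s × M => b p.1 p.2)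
  have hℓ0 : (ℓ : L) ≠ 0 := Nat.cast_ne_zero.2 hℓ.ne_zero
  refine ⟨s, inferInstance, b.isUnitSMul (w := fun _ => (ℓ : L) ^ (N + k))
    (fun _ => (pow_ne_zero _ hℓ0).isUnit), fun i => ?_⟩
  rw [Module.Basis.isUnitSMul_apply]
  have hfixi : ∀ σ, conjFun σ ((ℓ : L) ^ (N + k) • b i) = (ℓ : L) ^ (N + k) • b i := fun σ => by
    rw [conjFun_smul, map_pow, map_natCast, show conjFun σ (b i) = b i from by
      simpa [b] using hs i.2 σ]
  refine ⟨hN _ (fun η _ => hfixi η) fun x => ?_, hfixi⟩
  rw [Pi.smul_apply, smul_eq_mul, pow_add, mul_assoc, mul_div_cancel_left₀ _ (pow_ne_zero _ hℓ0)]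
  exact hk (i, x)

/-- residue characters of the decomposition cosets are separated by inertia invariants -/
theorem exists_unit_matrix {J : Type} [Fintype J] [DecidableEq J] (τ : J → L ≃ₐ[ℚ] L)
    (hτ : ∀ i, Stabilises P (τ i)) (hinj : ∀ i j, (τ j)⁻¹ * τ i ∈ inertG P → i = j) :
    ∃ w : J → L, (∀ j, w j ∈ inertRing P) ∧
      ¬ P.valuation (Matrix.det (Matrix.of fun i j => τ i (w j))) < 1 := by
  classical
  let χ : J → (inertRing P →* ResidueField P) := fun i =>
    ((residue P).comp
      ((((τ i : L ≃ₐ[ℚ] L) : L →+* L).comp (inertRing P).subtype).codRestrict P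
        fun y => (hτ i y).2 y.2.1)).toMonoidHom
  have hχ : Function.Injective χ := by
    intro i j hij
    refine hinj i j (mem_inertG_of_forall P ((hτ j).inv.mul (hτ i)) fun w hw => ?_)
    have h := DFunLike.congr_fun hij ⟨w, hw⟩
    replace h : residue P (⟨τ i w, (hτ i w).2 hw.1⟩ : P) =
        residue P (⟨τ j w, (hτ j w).2 hw.1⟩ : P) := h
    rw [← sub_eq_zero, ← map_sub, residue_eq_zero_iff, ← P.coe_mem_nonunits_iff,
      P.mem_nonunits_iff] at h
    have h' := (hτ j).inv.valuation_lt_one h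
    convert h' using 2
    simp [AlgEquiv.mul_apply, map_sub]
  have hind : LinearIndependent (ResidueField P) (fun i => (χ i : inertRing P → ResidueField P)) :=
    (linearIndependent_monoidHom (inertRing P) (ResidueField P)).comp χ hχ
  let vec : inertRing P → (J → ResidueField P) := fun w i => χ i w
  have hspan : Submodule.span (ResidueField P) (Set.range vec) = ⊤ := by
    rw [← Subspace.dualAnnihilator_inj (K := ResidueField P), Submodule.dualAnnihilator_top,
      eq_bot_iff]
    intro φ hφ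
    rw [Submodule.mem_bot]
    let d : J → ResidueField P := fun i => φ (Pi.single i 1)
    have hd : ∀ v : J → ResidueField P, φ v = ∑ i, v i * d i := by
      intro v
      conv_lhs => rw [show v = ∑ i, v i • (Pi.single i 1 : J → ResidueField P) by
        funext y; simp [Finset.sum_apply, Pi.single_apply]]
      simp [d, map_sum]
    have hzero : ∀ i, d i = 0 := Fintype.linearIndependent_iff.1 hind d (funext fun w => by
      have := (Submodule.mem_dualAnnihilator φ).1 hφ (vec w) (Submodule.subset_span ⟨w, rfl⟩)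
      rw [hd] at this
      simpa [vec, mul_comm] using this)
    exact LinearMap.ext fun v => by simp [hd, hzero]
  obtain ⟨s, hs, hss, hsi⟩ := exists_linearIndependent (ResidueField P) (Set.range vec)
  rw [hspan] at hss
  let b : Module.Basis s (ResidueField P) (J → ResidueField P) :=
    Module.Basis.mk hsi (by rw [Subtype.range_coe]; exact hss.ge)
  have e : s ≃ J := b.indexEquiv (Pi.basisFun (ResidueField P) J)
  choose w hw using fun j : J => hs (e.symm j).2
  refine ⟨fun j => w j, fun j => (w j).2, ?_⟩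
  let Mat : Matrix J J P := Matrix.of fun i j => ⟨τ i (w j : L), (hτ i _).2 (w j).2.1⟩
  have hdet : Matrix.of (fun i j => τ i (w j : L)) = Mat.map P.subtype := rfl
  have hres : Mat.map (residue P) = (Pi.basisFun (ResidueField P) J).toMatrix (b.reindex e) := by
    ext i j
    have : vec (w j) = b (e.symm j) := by simp [b, hw]
    rw [Module.Basis.toMatrix_apply, Pi.basisFun_repr, Module.Basis.reindex_apply, ← this]
    rfl
  rw [hdet, ← RingHom.mapMatrix_apply, ← RingHom.map_det, ← P.mem_nonunits_iff]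
  intro h
  have h0 : (residue P) Mat.det = 0 := (residue_eq_zero_iff _).2 (P.coe_mem_nonunits_iff.1 h)
  rw [RingHom.map_det, RingHom.mapMatrix_apply, hres] at h0
  have hinv := ((Pi.basisFun (ResidueField P) J).toMatrix_mul_toMatrix_flip (b.reindex e))
  have := congrArg Matrix.det hinv
  rw [Matrix.det_mul, h0, zero_mul, Matrix.det_one] at this
  exact zero_ne_one this

theorem mem_fixedSpan {ℓ : ℕ} (hP : P.LiesOverPrime ℓ) (hℓ : ℓ.Prime) {v : M → L}
    (hv : v ∈ Λ.S) : v ∈ Λ.fixedSpan := by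
  classical
  cases nonempty_fintype M
  cases nonempty_fintype (L ≃ₐ[ℚ] L)
  cases nonempty_fintype ((L ≃ₐ[ℚ] L) ⧸ inertG P)
  obtain ⟨ι, _, bh, hbh⟩ := Λ.exists_fixed_basis hP hℓ
  obtain ⟨N₁, hN₁⟩ := Λ.exists_tiny_mem hP hℓ
  obtain ⟨N₂, hN₂⟩ := exists_tiny hP hℓ bh fun i η _ => (hbh i).2 η
  set N := max N₁ N₂ with hNdef
  -- the decomposition cosets
  let Q := (L ≃ₐ[ℚ] L) ⧸ inertG P
  let rep : Q → L ≃ₐ[ℚ] L := Quotient.out
  let J := {q : Q // Stabilises P (rep q)}
  let τ : J → L ≃ₐ[ℚ] L := fun q => rep q.1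
  obtain ⟨i₀, hi₀⟩ : ∃ i₀ : J, τ i₀ ∈ inertG P := by
    obtain ⟨η, hη⟩ := QuotientGroup.mk_out_eq_mul (inertG P) (1 : L ≃ₐ[ℚ] L)
    refine ⟨⟨QuotientGroup.mk 1, ?_⟩, ?_⟩
    · show Stabilises P (rep _)
      simp only [rep, hη, one_mul]
      exact η.2.1
    · show rep _ ∈ inertG P
      simp only [rep, hη, one_mul]
      exact η.2
  have hinjτ : ∀ i j : J, (τ j)⁻¹ * τ i ∈ inertG P → i = j := by
    intro i j h
    apply Subtype.ext
    rw [← Quotient.out_eq i.1, ← Quotient.out_eq j.1]
    exact (QuotientGroup.eq.2 h).symm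
  obtain ⟨w, hw, hdet⟩ := exists_unit_matrix τ (fun i => i.2) hinjτ
  obtain ⟨β, hβI, hβP, hβu, hβint, hβσ⟩ := exists_separator P hP hℓ
  have hℓ0 : (ℓ : L) ^ N ≠ 0 := pow_ne_zero _ (Nat.cast_ne_zero.2 hℓ.ne_zero)
  -- choose the exponent
  have hexp : ∀ (p : (L ≃ₐ[ℚ] L) × J × M), ∃ e : ℕ, ∀ e' ≥ e, ¬ Stabilises P p.1 →
      (p.1 β) ^ e' * (p.1 (w p.2.1) * p.1 (v p.2.2)) / (ℓ : L) ^ N ∈ P := by
    intro p
    by_cases hp : Stabilises P p.1
    · exact ⟨0, fun _ _ h => absurd hp h⟩
    · obtain ⟨e, he⟩ := exists_pow_tiny P hP hℓ (hβσ p.1 hp) (p.1 (w p.2.1) * p.1 (v p.2.2)) N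
      exact ⟨e, fun e' h' _ => he e' h'⟩
  choose e0 he0 using hexp
  set e := ∑ p, e0 p with he_def
  let a : J → L := fun j => β ^ e * w j
  have ha : ∀ j, a j ∈ inertRing P := fun j =>
    mul_mem (pow_mem (show β ∈ inertRing P from ⟨hβP, hβI⟩) e) (hw j)
  have hsmall : ∀ σ : L ≃ₐ[ℚ] L, ¬ Stabilises P σ → ∀ j x,
      σ (a j) * σ (v x) / (ℓ : L) ^ N ∈ P := by
    intro σ hσ j x
    have := he0 (σ, j, x) e (Finset.single_le_sum (fun p _ => Nat.zero_le (e0 p))
      (Finset.mem_univ _)) hσ
    simpa [a, mul_assoc] using this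
  -- the matrix
  let Mx : Matrix J J L := Matrix.of fun i j => τ i (a j)
  have hMx : Mx = Matrix.of (fun i j => τ i β ^ e * τ i (w j)) := by ext i j; simp [Mx, a]
  have hMdet : P.valuation Mx.det = 1 := by
    rw [hMx, show Matrix.of (fun i j => τ i β ^ e * τ i (w j)) =
      Matrix.diagonal (fun i => τ i β ^ e) * Matrix.of (fun i j => τ i (w j)) by
        ext i j; simp [Matrix.diagonal_mul], Matrix.det_mul, Matrix.det_diagonal, map_mul, map_prod]
    have h1 : ∀ i, P.valuation (τ i β ^ e) = 1 := fun i => by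
      rw [map_pow, ((P.valuation_le_one_iff _).2 (hβint _)).antisymm (not_lt.1 fun h => hβu ?_),
        one_pow]
      have := i.2.inv.valuation_lt_one h
      simpa [τ, ← AlgEquiv.mul_apply] using this
    simp only [h1, Finset.prod_const_one, one_mul]
    refine le_antisymm ((P.valuation_le_one_iff _).2 ?_) (not_lt.1 hdet)
    rw [Matrix.det_apply]
    exact sum_mem fun s _ => zsmul_mem (prod_mem fun i _ => ((τ (s i)) |> fun _ =>
      ((s i).2 (w i)).2 (hw i).1)) _
  have hMx0 : Mx.det ≠ 0 := fun h => by simp [h] at hMdet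
  have hentry : ∀ i j, Mx i j ∈ inertRing P := fun i j => by
    refine ⟨(i.2 _).2 (ha j).1, fun η hη => ?_⟩
    have h1 := inertG_conj P i.2 hη
    have h2 := (ha j).2 _ h1
    calc η (τ i (a j)) = τ i (((τ i)⁻¹ * η * τ i) (a j)) := by simp [τ, AlgEquiv.mul_apply]
      _ = τ i (a j) := by rw [h2]
  let c : J → L := fun j => Mx⁻¹ j i₀
  have hc : ∀ j, c j ∈ inertRing P := by
    intro j
    let Mr : Matrix J J (inertRing P) := Matrix.of fun i k => ⟨Mx i k, hentry i k⟩
    have hmap : Mr.map (inertRing P).subtype = Mx := rfl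
    have hd : Mx.det = (Mr.det : L) := by
      rw [← hmap, ← RingHom.mapMatrix_apply, ← RingHom.map_det]; rfl
    have hadj : Mx.adjugate j i₀ = ((Mr.adjugate j i₀ : inertRing P) : L) := by
      rw [← hmap, ← RingHom.mapMatrix_apply, ← RingHom.map_adjugate]; rfl
    have hdinv : Mx.det⁻¹ ∈ inertRing P := by
      refine ⟨(P.valuation_le_one_iff _).1 (by simp [map_inv₀, hMdet]), fun η hη => ?_⟩
      rw [map_inv₀, hd, Mr.det.2.2 η hη]
    simp only [c, Matrix.inv_def, Matrix.smul_apply, smul_eq_mul, Ring.inverse_eq_inv', hadj]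
    exact mul_mem hdinv (Mr.adjugate j i₀).2
  have hcτ : ∀ i, ∑ j, c j * τ i (a j) = if i = i₀ then 1 else 0 := by
    intro i
    have := congrFun (congrFun (Mx.mul_nonsing_inv (isUnit_iff_ne_zero.2 hMx0)) i) i₀
    rw [Matrix.mul_apply, Matrix.one_apply] at this
    rw [← this]
    exact Finset.sum_congr rfl fun j _ => mul_comm _ _
  -- the traces
  let term : J → Q → (M → L) := fun j q => conjFun (rep q) (a j • v)
  have hav : ∀ j, ∀ η ∈ inertG P, conjFun η (a j • v) = a j • v := fun j η hη => by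
    rw [conjFun_smul, (ha j).2 η hη, Λ.equiv v hv η hη]
  have hperm : ∀ j σ q, conjFun σ (term j q) = term j (σ • q) := by
    intro j σ q
    simp only [term, conjFun_conjFun]
    obtain ⟨η, hη, hrel⟩ : ∃ η ∈ inertG P, σ * rep q = rep (σ • q) * η := by
      refine ⟨(rep (σ • q))⁻¹ * (σ * rep q), QuotientGroup.eq.1 ?_, by group⟩
      change QuotientGroup.mk (rep (σ • q)) = (QuotientGroup.mk (σ * rep q) : Q)
      simp only [rep, QuotientGroup.out_eq']
      rw [← smul_eq_mul, MulAction.Quotient.mk_smul_out]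
    rw [hrel, ← conjFun_conjFun, hav j η hη]
  have hDS : ∀ j q, Stabilises P (rep q) → term j q ∈ Λ.S := fun j q hq =>
    Λ.stab _ (mul_mem (Λ.const_mem _ (ha j)) hv) _ hq
  let T : J → (M → L) := fun j => ∑ q, term j q
  let R : J → (M → L) := fun j =>
    ∑ q ∈ Finset.univ.filter (fun q => ¬ Stabilises P (rep q)), term j q
  have hTR : ∀ j, T j = ∑ i : J, term j i.1 + R j := fun j => by
    simp only [T, R]
    rw [← Finset.sum_filter_add_sum_filter_not Finset.univ (fun q => Stabilises P (rep q))]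
    congr 1
    exact Finset.sum_subtype _ (fun q => by simp) _
  have hTfix : ∀ j σ, conjFun σ (T j) = T j := fun j σ => by
    simp only [T, map_sum, hperm]
    exact Fintype.sum_equiv (MulAction.toPerm σ) _ _ fun q => rfl
  have hRtiny : ∀ j x, R j x / (ℓ : L) ^ N ∈ P := fun j x => by
    simp only [R, Finset.sum_apply, Finset.sum_div]
    refine sum_mem fun q hq => ?_
    simp only [Finset.mem_filter] at hq
    simpa [term] using hsmall (rep q) hq.2 j ((rep q)⁻¹ • x)
  have hRI : ∀ j, ∀ η ∈ inertG P, conjFun η (R j) = R j := fun j η hη => by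
    have h1 : conjFun η (∑ i : J, term j i.1) = ∑ i : J, term j i.1 := by
      rw [map_sum]
      exact Finset.sum_congr rfl fun i _ => Λ.equiv _ (hDS j i.1 i.2) η hη
    have h2 := hTfix j η
    rw [hTR, map_add, h1] at h2
    exact add_left_cancel h2
  have hdiv : ∀ {n : ℕ} (u : L), n ≤ N → u / (ℓ : L) ^ N ∈ P → u / (ℓ : L) ^ n ∈ P := by
    intro n u hn hu
    obtain ⟨d, hd⟩ := Nat.exists_eq_add_of_le hn
    have := mul_mem hu (pow_mem (natCast_mem P ℓ) d)
    have hl : (ℓ : L) ≠ 0 := Nat.cast_ne_zero.2 hℓ.ne_zero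
    convert this using 1
    rw [hd, pow_add]
    field_simp
  have hTmem : ∀ j, T j ∈ Λ.fixedFuns := fun j => by
    refine ⟨?_, hTfix j⟩
    rw [hTR]
    exact add_mem (sum_mem fun i _ => hDS j i.1 i.2)
      (hN₁ _ (hRI j) fun x => hdiv _ (le_max_left _ _) (hRtiny j x))
  let err : M → L := ∑ j, c j • R j
  have hv' : v = ∑ j, c j • T j - err := by
    have : ∑ j, c j • (∑ i : J, term j i.1) = v := by
      simp only [Finset.smul_sum]
      rw [Finset.sum_comm]
      have hin : ∀ i : J, ∑ j, c j • term j i.1 =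
          (if i = i₀ then (1 : L) else 0) • conjFun (τ i) v := fun i => by
        rw [← hcτ i, Finset.sum_smul]
        refine Finset.sum_congr rfl fun j _ => ?_
        simp only [term, conjFun_smul, smul_smul]
        rfl
      simp only [hin, ite_smul, one_smul, zero_smul]
      rw [Fintype.sum_ite_eq']
      exact Λ.equiv v hv _ hi₀
    simp only [err, hTR, smul_add, Finset.sum_add_distrib, this, add_sub_cancel_right]
  obtain ⟨d, hd, herr⟩ := hN₂ err
    (fun η hη => by
      simp only [err, map_sum, conjFun_smul]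
      exact Finset.sum_congr rfl fun j _ => by rw [(hc j).2 η hη, hRI j η hη])
    (fun x => by
      simp only [err, Finset.sum_apply, Finset.sum_div]
      refine sum_mem fun j _ => hdiv _ (le_max_right _ _) ?_
      rw [Pi.smul_apply, smul_eq_mul, mul_div_assoc]
      exact mul_mem (hc j).1 (hRtiny j x))
  rw [hv', herr]
  exact sub_mem (sum_mem fun j _ => AddSubgroup.subset_closure ⟨_, hc j, _, hTmem j, rfl⟩)
    (sum_mem fun i _ => AddSubgroup.subset_closure ⟨_, hd i, _, hbh i, rfl⟩)

end InertiaLattice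

end Fermat.Agent.FlatJ
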