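import Fermat.Agent.FlatJ.Setup
import Fermat.Agent.FlatJ.LinAlg

/-!
Families of Riemann-Roch spaces over a local ring of functions.
-/

set_option autoImplicit false
set_option linter.unusedSectionVars false
set_option linter.unusedVariables false
set_option synthInstance.maxHeartbeats 100000

noncomputable section

open AlgebraicCurve ModularCurve

namespace Fermat.Agent.FlatJ

open Fermat.Agent.RED.TorsionCore (RRCurve le_ord_of_mem mul_mem_rr rr_mono)

variable {K k : Type} [Field K] [Field k] {A : ValuationSubring K} {π : A →+* k}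
  {F Fk : Type} [Field F] [Algebra K F] [Field Fk] [Algebra k Fk]
  [LaurentEmb K F] [LaurentEmb k Fk]
variable {S : Type} (R : Subring (S → A))

/-- value at a point, as an element of `K` -/
def valK (s : S) : R →+* K := A.subtype.comp (evPt R s)

/-- reduction at a point -/
def valk (π : A →+* k) (s : S) : R →+* k := π.comp (evPt R s)

/-- A function-valued family whose expansion has coefficients in `R`. -/
def IsVec (u : S → F) : Prop := ∃ w : LaurentSeries R, ∀ s, coeffMap (valK R s) w = emb (u s)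

variable {R}

namespace IsVec

variable {u v : S → F}

theorem mul (hu : IsVec R u) (hv : IsVec R v) : IsVec R (fun s => u s * v s) := by
  obtain ⟨w, hw⟩ := hu
  obtain ⟨z, hz⟩ := hv
  exact ⟨w * z, fun s => by rw [map_mul, hw, hz, map_mul]⟩

theorem const {f : F} (hA : ∀ m, (emb f).coeff m ∈ A)
    (hf : ∀ m, (fun _ : S => (⟨(emb f).coeff m, hA m⟩ : A)) ∈ R) : IsVec R (fun _ => f) := by
  rcases isEmpty_or_nonempty S with h | ⟨⟨s₀⟩⟩
  · exact ⟨0, fun s => h.elim s⟩
  refine ⟨{ coeff := fun m => ⟨_, hf m⟩, isPWO_support' := ?_ }, fun s => ?_⟩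
  · refine (emb f).isPWO_support.mono fun m hm => ?_
    simp only [Function.mem_support, ne_eq, HahnSeries.mem_support] at hm ⊢
    exact fun h => hm (Subtype.ext (funext fun _ => Subtype.ext h))
  · ext m
    rfl

theorem exists_reduces (D : RedSetup A π F Fk) (hR : IsLocalFamily π R) [Nonempty S]
    (hu : IsVec R u) : ∃ φ : Fk, ∀ s, Reduces π (u s) φ := by
  obtain ⟨w, hw⟩ := hu
  let s₀ : S := Classical.arbitrary S
  have hy : ∀ s, coeffMap A.subtype (coeffMap (evPt R s) w) = emb (u s) := fun s => by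
    rw [coeffMap_coeffMap]; exact hw s
  obtain ⟨φ, hφ⟩ := D.red_mem _ _ (hy s₀)
  refine ⟨φ, fun s => ⟨_, hy s, ?_⟩⟩
  rw [← hφ, coeffMap_coeffMap, coeffMap_coeffMap]
  exact coeffMap_congr (hR.comp_evPt_eq s s₀) w

end IsVec

/-- A basis, with expansions in `R` and constant reductions, of a family of Riemann-Roch spaces. -/
structure Fam (D : RedSetup A π F Fk) (R : Subring (S → A)) (E : S → Divisor K F)
    (Eb : Divisor k Fk) where
  /-- the dimension -/
  d : ℕ
  /-- the basis -/
  u : Fin d → S → F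
  vec : ∀ i, IsVec R (u i)
  /-- its reduction -/
  φ : Fin d → Fk
  mem : ∀ i s, u i s ∈ riemannRochSpace (E s)
  red : ∀ i s, Reduces π (u i s) (φ i)
  indep : LinearIndependent k φ
  span_eq : Submodule.span k (Set.range φ) = riemannRochSpace Eb
  dim : ∀ s, Module.finrank K (riemannRochSpace (E s)) = d
  red_eq : ∀ s, Finsupp.mapDomain D.r (E s) = Eb

/-- existence of such a basis -/
def IsFam (D : RedSetup A π F Fk) (R : Subring (S → A)) (E : S → Divisor K F) (Eb : Divisor k Fk) :
    Prop := Nonempty (Fam D R E Eb)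

section Test

variable {L : Type} [Field L] {ι : Type} [Fintype ι] [DecidableEq ι]

/-- coordinates from the coefficients at chosen exponents -/
def coordOf (m : ι → ℤ) (N : Matrix ι ι L) (x : LaurentSeries L) (l : ι) : L :=
  ∑ t, x.coeff (m t) * N t l

/-- the deviation of `x` from the span of the `w`s -/
def deviation (m : ι → ℤ) (N : Matrix ι ι L) (w : ι → LaurentSeries L) (n : ℤ)
    (x : LaurentSeries L) : L :=
  x.coeff n - ∑ l, coordOf m N x l * (w l).coeff n

theorem deviation_eq_zero_iff {m : ι → ℤ} {N : Matrix ι ι L} {w : ι → LaurentSeries L}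
    (hN : (Matrix.of fun l t => (w l).coeff (m t)) * N = 1) (x : LaurentSeries L) :
    (∀ n, deviation m N w n x = 0) ↔ ∃ c : ι → L, x = ∑ l, HahnSeries.C (c l) * w l := by
  constructor
  · intro h
    refine ⟨coordOf m N x, HahnSeries.ext (funext fun n => ?_)⟩
    have := h n
    rw [deviation, sub_eq_zero] at this
    rw [this, HahnSeries.coeff_sum]
    exact Finset.sum_congr rfl fun l _ => (coeff_C_mul' _ _ _).symm
  · rintro ⟨c, rfl⟩ n
    have hc : ∀ l, coordOf m N (∑ i, HahnSeries.C (c i) * w i) l = c l := by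
      intro l
      have h1 := congrFun (congrArg (fun M => Matrix.vecMul c M) hN) l
      rw [← Matrix.vecMul_vecMul, Matrix.vecMul_one] at h1
      rw [← h1]
      simp only [coordOf, HahnSeries.coeff_sum, coeff_C_mul', Matrix.vecMul, dotProduct,
        Matrix.of_apply]
    rw [deviation, sub_eq_zero, HahnSeries.coeff_sum]
    simp only [hc, coeff_C_mul']

theorem deviation_sum {n : ℕ} (m : ι → ℤ) (N : Matrix ι ι L) (w : ι → LaurentSeries L) (e : ℤ)
    (a : Fin n → L) (x : Fin n → LaurentSeries L) :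
    deviation m N w e (∑ i, HahnSeries.C (a i) * x i) = ∑ i, a i * deviation m N w e (x i) := by
  simp only [deviation, coordOf, HahnSeries.coeff_sum, coeff_C_mul', Finset.sum_mul,
    mul_sub, Finset.mul_sum, Finset.sum_sub_distrib]
  congr 1
  conv_rhs => rw [Finset.sum_comm]
  refine Finset.sum_congr rfl fun l _ => ?_
  rw [Finset.sum_comm]
  exact Finset.sum_congr rfl fun i _ => Finset.sum_congr rfl fun t _ => by ring

theorem map_deviation {R' : Type} [CommRing R'] (f : R' →+* L) (m : ι → ℤ) (N : Matrix ι ι R')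
    (w : ι → LaurentSeries R') (e : ℤ) (x : LaurentSeries R') :
    f (x.coeff e - ∑ l, (∑ t, x.coeff (m t) * N t l) * (w l).coeff e) =
      deviation m (N.map f) (fun l => coeffMap f (w l)) e (coeffMap f x) := by
  simp [deviation, coordOf, map_sum]

end Test

namespace Fam

variable {D : RedSetup A π F Fk} {E : S → Divisor K F} {Eb : Divisor k Fk}

theorem exists_chart (B : Fam D R E Eb) (hR : IsLocalFamily π R) [Nonempty S] :
    ∃ (w : Fin B.d → LaurentSeries R) (m : Fin B.d → ℤ) (N : Matrix (Fin B.d) (Fin B.d) R),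
      (∀ i s, coeffMap (valK R s) (w i) = emb (B.u i s)) ∧
      (∀ i s, coeffMap (valk R π s) (w i) = emb (B.φ i)) ∧
      (Matrix.of fun l t => (w l).coeff (m t)) * N = 1 := by
  choose w hw using B.vec
  have hred : ∀ i s, coeffMap (valk R π s) (w i) = emb (B.φ i) := by
    intro i s
    obtain ⟨y, hy, hy'⟩ := B.red i s
    have : y = coeffMap (evPt R s) (w i) := coeffMap_injective (f := A.subtype) Subtype.val_injective (by
      rw [coeffMap_coeffMap]
      exact hy.trans (hw i s).symm)
    rw [← hy', this, coeffMap_coeffMap]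
    rfl
  have hind : LinearIndependent k (fun i x => (emb (B.φ i)).coeff x) := by
    rw [Fintype.linearIndependent_iff]
    intro c hc
    refine Fintype.linearIndependent_iff.1 B.indep c (emb_injective (HahnSeries.ext (funext fun x => ?_)))
    have := congrFun hc x
    simpa [map_sum, HahnSeries.coeff_sum] using this
  obtain ⟨m, hm⟩ := exists_minor _ hind
  obtain ⟨N, hN, -⟩ := hR.exists_inverse (fun a ha => D.isUnit_of_ne_zero ha) (Classical.arbitrary S)
    (Matrix.of fun l t => (w l).coeff (m t)) (by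
      convert hm using 3
      ext l t
      exact congrArg (fun z : LaurentSeries k => z.coeff (m t)) (hred l (Classical.arbitrary S)))
  exact ⟨w, m, N, hw, hred, hN⟩

theorem span_eq_space (B : Fam D R E Eb) (s : S) :
    Submodule.span K (Set.range fun i => B.u i s) = riemannRochSpace (E s) := by
  have := D.hF.finite_rr (E s)
  refine Submodule.eq_of_le_of_finrank_le (Submodule.span_le.2 ?_) ?_
  · rintro _ ⟨i, rfl⟩
    exact B.mem i s
  rw [B.dim s, finrank_span_eq_card ?_, Fintype.card_fin]
  rw [Fintype.linearIndependent_iff]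
  intro c hc i
  by_contra hi
  have : Nonempty (Fin B.d) := ⟨i⟩
  obtain ⟨i₀, hi₀⟩ := Finite.exists_max fun j => A.valuation (c j)
  have h0 : c i₀ ≠ 0 := fun h => hi (by
    have := hi₀ i
    rw [h, map_zero, le_zero_iff, map_eq_zero] at this
    exact this)
  let a : Fin B.d → A := fun j => ⟨c j / c i₀, (A.valuation_le_one_iff _).1 (by
    rw [map_div₀]; exact div_le_one_of_le₀ (hi₀ j) zero_le)⟩
  have hsum := Reduces.sum (s := Finset.univ) fun j _ => (B.red j s).smul (a j)
  have : (∑ j, (a j : K) • B.u j s) = 0 := by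
    rw [show (∑ j, (a j : K) • B.u j s) = (c i₀)⁻¹ • ∑ j, c j • B.u j s by
      simp only [Finset.smul_sum, smul_smul, a, div_eq_inv_mul], hc, smul_zero]
  rw [this] at hsum
  have := Fintype.linearIndependent_iff.1 B.indep (fun j => π (a j)) (hsum.unique Reduces.zero) i₀
  rw [show a i₀ = 1 from Subtype.ext (div_self h0), map_one] at this
  exact one_ne_zero this

theorem mem_iff (B : Fam D R E Eb) {w : Fin B.d → LaurentSeries R} (s : S)
    (hw : ∀ i, coeffMap (valK R s) (w i) = emb (B.u i s)) (x : F) :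
    x ∈ riemannRochSpace (E s) ↔
      ∃ c : Fin B.d → K, emb x = ∑ i, HahnSeries.C (c i) * coeffMap (valK R s) (w i) := by
  rw [← B.span_eq_space s, Submodule.mem_span_range_iff_exists_fun]
  refine exists_congr fun c => ?_
  rw [← emb_injective.eq_iff, map_sum]
  simp only [coe_smul_field, hw]
  exact eq_comm

theorem mem_special_iff (B : Fam D R E Eb) {w : Fin B.d → LaurentSeries R} (s : S)
    (hw : ∀ i, coeffMap (valk R π s) (w i) = emb (B.φ i)) (x : Fk) :
    x ∈ riemannRochSpace Eb ↔
      ∃ c : Fin B.d → k, emb x = ∑ i, HahnSeries.C (c i) * coeffMap (valk R π s) (w i) := by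
  rw [← B.span_eq, Submodule.mem_span_range_iff_exists_fun]
  refine exists_congr fun c => ?_
  rw [← emb_injective.eq_iff, map_sum]
  simp only [coe_smul_field, hw]
  exact eq_comm

end Fam

section Constructions

variable (D : RedSetup A π F Fk) (hR : IsLocalFamily π R) [Nonempty S]
include hR

/-- A family cut out of another by multiplication conditions. -/
theorem isFam_kernel {E₁ E₃ E : S → Divisor K F} {Eb₁ Eb₃ Eb : Divisor k Fk}
    (B₁ : Fam D R E₁ Eb₁) (B₃ : Fam D R E₃ Eb₃) {J : Type} {v : J → S → F}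
    (hv : ∀ j, IsVec R (v j)) {ψ : J → Fk} (hψ : ∀ j s, Reduces π (v j s) (ψ j))
    (hgen : ∀ s x, x ∈ riemannRochSpace (E s) ↔
      x ∈ riemannRochSpace (E₁ s) ∧ ∀ j, x * v j s ∈ riemannRochSpace (E₃ s))
    (hspec : ∀ x, x ∈ riemannRochSpace Eb ↔
      x ∈ riemannRochSpace Eb₁ ∧ ∀ j, x * ψ j ∈ riemannRochSpace Eb₃)
    (hdim : ∀ s, Module.finrank K (riemannRochSpace (E s)) =
      Module.finrank k (riemannRochSpace Eb))
    (hred : ∀ s, Finsupp.mapDomain D.r (E s) = Eb) : IsFam D R E Eb := by
  classical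
  obtain ⟨w₁, m₁, N₁, hw₁, hw₁', hN₁⟩ := B₁.exists_chart hR
  obtain ⟨w₃, m₃, N₃, hw₃, hw₃', hN₃⟩ := B₃.exists_chart hR
  choose z hz using hv
  let s₀ : S := Classical.arbitrary S
  have hz' : ∀ j s, coeffMap (valk R π s) (z j) = emb (ψ j) := by
    intro j s
    obtain ⟨y, hy, hy'⟩ := hψ j s
    have : y = coeffMap (evPt R s) (z j) := coeffMap_injective (f := A.subtype) Subtype.val_injective (by
      rw [coeffMap_coeffMap]
      exact hy.trans (hz j s).symm)
    rw [← hy', this, coeffMap_coeffMap]
    rfl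
  let M : J × ℤ → Fin B₁.d → R := fun e i => (w₁ i * z e.1).coeff e.2 -
    ∑ l, (∑ t, (w₁ i * z e.1).coeff (m₃ t) * N₃ t l) * (w₃ l).coeff e.2
  -- the solution spaces
  have key : ∀ {L : Type} [Field L] (f : R →+* L) (a : Fin B₁.d → L),
      a ∈ LinearMap.ker (LinearMap.pi fun e => Fintype.linearCombination L fun i => f (M e i)) ↔
        ∀ j, ∃ c : Fin B₃.d → L,
          (∑ i, HahnSeries.C (a i) * coeffMap f (w₁ i)) * coeffMap f (z j) =
            ∑ l, HahnSeries.C (c l) * coeffMap f (w₃ l) := by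
    intro L _ f a
    have hN : (Matrix.of fun l t => (coeffMap f (w₃ l)).coeff (m₃ t)) * N₃.map f = 1 := by
      rw [show (Matrix.of fun l t => (coeffMap f (w₃ l)).coeff (m₃ t)) =
        (Matrix.of fun l t => (w₃ l).coeff (m₃ t)).map f from rfl, ← Matrix.map_mul, hN₃,
        Matrix.map_one _ (map_zero _) (map_one _)]
    have hprod : ∀ j, (∑ i, HahnSeries.C (a i) * coeffMap f (w₁ i)) * coeffMap f (z j) =
        ∑ i, HahnSeries.C (a i) * coeffMap f (w₁ i * z j) := fun j => by
      rw [Finset.sum_mul]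
      exact Finset.sum_congr rfl fun i _ => by rw [map_mul, mul_assoc]
    have heq : ∀ j e, ∑ i, a i * f (M (j, e) i) =
        deviation m₃ (N₃.map f) (fun l => coeffMap f (w₃ l)) e
          (∑ i, HahnSeries.C (a i) * coeffMap f (w₁ i * z j)) := by
      intro j e
      rw [deviation_sum]
      exact Finset.sum_congr rfl fun i _ => by rw [← map_deviation f]
    simp only [LinearMap.mem_ker, funext_iff, LinearMap.pi_apply, Pi.zero_apply,
      Fintype.linearCombination_apply, smul_eq_mul, Prod.forall]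
    refine forall_congr' fun j => ?_
    rw [hprod j, ← deviation_eq_zero_iff hN]
    exact forall_congr' fun e => by rw [heq]
  -- the parametrisations
  let par : S → (Fin B₁.d → K) →ₗ[K] F := fun s =>
    Fintype.linearCombination K fun i => B₁.u i s
  let park : (Fin B₁.d → k) →ₗ[k] Fk := Fintype.linearCombination k B₁.φ
  have hparinj : ∀ s, Function.Injective (par s) := by
    intro s
    have := D.hF.finite_rr (E₁ s)
    have hli : LinearIndependent K (fun i => B₁.u i s) := by
      rw [linearIndependent_iff_card_eq_finrank_span, Fintype.card_fin, Set.finrank,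
        B₁.span_eq_space s, B₁.dim s]
    exact hli.fintypeLinearCombination_injective
  have hemb : ∀ s a, emb (par s a) = ∑ i, HahnSeries.C (a i) * coeffMap (valK R s) (w₁ i) := by
    intro s a
    simp [par, Fintype.linearCombination_apply, map_sum, hw₁]
  have hembk : ∀ a, emb (park a) = ∑ i, HahnSeries.C (a i) * coeffMap (valk R π s₀) (w₁ i) := by
    intro a
    simp [park, Fintype.linearCombination_apply, map_sum, hw₁']
  have hgenker : ∀ s a, a ∈ LinearMap.ker (LinearMap.pi fun e =>
      Fintype.linearCombination K fun i => valK R s (M e i)) ↔ par s a ∈ riemannRochSpace (E s) := by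
    intro s a
    rw [key (valK R s) a, hgen s (par s a)]
    constructor
    · intro h
      refine ⟨?_, fun j => ?_⟩
      · rw [← B₁.span_eq_space s,
          show par s a = ∑ i, a i • B₁.u i s from Fintype.linearCombination_apply K _ a]
        exact sum_mem fun i _ => Submodule.smul_mem _ _ (Submodule.subset_span ⟨i, rfl⟩)
      · rw [B₃.mem_iff s (fun i => hw₃ i s), map_mul, hemb, ← hz j s]
        exact h j
    · rintro ⟨-, h⟩ j
      have := h j
      rwa [B₃.mem_iff s (fun i => hw₃ i s), map_mul, hemb, ← hz j s] at this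
  have hspecker : ∀ a, a ∈ LinearMap.ker (LinearMap.pi fun e =>
      Fintype.linearCombination k fun i => valk R π s₀ (M e i)) ↔ park a ∈ riemannRochSpace Eb := by
    intro a
    rw [key (valk R π s₀) a, hspec (park a)]
    constructor
    · intro h
      refine ⟨?_, fun j => ?_⟩
      · rw [← B₁.span_eq,
          show park a = ∑ i, a i • B₁.φ i from Fintype.linearCombination_apply k _ a]
        exact sum_mem fun i _ => Submodule.smul_mem _ _ (Submodule.subset_span ⟨i, rfl⟩)
      · rw [B₃.mem_special_iff s₀ (fun i => hw₃' i s₀), map_mul, hembk, ← hz' j s₀]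
        exact h j
    · rintro ⟨-, h⟩ j
      have := h j
      rwa [B₃.mem_special_iff s₀ (fun i => hw₃' i s₀), map_mul, hembk, ← hz' j s₀] at this
  have hparkinj : Function.Injective park := B₁.indep.fintypeLinearCombination_injective
  have hres : Module.finrank k (LinearMap.ker (LinearMap.pi fun e =>
      Fintype.linearCombination k fun i => valk R π s₀ (M e i)) : Submodule k (Fin B₁.d → k)) =
        Module.finrank k (riemannRochSpace Eb) := by
    rw [LinearEquiv.finrank_eq (Submodule.equivMapOfInjective park hparkinj _)]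
    refine congrArg (fun V : Submodule k Fk => Module.finrank k V) ?_
    ext x
    constructor
    · rintro ⟨a, ha, rfl⟩
      exact (hspecker a).1 ha
    · intro hx
      obtain ⟨a, ha⟩ := (Submodule.mem_span_range_iff_exists_fun k).1
        (B₁.span_eq ▸ ((hspec x).1 hx).1)
      exact ⟨a, (hspecker a).2 (by rw [show park a = x from ha]; exact hx), ha⟩
  have hker : ∀ s, Module.finrank k (riemannRochSpace Eb) ≤
      Module.finrank K (LinearMap.ker (LinearMap.pi fun e =>
        Fintype.linearCombination K fun i => valK R s (M e i)) : Submodule K (Fin B₁.d → K)) := by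
    intro s
    rw [← hdim s, LinearEquiv.finrank_eq (Submodule.equivMapOfInjective (par s) (hparinj s) _)]
    have := D.hF.finite_rr (E₁ s)
    refine Submodule.finrank_mono fun x hx => ?_
    obtain ⟨a, ha⟩ := (Submodule.mem_span_range_iff_exists_fun K).1
      ((B₁.span_eq_space s).symm ▸ ((hgen s x).1 hx).1)
    exact ⟨a, (hgenker s a).2 (by rw [show par s a = x from ha]; exact hx), ha⟩
  obtain ⟨x, hx, hxi⟩ := exists_kernel_family (K := K) hR (fun a ha => D.isUnit_of_ne_zero ha)
    A.subtype s₀ M hres hker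
  refine ⟨{
    d := _
    u := fun j s => par s (fun i => valK R s (x j i))
    vec := fun j => ⟨∑ i, HahnSeries.C (x j i) * w₁ i, fun s => by
      rw [hemb, map_sum]
      exact Finset.sum_congr rfl fun i _ => coeffMap_C_mul _ _ _⟩
    φ := fun j => park (fun i => valk R π s₀ (x j i))
    mem := fun j s => (hgenker s _).1 (LinearMap.mem_ker.2 (funext fun e => by
      simp only [LinearMap.pi_apply, Fintype.linearCombination_apply, smul_eq_mul, Pi.zero_apply]
      exact hx j e s))
    red := fun j s => by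
      simp only [par, park, Fintype.linearCombination_apply]
      refine Reduces.sum fun i _ => ?_
      have := (B₁.red i s).smul (evPt R s (x j i))
      rwa [show π (evPt R s (x j i)) = valk R π s₀ (x j i) from hR.residue_eq _ (x j i).2 s s₀] at this
    indep := hxi.map' park (LinearMap.ker_eq_bot.2 hparkinj)
    span_eq := ?_
    dim := fun s => hdim s
    red_eq := hred }⟩
  have := D.hk.finite_rr Eb
  refine Submodule.eq_of_le_of_finrank_le (Submodule.span_le.2 ?_) ?_
  · rintro _ ⟨j, rfl⟩
    refine (hspecker _).1 (LinearMap.mem_ker.2 (funext fun e => ?_))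
    have h1 := hx j e s₀
    have h1' : (∑ i, evPt R s₀ (x j i) * evPt R s₀ (M e i) : A) = 0 := by
      apply Subtype.ext
      simpa [map_sum] using h1
    have h2 := congrArg π h1'
    simpa [Fintype.linearCombination_apply, valk, map_sum, map_zero] using h2
  · have hind : LinearIndependent k (fun j => park (fun i => valk R π s₀ (x j i))) :=
      hxi.map' park (LinearMap.ker_eq_bot.2 hparkinj)
    rw [finrank_span_eq_card hind, Fintype.card_fin]

/-- A family divided by another. -/
theorem isFam_sub {E₁ E₂ E₃ : S → Divisor K F} {Eb₁ Eb₂ Eb₃ : Divisor k Fk}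
    (h₁ : IsFam D R E₁ Eb₁) (h₂ : IsFam D R E₂ Eb₂) (h₃ : IsFam D R E₃ Eb₃)
    (hdeg : (2 * D.g + 1 : ℤ) ≤ Divisor.degree Eb₂) (hle : ∀ s, E₃ s - E₂ s ≤ E₁ s)
    (hdim : ∀ s, Module.finrank K (riemannRochSpace (E₃ s - E₂ s)) =
      Module.finrank k (riemannRochSpace (Eb₃ - Eb₂))) :
    IsFam D R (fun s => E₃ s - E₂ s) (Eb₃ - Eb₂) := by
  obtain ⟨B₁⟩ := h₁
  obtain ⟨B₂⟩ := h₂
  obtain ⟨B₃⟩ := h₃
  have hdegs : ∀ s, (2 * D.g + 1 : ℤ) ≤ Divisor.degree (E₂ s) := fun s => by
    rwa [← D.degree_mapDomain, B₂.red_eq s]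
  have hred : ∀ s, Finsupp.mapDomain D.r (E₃ s - E₂ s) = Eb₃ - Eb₂ := fun s => by
    rw [← Finsupp.mapDomain.addMonoidHom_apply, map_sub, Finsupp.mapDomain.addMonoidHom_apply,
      Finsupp.mapDomain.addMonoidHom_apply, B₂.red_eq, B₃.red_eq]
  refine isFam_kernel D hR B₁ B₃ (v := B₂.u) B₂.vec (ψ := B₂.φ) B₂.red (fun s x => ?_) (fun x => ?_)
    hdim hred
  · rw [← mem_rr_sub_iff D.hF (hdegs s) (hle s)]
    refine and_congr_right fun _ => ⟨fun h j => h _ (B₂.mem j s), fun h f hf => ?_⟩
    rw [← B₂.span_eq_space s] at hf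
    induction hf using Submodule.span_induction with
    | mem f hf => obtain ⟨j, rfl⟩ := hf; exact h j
    | zero => simp
    | add a b _ _ ha hb => rw [mul_add]; exact Submodule.add_mem _ ha hb
    | smul c a _ ha => rw [mul_smul_comm]; exact Submodule.smul_mem _ _ ha
  · have hle' : Eb₃ - Eb₂ ≤ Eb₁ := by
      have s : S := Classical.arbitrary S
      rw [← hred s, ← B₁.red_eq s]
      exact Finsupp.mapDomain_mono (hle s)
    rw [← mem_rr_sub_iff D.hk hdeg hle']
    refine and_congr_right fun _ => ⟨fun h j => h _ (by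
      rw [← B₂.span_eq]; exact Submodule.subset_span ⟨j, rfl⟩), fun h f hf => ?_⟩
    rw [← B₂.span_eq] at hf
    induction hf using Submodule.span_induction with
    | mem f hf => obtain ⟨j, rfl⟩ := hf; exact h j
    | zero => simp
    | add a b _ _ ha hb => rw [mul_add]; exact Submodule.add_mem _ ha hb
    | smul c a _ ha => rw [mul_smul_comm]; exact Submodule.smul_mem _ _ ha

/-- Multiplication of families. -/
theorem isFam_add [Infinite k] {E₁ E₂ : S → Divisor K F} {Eb₁ Eb₂ : Divisor k Fk}
    (h₁ : IsFam D R E₁ Eb₁) (h₂ : IsFam D R E₂ Eb₂)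
    (hd₁ : (2 * D.g + 1 : ℤ) ≤ Divisor.degree Eb₁)
    (hd₂ : (2 * D.g : ℤ) + Divisor.degree Eb₁ ≤ Divisor.degree Eb₂) :
    IsFam D R (fun s => E₁ s + E₂ s) (Eb₁ + Eb₂) := by
  classical
  obtain ⟨B₁⟩ := h₁
  obtain ⟨B₂⟩ := h₂
  have := D.hk.finite_rr (Eb₁ + Eb₂)
  let prod : Fin B₁.d × Fin B₂.d → Fk := fun p => B₁.φ p.1 * B₂.φ p.2
  have hspan : Submodule.span k (Set.range prod) = riemannRochSpace (Eb₁ + Eb₂) := by
    refine le_antisymm (Submodule.span_le.2 ?_) fun z hz => ?_
    · rintro _ ⟨p, rfl⟩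
      exact mul_mem_rr (B₁.span_eq ▸ Submodule.subset_span ⟨p.1, rfl⟩)
        (B₂.span_eq ▸ Submodule.subset_span ⟨p.2, rfl⟩)
    · obtain ⟨f, hf, h, hh, a, ha, b, hb, rfl⟩ := exists_pencil D.hk hd₁ hd₂ z hz
      have key : ∀ f ∈ riemannRochSpace Eb₁, ∀ a ∈ riemannRochSpace Eb₂,
          f * a ∈ Submodule.span k (Set.range prod) := by
        intro f hf a ha
        rw [← B₁.span_eq, Submodule.mem_span_range_iff_exists_fun] at hf
        rw [← B₂.span_eq, Submodule.mem_span_range_iff_exists_fun] at ha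
        obtain ⟨c, rfl⟩ := hf
        obtain ⟨c', rfl⟩ := ha
        rw [Finset.sum_mul_sum]
        refine sum_mem fun i _ => sum_mem fun j _ => ?_
        rw [smul_mul_smul_comm]
        exact Submodule.smul_mem _ _ (Submodule.subset_span ⟨(i, j), rfl⟩)
      exact add_mem (key f hf a ha) (key h hh b hb)
  obtain ⟨t, ht, hts, hti⟩ := exists_linearIndependent k (Set.range prod)
  rw [hspan] at hts
  have htfin : t.Finite := (Set.finite_range prod).subset ht
  have := htfin.fintype
  let e : Fin (Fintype.card t) ≃ t := (Fintype.equivFin t).symm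
  choose p hp using fun i => ht (e i).2
  have hind : LinearIndependent k (fun i => prod (p i)) := by
    have := hti.comp e e.injective
    rw [show (fun i => prod (p i)) = Subtype.val ∘ e from funext hp]
    exact this
  have hcard : Module.finrank k (riemannRochSpace (Eb₁ + Eb₂)) = Fintype.card t := by
    rw [← hts, finrank_span_set_eq_card hti, Set.toFinset_card]
  have hred : ∀ s, Finsupp.mapDomain D.r (E₁ s + E₂ s) = Eb₁ + Eb₂ := fun s => by
    rw [Finsupp.mapDomain_add, B₁.red_eq, B₂.red_eq]
  refine ⟨{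
    d := Fintype.card t
    u := fun i s => B₁.u (p i).1 s * B₂.u (p i).2 s
    vec := fun i => (B₁.vec _).mul (B₂.vec _)
    φ := fun i => prod (p i)
    mem := fun i s => mul_mem_rr (B₁.mem _ s) (B₂.mem _ s)
    red := fun i s => (B₁.red _ s).mul (B₂.red _ s)
    indep := hind
    span_eq := ?_
    dim := fun s => ?_
    red_eq := hred }⟩
  · rw [← hts]
    congr 1
    ext x
    simp only [Set.mem_range, hp]
    exact ⟨fun ⟨i, hi⟩ => hi ▸ (e i).2, fun hx => ⟨e.symm ⟨x, hx⟩, by simp⟩⟩
  · rw [← hcard, ← hred s, D.finrank_eq]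
    rw [← D.degree_mapDomain, hred s, map_add]
    omega

/-- Shifting a family by the divisor of a family of functions. -/
theorem isFam_shift {E : S → Divisor K F} {Eb : Divisor k Fk} (h : IsFam D R E Eb) {f : S → F}
    (hf : IsVec R f) {ψ : Fk} (hψ : ∀ s, Reduces π (f s) ψ) (hψ0 : ψ ≠ 0)
    {Ef : S → Divisor K F} (hEf : ∀ s v, Ef s v = v.ord (f s)) {Eψ : Divisor k Fk}
    (hEψ : ∀ v, Eψ v = v.ord ψ) : IsFam D R (fun s => E s - Ef s) (Eb - Eψ) := by
  obtain ⟨B⟩ := h
  have hf0 : ∀ s, f s ≠ 0 := fun s => (hψ s).ne_zero hψ0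
  have hEfψ : ∀ s, Finsupp.mapDomain D.r (Ef s) = Eψ := fun s => Finsupp.ext fun w => by
    rw [D.compat (f s) ψ (hψ s) hψ0 (Ef s) (hEf s), hEψ]
  refine ⟨{
    d := B.d
    u := fun i s => f s * B.u i s
    vec := fun i => hf.mul (B.vec i)
    φ := fun i => ψ * B.φ i
    mem := fun i s => (rr_shift_iff (hf0 s) (hEf s) _).2 (B.mem i s)
    red := fun i s => (hψ s).mul (B.red i s)
    indep := B.indep.map' (LinearMap.mulLeft k ψ)
      (LinearMap.ker_eq_bot.2 (mul_right_injective₀ hψ0))
    span_eq := ?_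
    dim := fun s => ?_
    red_eq := fun s => by
      rw [← Finsupp.mapDomain.addMonoidHom_apply, map_sub, Finsupp.mapDomain.addMonoidHom_apply,
        Finsupp.mapDomain.addMonoidHom_apply, B.red_eq, hEfψ] }⟩
  · ext x
    have hx : x = ψ * (ψ⁻¹ * x) := by rw [← mul_assoc, mul_inv_cancel₀ hψ0, one_mul]
    rw [hx, rr_shift_iff hψ0 hEψ, ← B.span_eq,
      show (Set.range fun i => ψ * B.φ i) = LinearMap.mulLeft k ψ '' Set.range B.φ from
        Set.range_comp (LinearMap.mulLeft k ψ) B.φ, ← Submodule.map_span, Submodule.mem_map]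
    constructor
    · rintro ⟨y, hy, hyx⟩
      rwa [← mul_left_cancel₀ hψ0 hyx]
    · exact fun hy => ⟨_, hy, rfl⟩
  · rw [← B.dim s]
    refine (LinearEquiv.finrank_eq ?_).symm
    refine LinearEquiv.ofBijective ((LinearMap.mulLeft K (f s)).restrict fun x hx =>
      (rr_shift_iff (hf0 s) (hEf s) x).2 hx) ⟨?_, ?_⟩
    · intro a b hab
      exact Subtype.ext (mul_left_cancel₀ (hf0 s) (congrArg Subtype.val hab))
    · rintro ⟨y, hy⟩
      have hy' : y = f s * ((f s)⁻¹ * y) := by rw [← mul_assoc, mul_inv_cancel₀ (hf0 s), one_mul]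
      refine ⟨⟨(f s)⁻¹ * y, ?_⟩, Subtype.ext hy'.symm⟩
      rwa [hy', rr_shift_iff (hf0 s) (hEf s)] at hy

/-- A constant family with rational spanning functions. -/
theorem isFam_const {K₀ : Subfield K}
    (hK₀ : ∀ a : A, (a : K) ∈ K₀ → (fun _ : S => a) ∈ R) {B : Divisor K F}
    (hB : riemannRochSpace B ≤ Submodule.span K {f | f ∈ riemannRochSpace B ∧ RatCoeff K₀ f})
    (hBb : D.Bdd B) (hdeg : (2 * D.g : ℤ) ≤ Divisor.degree B) :
    IsFam D R (fun _ => B) (Finsupp.mapDomain D.r B) := by
  obtain ⟨b, φ, hb, hi⟩ := D.exists_basis_rat K₀ _ _ (D.hF.finite_rr B) rfl (fun f hf => hBb.exists_mem D hf) hB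
  refine ⟨{
    d := _
    u := fun i _ => b i
    vec := fun i => IsVec.const (fun m => (hb i).2.2.coeff_mem m) (fun m => hK₀ _ ((hb i).2.1 m))
    φ := φ
    mem := fun i _ => (hb i).1
    red := fun i _ => (hb i).2.2
    indep := hi
    span_eq := ?_
    dim := fun _ => rfl
    red_eq := fun _ => rfl }⟩
  have := D.hk.finite_rr (Finsupp.mapDomain D.r B)
  refine Submodule.eq_of_le_of_finrank_le (Submodule.span_le.2 ?_) ?_
  · rintro _ ⟨i, rfl⟩
    exact D.mem_rr_of_reduces (hb i).2.2 (hb i).1
  · rw [finrank_span_eq_card hi, Fintype.card_fin, D.finrank_eq hdeg]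

end Constructions

end Fermat.Agent.FlatJ
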