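import Fermat.Agent.FlatJ.Family
import Fermat.Agent.FF.Basic

/-!
Good families of divisors: their complementary Riemann-Roch spaces have bases over the local ring.
-/

set_option autoImplicit false
set_option linter.unusedSectionVars false
set_option linter.unusedVariables false
set_option synthInstance.maxHeartbeats 100000

noncomputable section

open AlgebraicCurve ModularCurve

namespace Fermat.Agent.FlatJ

open Fermat.Agent.RED.TorsionCore (RRCurve le_ord_of_mem mul_mem_rr rr_mono)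

variable {K k : Type} [Field K] [Field k] {A : ValuationSubring K} {π : A →+* k}
  {F Fk : Type} [Field F] [Algebra K F] [Field Fk] [Algebra k Fk]
  [LaurentEmb K F] [LaurentEmb k Fk]
variable {S : Type}

/-- Constant families of all large multiples of `H`. -/
structure Pol (D : RedSetup A π F Fk) (R : Subring (S → A)) : Prop where
  fam : ∀ n : ℕ, (2 * D.g : ℤ) ≤ Divisor.degree (n • D.H) →
    IsFam D R (fun _ => n • D.H) (n • Finsupp.mapDomain D.r D.H)

variable {D : RedSetup A π F Fk} {R : Subring (S → A)}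

/-- the reduction of the divisor -/
def Pol.Hb (_P : Pol D R) : Divisor k Fk := Finsupp.mapDomain D.r D.H

/-- A family of divisors whose complements in all large multiples of `H` are families. -/
def IsGood (P : Pol D R) (X : S → Divisor K F) (Xb : Divisor k Fk) : Prop :=
  (∀ s, Finsupp.mapDomain D.r (X s) = Xb) ∧
    ∃ n₀ : ℕ, ∀ n ≥ n₀, IsFam D R (fun s => n • D.H - X s) (n • P.Hb - Xb)

variable (P : Pol D R)

theorem mapDomain_sub' {α β : Type*} (f : α → β) (X Y : α →₀ ℤ) :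
    Finsupp.mapDomain f (X - Y) = Finsupp.mapDomain f X - Finsupp.mapDomain f Y :=
  map_sub (Finsupp.mapDomain.addMonoidHom f) X Y

theorem mapDomain_nsmul' {α β : Type*} (f : α → β) (n : ℕ) (X : α →₀ ℤ) :
    Finsupp.mapDomain f (n • X) = n • Finsupp.mapDomain f X :=
  map_nsmul (Finsupp.mapDomain.addMonoidHom f) n X

include P in
theorem Pol.degree_nsmul (n : ℕ) : (n : ℤ) ≤ Divisor.degree (n • D.H) := by
  rw [map_nsmul, nsmul_eq_mul]
  have := D.H_pos
  nlinarith

theorem Pol.degree_Hb (n : ℕ) : Divisor.degree (n • P.Hb) = Divisor.degree (n • D.H) := by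
  rw [Pol.Hb, ← mapDomain_nsmul', D.degree_mapDomain]

include P in
theorem Pol.nsmul_mono {m n : ℕ} (h : m ≤ n) : m • D.H ≤ n • D.H :=
  nsmul_le_nsmul_left D.H_eff h

include P in
theorem Pol.exists_nat (c : ℤ) : ∃ N : ℕ, ∀ n ≥ N, c ≤ Divisor.degree (n • D.H) :=
  ⟨c.toNat, fun n hn => by have := P.degree_nsmul n; omega⟩

variable [Nonempty S] (hR : IsLocalFamily π R)
include hR

section Basic

variable {X : S → Divisor K F} {Xb : Divisor k Fk}

theorem IsGood.degree_eq (hX : IsGood P X Xb) (s : S) :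
    Divisor.degree (X s) = Divisor.degree Xb := by
  rw [← hX.1 s, D.degree_mapDomain]

theorem isGood_of_fam [Infinite k] {n₀ : ℕ}
    (h : IsFam D R (fun s => n₀ • D.H - X s) (n₀ • P.Hb - Xb))
    (hdeg : (2 * D.g + 1 : ℤ) ≤ Divisor.degree (n₀ • P.Hb - Xb)) : IsGood P X Xb := by
  have hred : ∀ s, Finsupp.mapDomain D.r (X s) = Xb := fun s => by
    obtain ⟨B⟩ := h
    have := B.red_eq s
    rwa [mapDomain_sub', mapDomain_nsmul', ← show P.Hb = Finsupp.mapDomain D.r D.H from rfl, sub_right_inj] at this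
  obtain ⟨N, hN⟩ := P.exists_nat (2 * D.g + Divisor.degree (n₀ • P.Hb - Xb))
  refine ⟨hred, n₀ + N, fun n hn => ?_⟩
  obtain ⟨j, rfl⟩ : ∃ j, n = n₀ + j := ⟨n - n₀, by omega⟩
  have hj := hN j (by omega)
  have := isFam_add D hR h (P.fam j (by omega)) hdeg (by rw [← show P.Hb = Finsupp.mapDomain D.r D.H from rfl, P.degree_Hb]; exact hj)
  have e1 : (fun s => (n₀ + j) • D.H - X s) = fun s => (n₀ • D.H - X s) + j • D.H :=
    funext fun s => by rw [add_nsmul]; abel
  have e2 : (n₀ + j) • P.Hb - Xb = (n₀ • P.Hb - Xb) + j • Finsupp.mapDomain D.r D.H := by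
    rw [add_nsmul, Pol.Hb]; abel
  rw [e1, e2]
  exact this

theorem IsGood.add [Infinite k] {Y : S → Divisor K F} {Yb : Divisor k Fk} (hX : IsGood P X Xb)
    (hY : IsGood P Y Yb) : IsGood P (fun s => X s + Y s) (Xb + Yb) := by
  obtain ⟨hXr, a, ha⟩ := hX
  obtain ⟨hYr, b, hb⟩ := hY
  refine ⟨fun s => by rw [Finsupp.mapDomain_add, hXr, hYr], ?_⟩
  obtain ⟨N, hN⟩ := P.exists_nat (2 * D.g + 1 + Divisor.degree Xb)
  let n₁ := max a N
  have h1 : (2 * D.g + 1 : ℤ) ≤ Divisor.degree (n₁ • P.Hb - Xb) := by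
    rw [map_sub, P.degree_Hb]
    have := hN n₁ (le_max_right _ _)
    omega
  obtain ⟨N', hN'⟩ := P.exists_nat (2 * D.g + Divisor.degree (n₁ • P.Hb - Xb) + Divisor.degree Yb)
  refine ⟨n₁ + max b N', fun n hn => ?_⟩
  obtain ⟨j, rfl⟩ : ∃ j, n = n₁ + j := ⟨n - n₁, by omega⟩
  have h2 : (2 * D.g : ℤ) + Divisor.degree (n₁ • P.Hb - Xb) ≤ Divisor.degree (j • P.Hb - Yb) := by
    rw [map_sub (Divisor.degree) (j • P.Hb) Yb, P.degree_Hb]
    have := hN' j (by omega)
    omega
  have := isFam_add D hR (ha n₁ (le_max_left _ _)) (hb j (by omega)) h1 h2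
  have e1 : (fun s => (n₁ + j) • D.H - (X s + Y s)) =
      fun s => (n₁ • D.H - X s) + (j • D.H - Y s) :=
    funext fun s => by rw [add_nsmul]; abel
  have e2 : (n₁ + j) • P.Hb - (Xb + Yb) = (n₁ • P.Hb - Xb) + (j • P.Hb - Yb) := by
    rw [add_nsmul]; abel
  rw [e1, e2]
  exact this

/-- Complements of an effective good family in small multiples of `H`. -/
theorem IsGood.isFam (hX : IsGood P X Xb) (hX0 : ∀ s, 0 ≤ X s) (n : ℕ)
    (hdim : ∀ s, Module.finrank K (riemannRochSpace (n • D.H - X s)) =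
      Module.finrank k (riemannRochSpace (n • P.Hb - Xb))) :
    IsFam D R (fun s => n • D.H - X s) (n • P.Hb - Xb) := by
  obtain ⟨hXr, a, ha⟩ := hX
  obtain ⟨p, hp⟩ := P.exists_nat (2 * D.g + 1)
  let q := max p a
  have hq := hp q (le_max_left _ _)
  let N := n + q
  have hN : (2 * D.g : ℤ) ≤ Divisor.degree (N • D.H) := by
    have := hp N (le_add_left (le_max_left _ _))
    omega
  have h2 : (2 * D.g + 1 : ℤ) ≤ Divisor.degree (q • Finsupp.mapDomain D.r D.H) := by
    rw [← show P.Hb = Finsupp.mapDomain D.r D.H from rfl, P.degree_Hb]; exact hq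
  have e1 : ∀ s, ((n + q) • D.H - X s) - q • D.H = n • D.H - X s := fun s => by
    rw [add_nsmul]; abel
  have e2 : ((n + q) • P.Hb - Xb) - q • Finsupp.mapDomain D.r D.H = n • P.Hb - Xb := by
    rw [add_nsmul, Pol.Hb]; abel
  have := isFam_sub D hR (P.fam N hN) (P.fam q (by omega)) (ha (n + q) (by omega)) h2
    (fun s => by
      rw [e1]
      exact le_trans (sub_le_self _ (hX0 s)) (P.nsmul_mono (Nat.le_add_right _ _)))
    (fun s => by rw [e1, e2]; exact hdim s)
  simp only [e1, e2] at this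
  exact this

/-- The residual divisors of a family of functions in `L(mH - X)`. -/
theorem IsGood.residual (hX : IsGood P X Xb) {h : S → F} (hh : IsVec R h) {ψ : Fk}
    (hψ : ∀ s, Reduces π (h s) ψ) (hψ0 : ψ ≠ 0) {m : ℕ}
    (hmem : ∀ s, h s ∈ riemannRochSpace (m • D.H - X s))
    {Eh : S → Divisor K F} (hEh : ∀ s v, Eh s v = v.ord (h s)) {Eψ : Divisor k Fk}
    (hEψ : ∀ v, Eψ v = v.ord ψ) :
    IsGood P (fun s => Eh s + m • D.H - X s) (Eψ + m • P.Hb - Xb) ∧
      ∀ s, 0 ≤ Eh s + m • D.H - X s := by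
  obtain ⟨hXr, a, ha⟩ := hX
  have hh0 : ∀ s, h s ≠ 0 := fun s => (hψ s).ne_zero hψ0
  have hEr : ∀ s, Finsupp.mapDomain D.r (Eh s) = Eψ := fun s => Finsupp.ext fun w => by
    rw [D.compat (h s) ψ (hψ s) hψ0 (Eh s) (hEh s), hEψ]
  have hdegh : ∀ s, Divisor.degree (Eh s) = 0 := fun s => by
    obtain ⟨E, hE, hE0⟩ := D.hF.hasPrincipalDivisors.exists_divisor (h s) (hh0 s)
    rwa [show Eh s = E from Finsupp.ext fun v => by rw [hEh, hE]]
  have hG : ∀ s, 0 ≤ Eh s + m • D.H - X s := fun s => by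
    rw [add_sub_assoc]
    exact zero_le_of_mem (hmem s) (hh0 s) (hEh s)
  have hGr : ∀ s, Finsupp.mapDomain D.r (Eh s + m • D.H - X s) = Eψ + m • P.Hb - Xb := fun s => by
    rw [mapDomain_sub', Finsupp.mapDomain_add, mapDomain_nsmul', hEr, hXr, Pol.Hb]
  refine ⟨⟨hGr, ?_⟩, hG⟩
  obtain ⟨q₀, hq₀⟩ := P.exists_nat (2 * D.g + 1 + Divisor.degree Xb)
  obtain ⟨N', hN'⟩ := P.exists_nat (2 * D.g)
  let q := max (max q₀ a) N'
  obtain ⟨N, hN⟩ :=
    P.exists_nat (2 * D.g + Divisor.degree (Eψ + m • P.Hb - Xb))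
  refine ⟨max N (max N' m), fun n hn => ?_⟩
  obtain ⟨j, rfl⟩ : ∃ j, n = m + j := ⟨n - m, by omega⟩
  have h2 : (2 * D.g + 1 : ℤ) ≤ Divisor.degree (q • P.Hb - Xb) := by
    rw [map_sub, P.degree_Hb]
    have := hq₀ q (by omega)
    omega
  have h3' : IsFam D R (fun s => (q + j) • D.H - Eh s) ((q + j) • P.Hb - Eψ) :=
    isFam_shift D hR (P.fam (q + j) (by have := hN' (q + j) (by omega); omega)) hh hψ
      hψ0 hEh hEψ
  have f1 : ∀ s, ((q + j) • D.H - Eh s) - (q • D.H - X s) =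
      (m + j) • D.H - (Eh s + m • D.H - X s) := fun s => by
    simp only [add_nsmul]; abel
  have f2 : ((q + j) • P.Hb - Eψ) - (q • P.Hb - Xb) =
      (m + j) • P.Hb - (Eψ + m • P.Hb - Xb) := by
    simp only [add_nsmul]; abel
  have := isFam_sub D hR (P.fam (m + j) (by have := hN' (m + j) (by omega); omega)) (ha q (by omega)) h3' h2
    (fun s => by rw [f1]; exact sub_le_self _ (hG s))
    (fun s => by
      rw [f1, f2, ← hGr s, Pol.Hb, ← mapDomain_nsmul', ← mapDomain_sub', D.finrank_eq]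
      rw [map_sub]
      have := hN (m + j) (by omega)
      rw [← hGr s, D.degree_mapDomain] at this
      omega)
  simp only [f1, f2] at this
  exact this

end Basic

/-- A difference of effective good families of degree `g` with one-dimensional space on the
special fibre is equivalent to an effective good family. -/
theorem exists_good_equiv [Infinite k] [Nonempty (Place K F)] {X Y : S → Divisor K F}
    {Xb Yb : Divisor k Fk} (hX : IsGood P X Xb) (hY : IsGood P Y Yb) (hY0 : ∀ s, 0 ≤ Y s)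
    (hdeg : Divisor.degree Xb - Divisor.degree Yb = D.g)
    (hl : Module.finrank k (riemannRochSpace (Xb - Yb)) = 1) :
    ∃ (E : S → Divisor K F) (Eb : Divisor k Fk), IsGood P E Eb ∧ (∀ s, 0 ≤ E s) ∧
      (∀ s, Divisor.IsPrincipal (E s - (X s - Y s))) ∧
      Divisor.IsPrincipal (Eb - (Xb - Yb)) := by
  obtain ⟨hXr, a, ha⟩ := id hX
  obtain ⟨N, hN⟩ := P.exists_nat (2 * D.g + Divisor.degree Xb)
  let n := max a N
  obtain ⟨B⟩ := ha n (le_max_left _ _)
  let s₀ : S := Classical.arbitrary S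
  have hBd : 0 < B.d := by
    rw [← B.dim s₀]
    have hd : (2 * D.g : ℤ) ≤ Divisor.degree (n • D.H - X s₀) := by
      rw [map_sub, hX.degree_eq P hR]
      have := hN n (le_max_right _ _)
      omega
    have := D.hF.finrank_rr _ hd
    omega
  let i₀ : Fin B.d := ⟨0, hBd⟩
  have hh0 : ∀ s, B.u i₀ s ≠ 0 := fun s => (B.red i₀ s).ne_zero (B.indep.ne_zero i₀)
  choose Eh hEh hEh0 using fun s => D.hF.hasPrincipalDivisors.exists_divisor (B.u i₀ s) (hh0 s)
  obtain ⟨Eψ, hEψ, hEψ0⟩ :=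
    D.hk.hasPrincipalDivisors.exists_divisor (B.φ i₀) (B.indep.ne_zero i₀)
  obtain ⟨hG, hG0⟩ := hX.residual P hR (B.vec i₀) (B.red i₀) (B.indep.ne_zero i₀)
    (fun s => B.mem i₀ s) hEh hEψ
  have hZ := hY.add P hR hG
  have hZ0 : ∀ s, 0 ≤ Y s + (Eh s + n • D.H - X s) := fun s => add_nonneg (hY0 s) (hG0 s)
  have e1 : ∀ s, n • D.H - (Y s + (Eh s + n • D.H - X s)) = (X s - Y s) - Eh s := fun s => by abel
  have e2 : n • P.Hb - (Yb + (Eψ + n • P.Hb - Xb)) = (Xb - Yb) - Eψ := by abel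
  have hdim1 : ∀ s, Module.finrank K (riemannRochSpace ((X s - Y s) - Eh s)) = 1 := fun s => by
    refine D.finrank_eq_one ?_ ?_
    · rw [map_sub, map_sub, hEh0, hX.degree_eq P hR, hY.degree_eq P hR]; omega
    · have hr : Finsupp.mapDomain D.r (Eh s) = Eψ := Finsupp.ext fun w => by
        rw [D.compat _ _ (B.red i₀ s) (B.indep.ne_zero i₀) (Eh s) (hEh s), hEψ]
      rw [mapDomain_sub', mapDomain_sub', hXr, hY.1, hr]
      exact (finrank_shift (B.indep.ne_zero i₀) hEψ (Xb - Yb)).trans hl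
  have hdimk : Module.finrank k (riemannRochSpace ((Xb - Yb) - Eψ)) = 1 :=
    (finrank_shift (B.indep.ne_zero i₀) hEψ (Xb - Yb)).trans hl
  obtain ⟨B'⟩ := hZ.isFam P hR hZ0 n (fun s => by rw [e1, e2, hdim1, hdimk])
  have hB'd : B'.d = 1 := by rw [← B'.dim s₀, e1, hdim1]
  let j₀ : Fin B'.d := ⟨0, by omega⟩
  have hu0 : ∀ s, B'.u j₀ s ≠ 0 := fun s => (B'.red j₀ s).ne_zero (B'.indep.ne_zero j₀)
  choose Eu hEu hEu0 using fun s => D.hF.hasPrincipalDivisors.exists_divisor (B'.u j₀ s) (hu0 s)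
  obtain ⟨Eφ, hEφ, hEφ0⟩ :=
    D.hk.hasPrincipalDivisors.exists_divisor (B'.φ j₀) (B'.indep.ne_zero j₀)
  obtain ⟨hE, hE0⟩ := hZ.residual P hR (B'.vec j₀) (B'.red j₀) (B'.indep.ne_zero j₀)
    (fun s => B'.mem j₀ s) hEu hEφ
  refine ⟨_, _, hE, hE0, fun s => ?_, ?_⟩
  · refine ⟨B'.u j₀ s * (B.u i₀ s)⁻¹, mul_ne_zero (hu0 s) (inv_ne_zero (hh0 s)), fun v => ?_⟩
    rw [v.ord_mul (hu0 s) (inv_ne_zero (hh0 s)), v.ord_inv, ← hEu, ← hEh]
    simp only [Finsupp.sub_apply, Finsupp.add_apply]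
    ring
  · refine ⟨B'.φ j₀ * (B.φ i₀)⁻¹,
      mul_ne_zero (B'.indep.ne_zero j₀) (inv_ne_zero (B.indep.ne_zero i₀)), fun v => ?_⟩
    rw [v.ord_mul (B'.indep.ne_zero j₀) (inv_ne_zero (B.indep.ne_zero i₀)), v.ord_inv, ← hEφ,
      ← hEψ]
    simp only [Finsupp.sub_apply, Finsupp.add_apply]
    ring

omit [Nonempty S] hR in
/-- Equivalent effective divisors with one-dimensional space are equal. -/
theorem eq_of_principal_sub {L E : Type*} [Field L] [Field E] [Algebra L E] {X Y : Divisor L E}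
    (hX : 0 ≤ X) (hY : 0 ≤ Y) (h : Divisor.IsPrincipal (X - Y))
    (hl : Module.finrank L (riemannRochSpace Y) = 1) : X = Y := by
  obtain ⟨f, hf, hfd⟩ := h
  have h1 : (1 : E) ∈ riemannRochSpace Y := mem_riemannRochSpace_iff.2 fun v => Or.inr (by
    have := Finsupp.le_def.1 hY v
    simpa using this)
  have hf' : f ∈ riemannRochSpace Y := mem_riemannRochSpace_iff.2 fun v => Or.inr (by
    have h2 := hfd v
    have := Finsupp.le_def.1 hX v
    simp only [Finsupp.sub_apply, Finsupp.zero_apply] at h2 this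
    omega)
  obtain ⟨c, hc⟩ := exists_smul_eq_of_finrank_eq_one hl
    (x := ⟨1, h1⟩) (fun e => one_ne_zero (congrArg Subtype.val e)) ⟨f, hf'⟩
  have hc' : algebraMap L E c = f := by
    have := congrArg Subtype.val hc
    simp only [SetLike.val_smul, Algebra.smul_def, mul_one] at this
    exact this
  ext v
  have h2 := hfd v
  rw [← hc', FF.ord_algebraMap, Finsupp.sub_apply] at h2
  omega

end Fermat.Agent.FlatJ
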