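import Mathlib

/-!
The Hopf algebra of a lattice of functions on a finite abelian group.
-/

set_option autoImplicit false

noncomputable section

open TensorProduct

namespace Fermat.Agent.FlatJ

section Eval

variable {R K : Type*} [CommRing R] [Field K] [Algebra R K]
variable {X Y A B : Type*} [CommRing A] [Algebra R A] [CommRing B] [Algebra R B]

/-- `a ⊗ b ↦ ((x, y) ↦ f a x * g b y)`. -/
def pairEval (f : A →ₐ[R] (X → K)) (g : B →ₐ[R] (Y → K)) : A ⊗[R] B →ₐ[R] (X × Y → K) :=
  Algebra.TensorProduct.lift
    ((AlgHom.pi fun z : X × Y => (Pi.evalAlgHom R (fun _ : X => K) z.1)).comp f)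
    ((AlgHom.pi fun z : X × Y => (Pi.evalAlgHom R (fun _ : Y => K) z.2)).comp g)
    fun _ _ => Commute.all _ _

@[simp]
theorem pairEval_tmul (f : A →ₐ[R] (X → K)) (g : B →ₐ[R] (Y → K)) (a : A) (b : B) (z : X × Y) :
    pairEval f g (a ⊗ₜ b) z = f a z.1 * g b z.2 := by
  simp [pairEval]

theorem linearIndependent_pairEval {ι κ : Type*} (f : A →ₐ[R] (X → K)) (g : B →ₐ[R] (Y → K))
    (bA : Module.Basis ι R A) (bB : Module.Basis κ R B)
    (hA : LinearIndependent K (fun i => f (bA i))) (hB : LinearIndependent K (fun j => g (bB j))) :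
    LinearIndependent K (fun p => pairEval f g (bA.tensorProduct bB p)) := by
  classical
  rw [linearIndependent_iff']
  intro s c hs p hp
  let S := s.image Prod.fst
  let T := s.image Prod.snd
  let c' : ι × κ → K := fun q => if q ∈ s then c q else 0
  have hsub : s ⊆ S ×ˢ T := fun q hq =>
    Finset.mem_product.2 ⟨Finset.mem_image_of_mem _ hq, Finset.mem_image_of_mem _ hq⟩
  have key : ∀ y : Y, ∑ i ∈ S, (∑ j ∈ T, c' (i, j) * g (bB j) y) • f (bA i) = 0 := by
    intro y
    funext x
    have h := congrFun hs (x, y)
    simp only [Finset.sum_apply, Pi.smul_apply, smul_eq_mul, Pi.zero_apply] at h ⊢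
    rw [Finset.sum_congr rfl fun i _ => Finset.sum_mul _ _ _, ← Finset.sum_product',
      ← Finset.sum_subset hsub (fun q _ hq => by simp [c', hq])]
    rw [← h]
    refine Finset.sum_congr rfl fun q hq => ?_
    simp [c', hq, Module.Basis.tensorProduct_apply']
    ring
  have h1 : ∀ i ∈ S, ∑ j ∈ T, c' (i, j) • g (bB j) = 0 := fun i hi => by
    funext y
    simpa using linearIndependent_iff'.1 hA S _ (key y) i hi
  have h2 := linearIndependent_iff'.1 hB T _ (h1 p.1 (Finset.mem_image_of_mem _ hp)) p.2
    (Finset.mem_image_of_mem _ hp)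
  simpa [c', hp] using h2

theorem injective_of_linearIndependent {ι : Type*} (f : A →ₐ[R] (X → K))
    (bA : Module.Basis ι R A) (hinj : Function.Injective (algebraMap R K))
    (hA : LinearIndependent K (fun i => f (bA i))) : Function.Injective f := by
  have h : LinearIndependent R (fun i => f (bA i)) :=
    hA.restrict_scalars (by
      intro a b hab
      apply hinj
      simpa [Algebra.smul_def] using hab)
  have hker : LinearMap.ker f.toLinearMap = ⊥ :=
    LinearMap.ker_eq_bot'.2 fun a ha => by
      have hrepr : Finsupp.linearCombination R (fun i => f (bA i)) (bA.repr a) = 0 := by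
        have := congrArg f (bA.linearCombination_repr a)
        rw [show f a = 0 from ha] at this
        simpa [Finsupp.linearCombination_apply, Finsupp.sum, map_sum, map_smul] using this
      have h0 : bA.repr a = 0 := linearIndependent_iff.1 h _ hrepr
      simpa using congrArg bA.repr.symm h0
  exact LinearMap.ker_eq_bot.1 hker

end Eval

variable {R K : Type} [CommRing R] [Field K] [Algebra R K]
variable {M : Type*} [AddCommGroup M]

/-- A lattice of functions on a finite group, closed under comultiplication. -/
structure FunLattice (R K M : Type*) [CommRing R] [Field K] [Algebra R K] [AddCommGroup M] where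
  /-- the algebra of functions -/
  H : Subalgebra R (M → K)
  inj : Function.Injective (algebraMap R K)
  /-- index of the basis -/
  ι : Type
  /-- a basis -/
  basis : Module.Basis ι R H
  indep : LinearIndependent K (fun i => ((basis i : H) : M → K))
  spans : Submodule.span K (Set.range fun i => ((basis i : H) : M → K)) = ⊤
  comul_mem : ∀ h ∈ H, ∃ t : H ⊗[R] H, ∀ x y, pairEval H.val H.val t (x, y) = h (x + y)
  counit_mem : ∀ h ∈ H, h 0 ∈ Set.range (algebraMap R K)
  neg_mem : ∀ h ∈ H, (fun x => h (-x)) ∈ H

namespace FunLattice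

variable (T : FunLattice R K M)

theorem pair_injective : Function.Injective (pairEval T.H.val T.H.val) :=
  injective_of_linearIndependent _ (T.basis.tensorProduct T.basis) T.inj
    (linearIndependent_pairEval _ _ _ _ T.indep T.indep)

theorem triple_injective :
    Function.Injective (pairEval T.H.val (pairEval T.H.val T.H.val)) :=
  injective_of_linearIndependent _ (T.basis.tensorProduct (T.basis.tensorProduct T.basis)) T.inj
    (linearIndependent_pairEval _ _ _ _ T.indep
      (linearIndependent_pairEval _ _ _ _ T.indep T.indep))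

/-- translation as a map into functions on `M × M` -/
def addEval : T.H →ₐ[R] (M × M → K) :=
  (AlgHom.pi fun z : M × M => Pi.evalAlgHom R (fun _ : M => K) (z.1 + z.2)).comp T.H.val

theorem addEval_mem_range (h : T.H) :
    T.addEval h ∈ (pairEval T.H.val T.H.val).range := by
  obtain ⟨t, ht⟩ := T.comul_mem h h.2
  exact ⟨t, funext fun z => ht z.1 z.2⟩

def comulHom : T.H →ₐ[R] T.H ⊗[R] T.H :=
  (AlgEquiv.ofInjective _ T.pair_injective).symm.toAlgHom.comp
    (T.addEval.codRestrict _ T.addEval_mem_range)

theorem pairEval_comulHom (h : T.H) (x y : M) :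
    pairEval T.H.val T.H.val (T.comulHom h) (x, y) = (h : M → K) (x + y) := by
  have : (AlgEquiv.ofInjective _ T.pair_injective) (T.comulHom h) =
      T.addEval.codRestrict _ T.addEval_mem_range h := AlgEquiv.apply_symm_apply _ _
  exact congrFun (congrArg Subtype.val this) (x, y)

def evalAt (x : M) : T.H →ₐ[R] K := (Pi.evalAlgHom R (fun _ : M => K) x).comp T.H.val

@[simp] theorem evalAt_apply (x : M) (h : T.H) : T.evalAt x h = (h : M → K) x := rfl

def counitHom : T.H →ₐ[R] R :=
  (AlgEquiv.ofInjective (Algebra.ofId R K) T.inj).symm.toAlgHom.comp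
    ((T.evalAt 0).codRestrict _ fun h => by
      obtain ⟨r, hr⟩ := T.counit_mem h h.2
      exact ⟨r, hr⟩)

theorem algebraMap_counitHom (h : T.H) : algebraMap R K (T.counitHom h) = (h : M → K) 0 := by
  have : (AlgEquiv.ofInjective (Algebra.ofId R K) T.inj) (T.counitHom h) = _ :=
    AlgEquiv.apply_symm_apply _ _
  exact congrArg Subtype.val this

def antipodeHom : T.H →ₐ[R] T.H :=
  ((AlgHom.pi fun x : M => Pi.evalAlgHom R (fun _ : M => K) (-x)).comp T.H.val).codRestrict
    T.H fun h => T.neg_mem h h.2

theorem antipodeHom_apply (h : T.H) (x : M) : (T.antipodeHom h : M → K) x = (h : M → K) (-x) :=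
  rfl

theorem ext_pair {a b : T.H ⊗[R] T.H}
    (h : ∀ x y, pairEval T.H.val T.H.val a (x, y) = pairEval T.H.val T.H.val b (x, y)) : a = b :=
  T.pair_injective (funext fun z => h z.1 z.2)

theorem pairEval_map_left {B : Type*} [CommRing B] [Algebra R B] {Y : Type*}
    (g : B →ₐ[R] (Y → K)) (t : T.H ⊗[R] B) (x : M) (y : Y) :
    pairEval T.H.val g t (x, y) =
      Algebra.TensorProduct.lift (T.evalAt x)
        ((Pi.evalAlgHom R (fun _ : Y => K) y).comp g) (fun _ _ => Commute.all _ _) t := by
  induction t using TensorProduct.induction_on with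
  | zero => simp
  | tmul a b => simp
  | add a b ha hb => simp [map_add, ha, hb]

theorem coassoc :
    (Algebra.TensorProduct.assoc R R R T.H T.H T.H).toAlgHom.comp
        ((Algebra.TensorProduct.map T.comulHom (.id R T.H)).comp T.comulHom) =
      (Algebra.TensorProduct.map (.id R T.H) T.comulHom).comp T.comulHom := by
  refine AlgHom.ext fun h => T.triple_injective (funext fun ⟨x, y, z⟩ => ?_)
  simp only [AlgHom.comp_apply]
  have hl : ∀ t : T.H ⊗[R] T.H, pairEval T.H.val (pairEval T.H.val T.H.val)
      ((Algebra.TensorProduct.assoc R R R T.H T.H T.H).toAlgHom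
        (Algebra.TensorProduct.map T.comulHom (.id R T.H) t)) (x, y, z) =
      pairEval T.H.val T.H.val t (x + y, z) := by
    intro t
    induction t using TensorProduct.induction_on with
    | zero => simp
    | add a b ha hb => simp only [map_add, Pi.add_apply, ha, hb]
    | tmul a b =>
      rw [Algebra.TensorProduct.map_tmul, pairEval_tmul]
      have : ∀ u : T.H ⊗[R] T.H, pairEval T.H.val (pairEval T.H.val T.H.val)
          ((Algebra.TensorProduct.assoc R R R T.H T.H T.H).toAlgHom (u ⊗ₜ b)) (x, y, z) =
            pairEval T.H.val T.H.val u (x, y) * (b : M → K) z := by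
        intro u
        induction u using TensorProduct.induction_on with
        | zero => simp
        | add a c ha hc => simp only [TensorProduct.add_tmul, map_add, Pi.add_apply, ha, hc]; ring
        | tmul a c => simp [mul_assoc]
      simp only [AlgHom.id_apply, this, T.pairEval_comulHom, Subalgebra.coe_val]
  have hr : ∀ t : T.H ⊗[R] T.H, pairEval T.H.val (pairEval T.H.val T.H.val)
      (Algebra.TensorProduct.map (.id R T.H) T.comulHom t) (x, y, z) =
      pairEval T.H.val T.H.val t (x, y + z) := by
    intro t
    induction t using TensorProduct.induction_on with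
    | zero => simp
    | add a b ha hb => simp only [map_add, Pi.add_apply, ha, hb]
    | tmul a b => simp [T.pairEval_comulHom]
  rw [hl, hr, T.pairEval_comulHom, T.pairEval_comulHom, add_assoc]

theorem rTensor_counit :
    (Algebra.TensorProduct.map T.counitHom (.id R T.H)).comp T.comulHom =
      (Algebra.TensorProduct.lid R T.H).symm := by
  refine AlgHom.ext fun h => (Algebra.TensorProduct.lid R T.H).injective ?_
  simp only [AlgHom.comp_apply, AlgEquiv.coe_toAlgHom, AlgEquiv.apply_symm_apply]
  refine Subtype.ext (funext fun y => ?_)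
  have : ∀ t : T.H ⊗[R] T.H,
      ((Algebra.TensorProduct.lid R T.H
        (Algebra.TensorProduct.map T.counitHom (.id R T.H) t) : T.H) : M → K) y =
      pairEval T.H.val T.H.val t (0, y) := by
    intro t
    induction t using TensorProduct.induction_on with
    | zero => simp
    | add a b ha hb => simp only [map_add, Subalgebra.coe_add, Pi.add_apply, ha, hb]
    | tmul a b => simp [Algebra.smul_def, T.algebraMap_counitHom]
  rw [this, T.pairEval_comulHom, zero_add]

theorem comulHom_comm (h : T.H) :
    TensorProduct.comm R T.H T.H (T.comulHom h) = T.comulHom h := by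
  refine T.ext_pair fun x y => ?_
  have : ∀ t : T.H ⊗[R] T.H, pairEval T.H.val T.H.val (TensorProduct.comm R T.H T.H t) (x, y) =
      pairEval T.H.val T.H.val t (y, x) := by
    intro t
    induction t using TensorProduct.induction_on with
    | zero => simp
    | add a b ha hb => simp only [map_add, Pi.add_apply, ha, hb]
    | tmul a b => simp [mul_comm]
  rw [this, T.pairEval_comulHom, T.pairEval_comulHom, add_comm]

theorem lTensor_counit :
    (Algebra.TensorProduct.map (.id R T.H) T.counitHom).comp T.comulHom =
      (Algebra.TensorProduct.rid R R T.H).symm := by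
  refine AlgHom.ext fun h => (Algebra.TensorProduct.rid R R T.H).injective ?_
  simp only [AlgHom.comp_apply, AlgEquiv.coe_toAlgHom, AlgEquiv.apply_symm_apply]
  refine Subtype.ext (funext fun x => ?_)
  have : ∀ t : T.H ⊗[R] T.H,
      ((Algebra.TensorProduct.rid R R T.H
        (Algebra.TensorProduct.map (.id R T.H) T.counitHom t) : T.H) : M → K) x =
      pairEval T.H.val T.H.val t (x, 0) := by
    intro t
    induction t using TensorProduct.induction_on with
    | zero => simp
    | add a b ha hb => simp only [map_add, Subalgebra.coe_add, Pi.add_apply, ha, hb]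
    | tmul a b => simp [Algebra.smul_def, T.algebraMap_counitHom, mul_comm]
  rw [this, T.pairEval_comulHom, add_zero]

@[implicit_reducible]
def bialgebra : Bialgebra R T.H :=
  Bialgebra.ofAlgHom T.comulHom T.counitHom T.coassoc T.rTensor_counit T.lTensor_counit

theorem antipode_left :
    (Algebra.TensorProduct.lift T.antipodeHom (.id R T.H) fun _ _ => Commute.all _ _).comp
        T.comulHom = (Algebra.ofId R T.H).comp T.counitHom := by
  refine AlgHom.ext fun h => Subtype.ext (funext fun x => ?_)
  have : ∀ t : T.H ⊗[R] T.H,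
      ((Algebra.TensorProduct.lift T.antipodeHom (.id R T.H) (fun _ _ => Commute.all _ _) t :
        T.H) : M → K) x = pairEval T.H.val T.H.val t (-x, x) := by
    intro t
    induction t using TensorProduct.induction_on with
    | zero => simp
    | add a b ha hb => simp only [map_add, Subalgebra.coe_add, Pi.add_apply, ha, hb]
    | tmul a b => simp [T.antipodeHom_apply]
  simp only [AlgHom.comp_apply, this, T.pairEval_comulHom, neg_add_cancel]
  simp [Algebra.ofId_apply, T.algebraMap_counitHom]

theorem antipode_right :
    (Algebra.TensorProduct.lift (.id R T.H) T.antipodeHom fun _ _ => Commute.all _ _).comp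
        T.comulHom = (Algebra.ofId R T.H).comp T.counitHom := by
  refine AlgHom.ext fun h => Subtype.ext (funext fun x => ?_)
  have : ∀ t : T.H ⊗[R] T.H,
      ((Algebra.TensorProduct.lift (.id R T.H) T.antipodeHom (fun _ _ => Commute.all _ _) t :
        T.H) : M → K) x = pairEval T.H.val T.H.val t (x, -x) := by
    intro t
    induction t using TensorProduct.induction_on with
    | zero => simp
    | add a b ha hb => simp only [map_add, Subalgebra.coe_add, Pi.add_apply, ha, hb]
    | tmul a b => simp [T.antipodeHom_apply]
  simp only [AlgHom.comp_apply, this, T.pairEval_comulHom, add_neg_cancel]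
  simp [Algebra.ofId_apply, T.algebraMap_counitHom]

@[implicit_reducible]
def hopfAlgebra : HopfAlgebra R T.H :=
  letI := T.bialgebra
  HopfAlgebra.ofAlgHom T.antipodeHom T.antipode_left T.antipode_right

theorem isCocomm :
    letI := T.hopfAlgebra
    Coalgebra.IsCocomm R T.H := by
  letI := T.hopfAlgebra
  exact ⟨LinearMap.ext fun h => T.comulHom_comm h⟩

theorem evalAt_injective : Function.Injective T.evalAt := by
  classical
  intro x y hxy
  by_contra hne
  have hle : Submodule.span K (Set.range fun i => ((T.basis i : T.H) : M → K)) ≤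
      LinearMap.ker (LinearMap.proj (R := K) (φ := fun _ : M => K) x - LinearMap.proj y) := by
    rw [Submodule.span_le]
    rintro _ ⟨i, rfl⟩
    simpa [sub_eq_zero] using AlgHom.congr_fun hxy (T.basis i)
  rw [T.spans] at hle
  simpa [sub_eq_zero, hne, Ne.symm hne] using
    hle (x := Pi.single x (1 : K)) trivial

theorem evalAt_surjective [Finite M] : Function.Surjective T.evalAt := by
  classical
  intro φ
  cases nonempty_fintype M
  let bK : Module.Basis T.ι K (M → K) := Module.Basis.mk T.indep T.spans.ge
  let Φ : (M → K) →ₗ[K] K := bK.constr K fun i => φ (T.basis i)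
  have hΦ : ∀ h : T.H, Φ (h : M → K) = φ h := by
    intro h
    conv_lhs => rw [← T.basis.linearCombination_repr h]
    conv_rhs => rw [← T.basis.linearCombination_repr h]
    simp only [Finsupp.linearCombination_apply, Finsupp.sum, AddSubmonoidClass.coe_finsetSum,
      map_sum, Subalgebra.coe_smul, map_smul]
    refine Finset.sum_congr rfl fun i _ => ?_
    have hb : Φ ((T.basis i : T.H) : M → K) = φ (T.basis i) := by
      conv_lhs => rw [show ((T.basis i : T.H) : M → K) = bK i from
        (congrFun (Module.Basis.coe_mk T.indep T.spans.ge) i).symm]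
      exact bK.constr_basis K _ i
    rw [← algebraMap_smul K (T.basis.repr h i) ((T.basis i : T.H) : M → K), map_smul, hb,
      algebraMap_smul]
  have hbij : ∀ i j, Φ (((T.basis i : T.H) : M → K) * ((T.basis j : T.H) : M → K)) =
      Φ ((T.basis i : T.H) : M → K) * Φ ((T.basis j : T.H) : M → K) := by
    intro i j
    rw [← Subalgebra.coe_mul, hΦ, hΦ, hΦ, map_mul]
  have hmul : ∀ u v : M → K, Φ (u * v) = Φ u * Φ v := by
    have : (LinearMap.mul K (M → K)).compr₂ Φ = (LinearMap.mul K K).compl₁₂ Φ Φ := by
      refine bK.ext fun i => bK.ext fun j => ?_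
      simpa [bK] using hbij i j
    intro u v
    exact LinearMap.congr_fun₂ this u v
  have hone : Φ 1 = 1 := by simpa using hΦ 1
  have hsum : ∑ x : M, Φ (Pi.single x 1) = 1 := by
    rw [← map_sum]
    have h1 : ∑ x : M, Pi.single x (1 : K) = (1 : M → K) := by
      funext y
      simp [Finset.sum_apply, Pi.single_apply]
    rw [h1, hone]
  obtain ⟨x, hx⟩ : ∃ x, Φ (Pi.single x 1) ≠ 0 := by
    by_contra hall
    push Not at hall
    simp [hall] at hsum
  have hidem := hmul (Pi.single x (1 : K)) (Pi.single x 1)
  rw [show (Pi.single x (1 : K) : M → K) * Pi.single x 1 = Pi.single x 1 by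
    funext y; by_cases hy : y = x <;> simp [hy]] at hidem
  have hx1 : Φ (Pi.single x 1) = 1 := mul_left_cancel₀ hx (by rw [mul_one, ← hidem])
  refine ⟨x, AlgHom.ext fun h => ?_⟩
  have h2 := hmul (h : M → K) (Pi.single x 1)
  rw [show (h : M → K) * Pi.single x (1 : K) = ((h : M → K) x) • Pi.single x (1 : K) by
    funext y; by_cases hy : y = x <;> simp [hy], map_smul, hx1, hΦ] at h2
  simpa using h2

def pointsEquiv [Finite M] : M ≃ WithConv (T.H →ₐ[R] K) :=
  (Equiv.ofBijective T.evalAt ⟨T.evalAt_injective, T.evalAt_surjective⟩).trans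
    ⟨WithConv.toConv, WithConv.ofConv, fun _ => rfl, fun _ => rfl⟩

@[simp]
theorem pointsEquiv_apply [Finite M] (x : M) (h : T.H) :
    T.pointsEquiv x h = (h : M → K) x := rfl

theorem pointsEquiv_add [Finite M] (x y : M) :
    letI := T.hopfAlgebra
    T.pointsEquiv (x + y) = T.pointsEquiv x * T.pointsEquiv y := by
  letI := T.hopfAlgebra
  refine WithConv.ext (AlgHom.ext fun h => ?_)
  show (h : M → K) (x + y) = (T.pointsEquiv x * T.pointsEquiv y) h
  rw [AlgHom.convMul_apply, ← T.pairEval_comulHom h x y, T.pairEval_map_left]
  rfl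

theorem finite [Finite M] : Module.Finite R T.H :=
  have : Finite T.ι :=
    Module.Finite.finite_basis (Module.Basis.mk T.indep T.spans.ge)
  Module.Finite.of_basis T.basis

theorem flat : Module.Flat R T.H :=
  have := Module.Free.of_basis T.basis
  inferInstance

theorem smul_eq_of_equivariant [Finite M] {G : Type*} (act : G → M → M) (gal : G → K → K)
    (heq : ∀ h ∈ T.H, ∀ g x, h (act g x) = gal g (h x)) (g : G) (φ ψ : WithConv (T.H →ₐ[R] K))
    (hφψ : ∀ h : T.H, ψ h = gal g (φ h)) :
    T.pointsEquiv.symm ψ = act g (T.pointsEquiv.symm φ) := by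
  rw [Equiv.symm_apply_eq]
  refine WithConv.ext (AlgHom.ext fun h => ?_)
  show ψ h = (h : M → K) (act g (T.pointsEquiv.symm φ))
  rw [heq h h.2, hφψ, ← T.pointsEquiv_apply, Equiv.apply_symm_apply]

end FunLattice

end Fermat.Agent.FlatJ
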