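import Fermat.Agent.FlatJ.Classes
import Fermat.Agent.FlatJ.Descent

/-!
A finite Galois level for the charts, and the lattice of coordinate functions.
-/

set_option autoImplicit false
set_option linter.unusedSectionVars false
set_option linter.unusedVariables false
set_option synthInstance.maxHeartbeats 400000
set_option maxHeartbeats 800000

noncomputable section

open AlgebraicCurve ModularCurve

namespace Fermat.Agent.FlatJ

variable {F₀ : IntermediateField ℚ (LaurentSeries ℚ)}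
variable {A : ValuationSubring Qb} {k : Type} [Field k] {π : A →+* k}
  {Fk : Type} [Field Fk] [Algebra k Fk] [LaurentEmb k Fk]
variable {D : RedSetup A π (laurentBaseChange Qb F₀) Fk}
variable {N : AddSubgroup (Pic0 Qb (laurentBaseChange Qb F₀))}

theorem gal_nsmul_H {P : FixedPol F₀} (hP : D.H = P.H) (n : ℕ) (σ : Gam) :
    gact F₀ σ • (n • D.H) = n • D.H := by
  rw [hP]
  exact P.fix_nsmul n σ

theorem gal_nonneg {X : Divisor Qb (laurentBaseChange Qb F₀)} (h : 0 ≤ X) (σ : Gam) :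
    0 ≤ gact F₀ σ • X :=
  Finsupp.le_def.2 fun v => by
    rw [SemilinearAut.divisor_smul_apply]
    exact Finsupp.le_def.1 h _

theorem coeff_red {f : laurentBaseChange Qb F₀} {ψ : Fk} (h : Reduces π f ψ) (t : ℤ) :
    π ⟨(emb f).coeff t, h.coeff_mem t⟩ = (emb ψ).coeff t := by
  obtain ⟨y, hy, hy'⟩ := id h
  rw [← hy', coeffMap_coeff]
  congr 1
  apply Subtype.ext
  show (emb f).coeff t = _
  rw [← hy]
  rfl

namespace Charts

variable (C : Charts D N)

theorem e_gal {σ : Gam} {P : FixedPol F₀} (hP : D.H = P.H) {x y : N}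
    (h : gact F₀ σ • C.E x = C.E y) (i : Fin C.nb.d) : gact F₀ σ • C.e i x = C.e i y := by
  refine (C.e_normal y).eq_of_coeff ?_ fun j => ?_
  · have := gal_mem_rr (σ := σ) ((C.e_normal x).mem i)
    rwa [smul_sub, gal_nsmul_H hP, h] at this
  · rw [emb_gal, coeffMap_coeff, (C.e_normal x).coeff, Matrix.one_apply]
    split_ifs <;> simp

theorem E_gal_inertia (hN : ∀ σ : Gam, ∀ x ∈ N, σ • x ∈ N) {P : FixedPol F₀} (hP : D.H = P.H)
    {σ : Gam} (hσ : σ ∈ A.inertiaSubgroupIn ℚ) (x : N) :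
    gact F₀ σ • C.E x = C.E (galN hN σ x) := by
  refine C.eq_E (gal_nonneg (C.E_eff x) σ) ?_
  rw [clsOf_gal_inertia hN (compat_inertia D.surj hσ) P hP]
  refine ((C.E_rel x).gal σ).trans ?_
  rw [smul_sub, smul_add, C.B_fix _ σ hσ, gal_nsmul_H hP]
  exact ((repDiv_gal hN σ x).symm.add (Lin.refl _)).sub (Lin.refl _)

end Charts

/-- A finite Galois extension over which the points, the charts and their shifts are defined. -/
structure IsLevel (C : Charts D N) (L : IntermediateField ℚ Qb) : Prop where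
  gal_fix : ∀ σ ∈ L.fixingSubgroup, ∀ x : N,
    σ • (x : Pic0 Qb (laurentBaseChange Qb F₀)) = (x : Pic0 Qb (laurentBaseChange Qb F₀))
  B_fix : ∀ σ ∈ L.fixingSubgroup, ∀ q, gact F₀ σ • C.B q = C.B q
  E_fix : ∀ σ ∈ L.fixingSubgroup, ∀ x, gact F₀ σ • C.E x = C.E x
  fin : FiniteDimensional ℚ L
  normal : Normal ℚ L

theorem exists_level [Finite N] (C : Charts D N) (P : FixedPol F₀) :
    ∃ L : IntermediateField ℚ Qb, IsLevel C L := by
  classical
  let f : (N ⊕ Cls D N) ⊕ N → Divisor Qb (laurentBaseChange Qb F₀) :=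
    Sum.elim (Sum.elim (fun x => repDiv N x) C.B) C.E
  choose K hK hfix using fun i => exists_fix_divisor D.hF P (f i)
  have := hK
  let M : IntermediateField ℚ Qb := ⨆ i, K i
  have : FiniteDimensional ℚ M := IntermediateField.finiteDimensional_iSup_of_finite
  refine ⟨IntermediateField.normalClosure ℚ M Qb, ⟨fun σ hσ x => ?_, fun σ hσ q => ?_,
    fun σ hσ x => ?_, normalClosure.is_finiteDimensional ℚ M Qb, normalClosure.normal ℚ M Qb⟩⟩
  all_goals
    have hle : ∀ i, σ ∈ (K i).fixingSubgroup := fun i =>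
      IntermediateField.fixingSubgroup_antitone
        ((le_iSup K i).trans (IntermediateField.le_normalClosure M)) hσ
  · rw [← mk_repDiv x, galois_smul_pic0_def, SemilinearAut.pic0_smul_mk]
    exact congrArg Pic0.mk (Subtype.ext (hfix (.inl (.inl x)) σ (hle _)))
  · exact hfix (.inl (.inr q)) σ (hle _)
  · exact hfix (.inr x) σ (hle _)

/-! ### Functions on the level -/

section Funs

instance (L : IntermediateField ℚ Qb) : Algebra.IsAlgebraic ℚ L :=
  ⟨fun x => IntermediateField.isAlgebraic_iff.2 ((AlgebraicClosure.isAlgebraic ℚ).isAlgebraic x)⟩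

variable {C : Charts D N} {L : IntermediateField ℚ Qb} (hL : IsLevel C L)

include hL in
theorem galN_congr (hN : ∀ σ : Gam, ∀ x ∈ N, σ • x ∈ N) {σ τ : Gam}
    (h : ∀ a : L, σ (a : Qb) = τ (a : Qb)) (x : N) : galN hN σ x = galN hN τ x := by
  have hmem : σ⁻¹ * τ ∈ L.fixingSubgroup := (IntermediateField.mem_fixingSubgroup_iff _ _).2
    fun a ha => by
      rw [AlgEquiv.mul_apply, ← h ⟨a, ha⟩]
      exact σ.symm_apply_apply a
  have h1 : galN hN (σ⁻¹ * τ) x = x := Subtype.ext (hL.gal_fix _ hmem x)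
  conv_lhs => rw [← h1, ← galN_mul, mul_inv_cancel_left]

/-- the action of the Galois group of the level -/
@[reducible] def levelAction (hN : ∀ σ : Gam, ∀ x ∈ N, σ • x ∈ N) [Normal ℚ L] :
    DistribMulAction (L ≃ₐ[ℚ] L) N where
  smul τ x := galN hN (τ.liftNormal Qb) x
  one_smul x := by
    show galN hN _ x = x
    rw [galN_congr hL hN (τ := 1) (fun a => by rw [liftNormal_coe]; rfl), galN_one]
  mul_smul σ τ x := by
    show galN hN _ x = galN hN _ (galN hN _ x)
    rw [← galN_mul]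
    exact galN_congr hL hN (fun a => by
      rw [liftNormal_coe, AlgEquiv.mul_apply, AlgEquiv.mul_apply, liftNormal_coe, liftNormal_coe]) x
  smul_zero τ := galN_zero hN _
  smul_add τ := galN_add hN _

theorem coeff_mem_level {P : FixedPol F₀} (hP : D.H = P.H) (hL : IsLevel C L) (i : Fin C.nb.d)
    (x : N) (t : ℤ) : (emb (C.e i x)).coeff t ∈ L := by
  rw [← InfiniteGalois.fixedField_fixingSubgroup L]
  intro σ
  exact (gal_fix_iff (σ : Gam) _).1 (C.e_gal hP (hL.E_fix σ σ.2 x) i) t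

open Classical in
/-- the coordinate functions -/
def gens (hP : ∃ P : FixedPol F₀, D.H = P.H) : Set (N → L) :=
  {u | ∃ a ∈ inertRing (A.comap (algebraMap L Qb)), u = fun _ => a} ∪
  {u | ∃ q : Cls D N, u = fun x => if clsOf D N x = q then 1 else 0} ∪
  {u | ∃ (i : Fin C.nb.d) (t : ℤ),
    u = fun x => ⟨(emb (C.e i x)).coeff t, coeff_mem_level hP.choose_spec hL i x t⟩}

/-- the lattice of coordinate functions -/
def latS (hP : ∃ P : FixedPol F₀, D.H = P.H) : Subring (N → L) :=
  Subring.closure (gens hL hP)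

variable (hP : ∃ P : FixedPol F₀, D.H = P.H)

theorem const_mem_latS {a : L} (ha : a ∈ inertRing (A.comap (algebraMap L Qb))) :
    (fun _ => a) ∈ latS hL hP :=
  Subring.subset_closure (Or.inl (Or.inl ⟨a, ha, rfl⟩))

open Classical in
theorem ind_mem_latS (q : Cls D N) :
    (fun x => if clsOf D N x = q then 1 else 0 : N → L) ∈ latS hL hP :=
  Subring.subset_closure (Or.inl (Or.inr ⟨q, rfl⟩))

theorem coord_mem_latS (i : Fin C.nb.d) (t : ℤ) :
    ∃ u ∈ latS hL hP, ∀ x, (u x : Qb) = (emb (C.e i x)).coeff t :=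
  ⟨_, Subring.subset_closure (Or.inr ⟨i, t, rfl⟩), fun x => rfl⟩

open Classical in
theorem latS_val {u : N → L} (hu : u ∈ latS hL hP) (x : N) : (u x : Qb) ∈ A := by
  induction hu using Subring.closure_induction with
  | mem u hu =>
    rcases hu with (⟨a, ha, rfl⟩ | ⟨q, rfl⟩) | ⟨i, t, rfl⟩
    · exact ha.1
    · dsimp only
      split_ifs <;> simp
    · exact ((C.e_normal x).red i).coeff_mem t
  | zero => simp
  | one => simp
  | add u v _ _ hu hv => simpa using add_mem hu hv
  | neg u _ hu => simpa using neg_mem hu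
  | mul u v _ _ hu hv => simpa using mul_mem hu hv

open Classical in
theorem latS_res {u : N → L} (hu : u ∈ latS hL hP) {x y : N}
    (h : clsOf D N x = clsOf D N y) :
    π ⟨u x, latS_val hL hP hu x⟩ = π ⟨u y, latS_val hL hP hu y⟩ := by
  induction hu using Subring.closure_induction with
  | mem u hu =>
    rcases hu with (⟨a, ha, rfl⟩ | ⟨q, rfl⟩) | ⟨i, t, rfl⟩
    · rfl
    · congr 1
      apply Subtype.ext
      show (((if clsOf D N x = q then 1 else 0) : L) : Qb) = ((if clsOf D N y = q then 1 else 0 : L) : Qb)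
      rw [h]
    · exact (coeff_red ((C.e_normal x).red i) t).trans (coeff_red ((C.e_normal y).red i) t).symm
  | zero => rfl
  | one => rfl
  | add u v hu' hv' hu hv =>
    have e : ∀ z (w : ((u + v) z : Qb) ∈ A), π ⟨(u + v) z, w⟩ =
        π ⟨u z, latS_val hL hP hu' z⟩ + π ⟨v z, latS_val hL hP hv' z⟩ := fun z w => by
      rw [← map_add]; rfl
    rw [e, e, hu, hv]
  | neg u hu' hu =>
    have e : ∀ z (w : ((-u) z : Qb) ∈ A), π ⟨(-u) z, w⟩ = -π ⟨u z, latS_val hL hP hu' z⟩ :=
      fun z w => by rw [← map_neg]; rfl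
    rw [e, e, hu]
  | mul u v hu' hv' hu hv =>
    have e : ∀ z (w : ((u * v) z : Qb) ∈ A), π ⟨(u * v) z, w⟩ =
        π ⟨u z, latS_val hL hP hu' z⟩ * π ⟨v z, latS_val hL hP hv' z⟩ := fun z w => by
      rw [← map_mul]; rfl
    rw [e, e, hu, hv]

open Classical in
theorem latS_equiv [Normal ℚ L] (hN : ∀ σ : Gam, ∀ x ∈ N, σ • x ∈ N) {ℓ : ℕ}
    (hA : A.LiesOverPrime ℓ) (hℓ : ℓ.Prime) {u : N → L} (hu : u ∈ latS hL hP) {η : L ≃ₐ[ℚ] L}
    (hη : η ∈ inertG (A.comap (algebraMap L Qb))) (x : N) :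
    u (galN hN (η.liftNormal Qb) x) = η (u x) := by
  obtain ⟨P, hPH⟩ := id hP
  obtain ⟨σ, hσ, hση⟩ := exists_inertia_lift hA hℓ hη
  have hg : galN hN (η.liftNormal Qb) x = galN hN σ x :=
    galN_congr hL hN (fun a => by rw [liftNormal_coe, hση]) x
  have hcls := clsOf_gal_inertia hN (compat_inertia D.surj hσ) P hPH x
  rw [hg]
  induction hu using Subring.closure_induction with
  | mem u hu =>
    rcases hu with (⟨a, ha, rfl⟩ | ⟨q, rfl⟩) | ⟨i, t, rfl⟩
    · exact (ha.2 η hη).symm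
    · dsimp only
      rw [hcls]
      split_ifs <;> simp
    · apply Subtype.ext
      rw [← hση]
      show (emb (C.e i (galN hN σ x))).coeff t = σ ((emb (C.e i x)).coeff t)
      rw [← C.e_gal hPH (C.E_gal_inertia hN hPH hσ x) i, emb_gal, coeffMap_coeff]
      rfl
  | zero => simp
  | one => simp
  | add u v _ _ hu hv => simp [hu, hv]
  | neg u _ hu => simp [hu]
  | mul u v _ _ hu hv => simp [hu, hv]

theorem pairRing_val {u : N × N → L} (hu : u ∈ pairRing (latS hL hP)) (z : N × N) :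
    (u z : Qb) ∈ A := by
  induction hu using Subring.closure_induction with
  | mem u hu =>
    rcases hu with ⟨f, hf, rfl⟩ | ⟨f, hf, rfl⟩
    · exact latS_val hL hP hf z.1
    · exact latS_val hL hP hf z.2
  | zero => simp
  | one => simp
  | add u v _ _ hu hv => simpa using add_mem hu hv
  | neg u _ hu => simpa using neg_mem hu
  | mul u v _ _ hu hv => simpa using mul_mem hu hv

theorem pairRing_res {u : N × N → L} (hu : u ∈ pairRing (latS hL hP)) {z w : N × N}
    (h₁ : clsOf D N z.1 = clsOf D N w.1) (h₂ : clsOf D N z.2 = clsOf D N w.2) :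
    π ⟨u z, pairRing_val hL hP hu z⟩ = π ⟨u w, pairRing_val hL hP hu w⟩ := by
  induction hu using Subring.closure_induction with
  | mem u hu =>
    rcases hu with ⟨f, hf, rfl⟩ | ⟨f, hf, rfl⟩
    · exact latS_res hL hP hf h₁
    · exact latS_res hL hP hf h₂
  | zero => rfl
  | one => rfl
  | add u v hu' hv' hu hv =>
    have e : ∀ z (w : ((u + v) z : Qb) ∈ A), π ⟨(u + v) z, w⟩ =
        π ⟨u z, pairRing_val hL hP hu' z⟩ + π ⟨v z, pairRing_val hL hP hv' z⟩ := fun z w => by
      rw [← map_add]; rfl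
    rw [e, e, hu, hv]
  | neg u hu' hu =>
    have e : ∀ z (w : ((-u) z : Qb) ∈ A), π ⟨(-u) z, w⟩ = -π ⟨u z, pairRing_val hL hP hu' z⟩ :=
      fun z w => by rw [← map_neg]; rfl
    rw [e, e, hu]
  | mul u v hu' hv' hu hv =>
    have e : ∀ z (w : ((u * v) z : Qb) ∈ A), π ⟨(u * v) z, w⟩ =
        π ⟨u z, pairRing_val hL hP hu' z⟩ * π ⟨v z, pairRing_val hL hP hv' z⟩ := fun z w => by
      rw [← map_mul]; rfl
    rw [e, e, hu, hv]

theorem pairRing_equiv [Normal ℚ L] (hN : ∀ σ : Gam, ∀ x ∈ N, σ • x ∈ N) {ℓ : ℕ}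
    (hA : A.LiesOverPrime ℓ) (hℓ : ℓ.Prime) {u : N × N → L} (hu : u ∈ pairRing (latS hL hP))
    {η : L ≃ₐ[ℚ] L} (hη : η ∈ inertG (A.comap (algebraMap L Qb))) (z : N × N) :
    u (galN hN (η.liftNormal Qb) z.1, galN hN (η.liftNormal Qb) z.2) = η (u z) := by
  induction hu using Subring.closure_induction with
  | mem u hu =>
    rcases hu with ⟨f, hf, rfl⟩ | ⟨f, hf, rfl⟩
    · exact latS_equiv hL hP hN hA hℓ hf hη z.1
    · exact latS_equiv hL hP hN hA hℓ hf hη z.2
  | zero => simp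
  | one => simp
  | add u v _ _ hu hv => simp [hu, hv]
  | neg u _ hu => simp [hu]
  | mul u v _ _ hu hv => simp [hu, hv]

end Funs

end Fermat.Agent.FlatJ
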