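import Fermat.Agent.FlatJ.Setup
import Fermat.Agent.FlatJ.LinAlg
import Fermat.Prelude.Def_ModularCurve_ArithmeticGalois

/-!
The Galois action on a base-changed field of Laurent series and on its reduction.
-/

set_option autoImplicit false
set_option linter.unusedSectionVars false
set_option linter.unusedVariables false
set_option synthInstance.maxHeartbeats 400000
set_option maxHeartbeats 800000

noncomputable section

open AlgebraicCurve ModularCurve

namespace Fermat.Agent.FlatJ

open Fermat.Agent.RED.TorsionCore (RRCurve le_ord_of_mem mul_mem_rr rr_mono)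

/-- `ℚ̄` -/
abbrev Qb : Type := AlgebraicClosure ℚ

/-- the absolute Galois group -/
abbrev Gam : Type := Qb ≃ₐ[ℚ] Qb

variable (F₀ : IntermediateField ℚ (LaurentSeries ℚ))

/-- the semilinear action of Galois -/
abbrev gact (σ : Gam) : SemilinearAut Qb (laurentBaseChange Qb F₀) := arithmeticGalois F₀ σ

/-- the elements fixed by a group -/
def fixK (U : Subgroup Gam) : Subfield Qb := (IntermediateField.fixedField U).toSubfield

theorem mem_fixK {U : Subgroup Gam} {a : Qb} : a ∈ fixK U ↔ ∀ σ ∈ U, σ a = a :=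
  ⟨fun h σ hσ => h ⟨σ, hσ⟩, fun h σ => h σ σ.2⟩

variable {F₀}

theorem emb_gal (σ : Gam) (f : (laurentBaseChange Qb F₀)) :
    emb (gact F₀ σ • f) = coeffMap (σ : Qb →+* Qb) (emb f) := rfl

theorem gal_fix_iff (σ : Gam) (f : (laurentBaseChange Qb F₀)) :
    gact F₀ σ • f = f ↔ ∀ m : ℤ, σ ((emb f).coeff m) = (emb f).coeff m := by
  rw [← emb_injective.eq_iff, emb_gal]
  exact ⟨fun h m => congrArg (fun z : LaurentSeries Qb => z.coeff m) h,
    fun h => HahnSeries.ext (funext h)⟩

theorem ratCoeff_fixK_iff (U : Subgroup Gam) (f : (laurentBaseChange Qb F₀)) :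
    RatCoeff (fixK U) f ↔ ∀ σ ∈ U, gact F₀ σ • f = f := by
  simp only [RatCoeff, mem_fixK, gal_fix_iff]
  exact ⟨fun h σ hσ m => h m σ hσ, fun h m σ hσ => h σ hσ m⟩

theorem gal_smul (σ : Gam) (a : Qb) (f : (laurentBaseChange Qb F₀)) :
    gact F₀ σ • (a • f) = σ a • (gact F₀ σ • f) := by
  apply emb_injective
  rw [emb_gal, coe_smul_field, coe_smul_field, emb_gal, coeffMap_C_mul]
  rfl

theorem gal_mem_rr {σ : Gam} {D : Divisor Qb (laurentBaseChange Qb F₀)} {f : (laurentBaseChange Qb F₀)} (hf : f ∈ riemannRochSpace D) :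
    gact F₀ σ • f ∈ riemannRochSpace (gact F₀ σ • D) := by
  rw [mem_riemannRochSpace_iff] at hf ⊢
  intro w
  rcases hf ((gact F₀ σ)⁻¹ • w) with h | h
  · exact Or.inl (by rw [h, smul_zero])
  right
  rw [SemilinearAut.divisor_smul_apply]
  have h2 := SemilinearAut.ord_smul (gact F₀ σ) ((gact F₀ σ)⁻¹ • w) f
  rw [smul_inv_smul] at h2
  rwa [h2]

/-- A stable space of functions is spanned by the invariant ones. -/
theorem le_span_fixed (U : Subgroup Gam) (V : Submodule Qb (laurentBaseChange Qb F₀)) [FiniteDimensional Qb V]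
    (hV : ∀ σ ∈ U, ∀ f ∈ V, gact F₀ σ • f ∈ V) :
    V ≤ Submodule.span Qb {f | f ∈ V ∧ RatCoeff (fixK U) f} := by
  classical
  let b := Module.finBasis Qb V
  let n := Module.finrank Qb V
  have hind : LinearIndependent Qb (fun (i : Fin n) (x : ℤ) => (emb (b i : (laurentBaseChange Qb F₀))).coeff x) := by
    rw [Fintype.linearIndependent_iff]
    intro c hc
    refine Fintype.linearIndependent_iff.1 b.linearIndependent c (Subtype.ext ?_)
    refine emb_injective (HahnSeries.ext (funext fun x => ?_))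
    have := congrFun hc x
    simpa [map_sum, HahnSeries.coeff_sum] using this
  obtain ⟨m, hm⟩ := exists_minor _ hind
  set T := Matrix.of fun (i : Fin n) (j : Fin n) => (emb (b i : (laurentBaseChange Qb F₀))).coeff (m j) with hT
  have hTu : IsUnit T.det := isUnit_iff_ne_zero.2 hm
  let e : Fin n → V := fun i => ∑ j, T⁻¹ i j • b j
  have hcoord : ∀ (v : V) (t : Fin n),
      (emb (v : (laurentBaseChange Qb F₀))).coeff (m t) = Matrix.vecMul (b.repr v) T t := by
    intro v t
    have h1 : (v : (laurentBaseChange Qb F₀)) = ∑ i, b.repr v i • (b i : (laurentBaseChange Qb F₀)) := by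
      conv_lhs => rw [← b.sum_repr v]
      rw [Submodule.coe_sum]
      rfl
    rw [h1]
    simp [map_sum, HahnSeries.coeff_sum, Matrix.vecMul, dotProduct, hT]
  have hce : ∀ i t, (emb (e i : (laurentBaseChange Qb F₀))).coeff (m t) = (1 : Matrix (Fin n) (Fin n) Qb) i t := by
    intro i t
    rw [← Matrix.nonsing_inv_mul T hTu]
    simp [e, map_sum, HahnSeries.coeff_sum, Matrix.mul_apply, hT]
  have hinj : ∀ v w : V, (∀ t, (emb (v : (laurentBaseChange Qb F₀))).coeff (m t) = (emb (w : (laurentBaseChange Qb F₀))).coeff (m t)) →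
      v = w := by
    intro v w h
    refine b.repr.injective (Finsupp.ext (congrFun ?_))
    refine (Matrix.vecMul_injective_iff_isUnit.2 ((Matrix.isUnit_iff_isUnit_det T).2 hTu)) ?_
    funext t
    show Matrix.vecMul (b.repr v) T t = Matrix.vecMul (b.repr w) T t
    rw [← hcoord, ← hcoord, h]
  have hfix : ∀ i, RatCoeff (fixK U) (e i : (laurentBaseChange Qb F₀)) := by
    intro i
    rw [ratCoeff_fixK_iff]
    intro σ hσ
    have := hinj ⟨_, hV σ hσ _ (e i).2⟩ (e i) fun t => by
      show (emb (gact F₀ σ • (e i : (laurentBaseChange Qb F₀)))).coeff (m t) = _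
      rw [emb_gal, coeffMap_coeff, hce]
      by_cases h : i = t
      · subst h; rw [Matrix.one_apply_eq, map_one]
      · rw [Matrix.one_apply_ne h, map_zero]
    exact congrArg Subtype.val this
  intro f hf
  have hdec : (⟨f, hf⟩ : V) = ∑ t, (emb f).coeff (m t) • e t := by
    refine hinj _ _ fun t => ?_
    simp only [Submodule.coe_sum, Submodule.coe_smul, map_sum, coe_smul_field,
      HahnSeries.coeff_sum, coeff_C_mul', hce]
    simp [Matrix.one_apply]
  rw [show f = ((⟨f, hf⟩ : V) : (laurentBaseChange Qb F₀)) from rfl, hdec]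
  simp only [Submodule.coe_sum, Submodule.coe_smul]
  exact sum_mem fun t _ => Submodule.smul_mem _ _ (Submodule.subset_span ⟨(e t).2, hfix t⟩)

/-- Every function is fixed by an open subgroup. -/
theorem exists_fix_fun (f : (laurentBaseChange Qb F₀)) :
    ∃ L₀ : IntermediateField ℚ Qb, FiniteDimensional ℚ L₀ ∧
      ∀ σ ∈ L₀.fixingSubgroup, gact F₀ σ • f = f := by
  obtain ⟨f, hf⟩ := f
  suffices h : ∃ L₀ : IntermediateField ℚ Qb, FiniteDimensional ℚ L₀ ∧
      ∀ σ ∈ L₀.fixingSubgroup, coeffMap (σ : Qb →+* Qb) f = f by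
    obtain ⟨L₀, hfd, h⟩ := h
    exact ⟨L₀, hfd, fun σ hσ => Subtype.ext (h σ hσ)⟩
  have hf' : f ∈ IntermediateField.adjoin Qb
      (coeffMap (algebraMap ℚ Qb) '' (F₀ : Set (LaurentSeries ℚ))) := hf
  induction hf' using IntermediateField.adjoin_induction with
  | mem x hx =>
    obtain ⟨y, -, rfl⟩ := hx
    refine ⟨⊥, inferInstance, fun σ _ => ?_⟩
    rw [coeffMap_coeffMap]
    exact coeffMap_congr (RingHom.ext fun a => σ.commutes a) y
  | algebraMap a =>
    have : FiniteDimensional ℚ (IntermediateField.adjoin ℚ ({a} : Set Qb)) :=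
      IntermediateField.adjoin.finiteDimensional ((AlgebraicClosure.isAlgebraic ℚ).isAlgebraic a).isIntegral
    refine ⟨IntermediateField.adjoin ℚ {a}, this, fun σ hσ => ?_⟩
    rw [coeffMap_algebraMap]
    congr 1
    exact (IntermediateField.mem_fixingSubgroup_iff _ _).1 hσ a
      (IntermediateField.mem_adjoin_simple_self ℚ a)
  | add x y _ _ ihx ihy =>
    obtain ⟨L₁, h1, hx'⟩ := ihx (by assumption)
    obtain ⟨L₂, h2, hy'⟩ := ihy (by assumption)
    refine ⟨L₁ ⊔ L₂, inferInstance, fun σ hσ => ?_⟩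
    rw [map_add, hx' σ (IntermediateField.fixingSubgroup_antitone le_sup_left hσ),
      hy' σ (IntermediateField.fixingSubgroup_antitone le_sup_right hσ)]
  | inv x _ ihx =>
    obtain ⟨L₁, h1, hx'⟩ := ihx (by assumption)
    exact ⟨L₁, h1, fun σ hσ => by rw [map_inv₀, hx' σ hσ]⟩
  | mul x y _ _ ihx ihy =>
    obtain ⟨L₁, h1, hx'⟩ := ihx (by assumption)
    obtain ⟨L₂, h2, hy'⟩ := ihy (by assumption)
    refine ⟨L₁ ⊔ L₂, inferInstance, fun σ hσ => ?_⟩
    rw [map_mul, hx' σ (IntermediateField.fixingSubgroup_antitone le_sup_left hσ),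
      hy' σ (IntermediateField.fixingSubgroup_antitone le_sup_right hσ)]

variable (F₀)

/-- An effective Galois invariant divisor of positive degree. -/
structure FixedPol where
  /-- the divisor -/
  H : Divisor Qb (laurentBaseChange Qb F₀)
  eff : 0 ≤ H
  deg_pos : 0 < Divisor.degree H
  fix : ∀ σ : Gam, gact F₀ σ • H = H

variable {F₀}

theorem FixedPol.degree_nsmul (P : FixedPol F₀) (n : ℕ) :
    (n : ℤ) ≤ Divisor.degree (n • P.H) := by
  rw [map_nsmul, nsmul_eq_mul]
  have := P.deg_pos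
  nlinarith

theorem FixedPol.fix_nsmul (P : FixedPol F₀) (n : ℕ) (σ : Gam) :
    gact F₀ σ • (n • P.H) = n • P.H := by
  rw [smul_comm, P.fix]

theorem rr_le_span_fixed {g : ℕ} (hC : RRCurve Qb (laurentBaseChange Qb F₀) g) (U : Subgroup Gam) {D : Divisor Qb (laurentBaseChange Qb F₀)}
    (hD : ∀ σ ∈ U, gact F₀ σ • D = D) :
    riemannRochSpace D ≤ Submodule.span Qb {f | f ∈ riemannRochSpace D ∧ RatCoeff (fixK U) f} := by
  have := hC.finite_rr D
  exact le_span_fixed U _ fun σ hσ f hf => hD σ hσ ▸ gal_mem_rr hf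

/-- Every divisor is fixed by an open subgroup. -/
theorem exists_fix_divisor {g : ℕ} (hC : RRCurve Qb (laurentBaseChange Qb F₀) g) (P : FixedPol F₀)
    (D : Divisor Qb (laurentBaseChange Qb F₀)) :
    ∃ L₀ : IntermediateField ℚ Qb, FiniteDimensional ℚ L₀ ∧
      ∀ σ ∈ L₀.fixingSubgroup, gact F₀ σ • D = D := by
  let n := (2 * g + 1 - Divisor.degree D).toNat
  let D' := D + n • P.H
  have hD' : (2 * g + 1 : ℤ) ≤ Divisor.degree D' := by
    rw [map_add]
    have := P.degree_nsmul n
    omega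
  have := hC.finite_rr D'
  let b := Module.finBasis Qb (riemannRochSpace D')
  choose L hL hb using fun i => exists_fix_fun (b i : (laurentBaseChange Qb F₀))
  refine ⟨⨆ i, L i, IntermediateField.finiteDimensional_iSup_of_finite, fun σ hσ => ?_⟩
  have hle : riemannRochSpace D' ≤ riemannRochSpace (gact F₀ σ • D') := by
    intro f hf
    rw [show f = ((⟨f, hf⟩ : riemannRochSpace D') : (laurentBaseChange Qb F₀)) from rfl, ← b.sum_repr ⟨f, hf⟩,
      Submodule.coe_sum]
    refine sum_mem fun i _ => Submodule.smul_mem _ _ ?_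
    rw [← hb i σ (IntermediateField.fixingSubgroup_antitone (le_iSup L i) hσ)]
    exact gal_mem_rr (b i).2
  have hdeg : (2 * g + 1 : ℤ) ≤ Divisor.degree (gact F₀ σ • D') := by
    rwa [SemilinearAut.degree_smul]
  have := hC.finite_rr (gact F₀ σ • D')
  have heq := Submodule.eq_of_le_of_finrank_le hle (by
    have h1 := hC.finrank_rr D' (by omega)
    have h2 := hC.finrank_rr (gact F₀ σ • D') (by omega)
    rw [SemilinearAut.degree_smul] at h2
    omega)
  have h := eq_of_rr_eq hC hD' hdeg heq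
  rw [smul_add, P.fix_nsmul] at h
  exact (add_right_cancel h).symm

/-! ### Action of the decomposition group on the reduction -/

variable {k : Type} [Field k] {A : ValuationSubring Qb}

/-- `φ` is the action of `σ` on residues. -/
structure Compat (π : A →+* k) (σ : Gam) (φ : k ≃+* k) : Prop where
  mem_iff : ∀ x, σ x ∈ A ↔ x ∈ A
  res : ∀ a : A, π ⟨σ a, (mem_iff a).2 a.2⟩ = φ (π a)

variable {π : A →+* k} {σ : Gam} {φ : k ≃+* k}

theorem Compat.symm (h : Compat π σ φ) : Compat π σ⁻¹ φ.symm := by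
  have hm : ∀ x, σ⁻¹ x ∈ A ↔ x ∈ A := fun x => by
    conv_rhs => rw [show x = σ (σ⁻¹ x) from (σ.apply_symm_apply x).symm, h.mem_iff]
  refine ⟨hm, fun a => ?_⟩
  rw [RingEquiv.eq_symm_apply, ← h.res]
  congr 1
  exact Subtype.ext (σ.apply_symm_apply a)

variable {Fk : Type} [Field Fk] [Algebra k Fk] [LaurentEmb k Fk] (D : RedSetup A π (laurentBaseChange Qb F₀) Fk)

include D in
theorem reduces_gal (h : Compat π σ φ) {f : (laurentBaseChange Qb F₀)} {ψ : Fk} (hf : Reduces π f ψ) :
    ∃ ψ' : Fk, Reduces π (gact F₀ σ • f) ψ' ∧ emb ψ' = coeffMap (φ : k →+* k) (emb ψ) := by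
  obtain ⟨y, hy, hy'⟩ := hf
  let σA : A →+* A :=
    ((σ : Qb →+* Qb).comp A.subtype).codRestrict A.toSubring fun a => (h.mem_iff a).2 a.2
  have hy1 : coeffMap A.subtype (coeffMap σA y) = emb (gact F₀ σ • f) := by
    rw [emb_gal, ← hy, coeffMap_coeffMap, coeffMap_coeffMap]
    exact coeffMap_congr (RingHom.ext fun a => rfl) y
  obtain ⟨ψ', hψ'⟩ := D.red_mem _ _ hy1
  refine ⟨ψ', ⟨_, hy1, hψ'⟩, ?_⟩
  rw [← hψ', ← hy', coeffMap_coeffMap, coeffMap_coeffMap]
  exact coeffMap_congr (RingHom.ext fun a => h.res a) y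

theorem exists_rr_gal_big (h : Compat π σ φ) {Y : Divisor Qb (laurentBaseChange Qb F₀)}
    (hYb : D.Bdd Y)
    (hY : (2 * D.g : ℤ) ≤ Divisor.degree Y) {f : Fk}
    (hf : f ∈ riemannRochSpace (Finsupp.mapDomain D.r Y)) :
    ∃ u ∈ riemannRochSpace (Finsupp.mapDomain D.r (gact F₀ σ • Y)),
      emb u = coeffMap (φ : k →+* k) (emb f) := by
  have := D.hF.finite_rr Y
  have := D.hk.finite_rr (Finsupp.mapDomain D.r Y)
  obtain ⟨b, ψ, hb, hi⟩ := D.exists_basis (riemannRochSpace Y) fun f hf => hYb.exists_mem D hf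
  have hspan : Submodule.span k (Set.range ψ) = riemannRochSpace (Finsupp.mapDomain D.r Y) := by
    refine Submodule.eq_of_le_of_finrank_le (Submodule.span_le.2 ?_) ?_
    · rintro _ ⟨i, rfl⟩
      exact D.mem_rr_of_reduces (hb i).2 (hb i).1
    · rw [finrank_span_eq_card hi, Fintype.card_fin, D.finrank_eq hY]
  rw [← hspan, Submodule.mem_span_range_iff_exists_fun] at hf
  obtain ⟨c, rfl⟩ := hf
  choose ψ' hψ' hψe using fun i => reduces_gal D h (hb i).2
  refine ⟨∑ i, φ (c i) • ψ' i, sum_mem fun i _ => Submodule.smul_mem _ _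
    (D.mem_rr_of_reduces (hψ' i) (gal_mem_rr (hb i).1)), ?_⟩
  simp only [map_sum, coe_smul_field, coeffMap_C_mul, hψe]
  rfl

theorem exists_rr_gal (h : Compat π σ φ) (P : FixedPol F₀) (hP : D.H = P.H)
    {X : Divisor Qb (laurentBaseChange Qb F₀)} (hXb : D.Bdd X) {f : Fk}
    (hf : f ∈ riemannRochSpace (Finsupp.mapDomain D.r X)) :
    ∃ u ∈ riemannRochSpace (Finsupp.mapDomain D.r (gact F₀ σ • X)),
      emb u = coeffMap (φ : k →+* k) (emb f) := by
  let n := max (2 * D.g + 1) (2 * D.g - Divisor.degree X).toNat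
  let W := n • P.H
  have hW : (2 * D.g + 1 : ℤ) ≤ Divisor.degree W := by
    have : (n : ℤ) ≤ Divisor.degree W := P.degree_nsmul n
    omega
  have hY : (2 * D.g : ℤ) ≤ Divisor.degree (X + W) := by
    rw [map_add]
    have : (n : ℤ) ≤ Divisor.degree W := P.degree_nsmul n
    omega
  have hWb : D.Bdd W := ⟨n, by rw [hP]⟩
  have hYb : D.Bdd (X + W) := by
    obtain ⟨m, hm⟩ := hXb
    exact ⟨m + n, by rw [add_nsmul]; exact add_le_add hm (by rw [hP])⟩
  have hσW : gact F₀ σ • W = W := P.fix_nsmul n σ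
  have hσW' : gact F₀ σ⁻¹ • W = W := P.fix_nsmul n σ⁻¹
  have hback : ∀ z ∈ riemannRochSpace (Finsupp.mapDomain D.r W), ∃ u ∈
      riemannRochSpace (Finsupp.mapDomain D.r (gact F₀ σ • X) + Finsupp.mapDomain D.r W),
      ∃ χ : Fk, emb u = coeffMap (φ : k →+* k) (emb f) * emb z := by
    intro z hz
    obtain ⟨χ, hχ, hχe⟩ := exists_rr_gal_big D h.symm (Y := W) hWb (by omega) hz
    rw [hσW'] at hχ
    obtain ⟨u, hu, hue⟩ := exists_rr_gal_big D h hYb hY (f := f * χ) (by
      rw [Finsupp.mapDomain_add]; exact mul_mem_rr hf hχ)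
    rw [smul_add, hσW, Finsupp.mapDomain_add] at hu
    refine ⟨u, hu, χ, ?_⟩
    rw [hue, map_mul, map_mul, hχe, coeffMap_coeffMap]
    congr 1
    rw [coeffMap_congr (g := RingHom.id k) (RingHom.ext fun a => φ.apply_symm_apply a), coeffMap_id]
  have hbig : (2 * D.g + 1 : ℤ) ≤ Divisor.degree (Finsupp.mapDomain D.r W) := by
    rwa [D.degree_mapDomain]
  obtain ⟨z₀, hz₀, hz₀0, -⟩ : ∃ z ∈ riemannRochSpace (Finsupp.mapDomain D.r W), z ≠ 0 ∧ True := by
    have := D.hk.finrank_rr (Finsupp.mapDomain D.r W) (by omega)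
    obtain ⟨z, hz, hz0⟩ := (Submodule.ne_bot_iff _).1 (show riemannRochSpace
      (Finsupp.mapDomain D.r W) ≠ ⊥ from fun e => by rw [e, finrank_bot] at this; omega)
    exact ⟨z, hz, hz0, trivial⟩
  obtain ⟨u₀, -, -, hu₀⟩ := hback z₀ hz₀
  have he : emb (u₀ / z₀) = coeffMap (φ : k →+* k) (emb f) := by
    rw [map_div₀, hu₀, mul_div_cancel_right₀]
    exact fun e => hz₀0 (emb_injective (by rw [e, map_zero]))
  refine ⟨u₀ / z₀, ?_, he⟩
  have := mem_rr_sub_of_mul_mem D.hk hbig (x := u₀ / z₀)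
    (D₃ := Finsupp.mapDomain D.r (gact F₀ σ • X) + Finsupp.mapDomain D.r W) fun z hz => by
      obtain ⟨u, hu, -, hue⟩ := hback z hz
      rwa [show u₀ / z₀ * z = u from emb_injective (by rw [map_mul, he, hue])]
  rwa [add_sub_cancel_right] at this

theorem finrank_red_gal_le_of_bdd (h : Compat π σ φ) (P : FixedPol F₀) (hP : D.H = P.H)
    {X : Divisor Qb (laurentBaseChange Qb F₀)} (hXb : D.Bdd X) :
    Module.finrank k (riemannRochSpace (Finsupp.mapDomain D.r X)) ≤
      Module.finrank k (riemannRochSpace (Finsupp.mapDomain D.r (gact F₀ σ • X))) := by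
  have := D.hk.finite_rr (Finsupp.mapDomain D.r X)
  have := D.hk.finite_rr (Finsupp.mapDomain D.r (gact F₀ σ • X))
  let b := Module.finBasis k (riemannRochSpace (Finsupp.mapDomain D.r X))
  choose u hu hue using fun i => exists_rr_gal D h P hP hXb (b i).2
  have hi : LinearIndependent k
      (fun i => (⟨u i, hu i⟩ : riemannRochSpace (Finsupp.mapDomain D.r (gact F₀ σ • X)))) := by
    rw [Fintype.linearIndependent_iff]
    intro c hc i
    have h1 : coeffMap (φ : k →+* k) (emb (∑ j, φ.symm (c j) • (b j : Fk))) =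
        emb (0 : Fk) := by
      rw [← show emb (∑ j, c j • u j) = emb (0 : Fk) from congrArg emb
        (by simpa using congrArg Subtype.val hc)]
      simp only [map_sum, coe_smul_field, coeffMap_C_mul, hue]
      exact Finset.sum_congr rfl fun j _ => by simp
    have h2 : (∑ j, φ.symm (c j) • (b j : Fk)) = 0 :=
      emb_injective (coeffMap_injective (f := (φ : k →+* k)) φ.injective (h1.trans (by simp)))
    have := Fintype.linearIndependent_iff.1 b.linearIndependent (fun j => φ.symm (c j))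
      (Subtype.ext (by simpa using h2)) i
    simpa using congrArg φ this
  simpa using hi.fintype_card_le_finrank

theorem divisorOf_gal {f : laurentBaseChange Qb F₀} {E : Divisor Qb (laurentBaseChange Qb F₀)}
    (hE : ∀ v, E v = v.ord f) (σ : Gam) (v : Place Qb (laurentBaseChange Qb F₀)) :
    (gact F₀ σ • E) v = v.ord (gact F₀ σ • f) := by
  rw [SemilinearAut.divisor_smul_apply, hE]
  have := SemilinearAut.ord_smul (gact F₀ σ) ((gact F₀ σ)⁻¹ • v) f
  rw [smul_inv_smul] at this
  exact this.symm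

/-- The decomposition group preserves dimensions on the special fibre. -/
theorem finrank_red_gal_le (h : Compat π σ φ) (P : FixedPol F₀) (hP : D.H = P.H)
    (X : Divisor Qb (laurentBaseChange Qb F₀)) :
    Module.finrank k (riemannRochSpace (Finsupp.mapDomain D.r X)) ≤
      Module.finrank k (riemannRochSpace (Finsupp.mapDomain D.r (gact F₀ σ • X))) := by
  obtain ⟨n, f, ψ, Ef, hred, hψ, -, hEf, hle⟩ := D.exists_dominating X
  obtain ⟨ψ', hred', hψ'e⟩ := reduces_gal D h hred
  have hψ' : ψ' ≠ 0 := fun e => hψ (emb_injective (coeffMap_injective (f := (φ : k →+* k))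
    φ.injective (by rw [← hψ'e, e]; simp)))
  obtain ⟨Eψ, hEψ, -⟩ := D.hk.hasPrincipalDivisors.exists_divisor ψ hψ
  obtain ⟨Eψ', hEψ', -⟩ := D.hk.hasPrincipalDivisors.exists_divisor ψ' hψ'
  have h1 := finrank_red_gal_le_of_bdd D h P hP (X := X - Ef) ⟨n, sub_le_iff_le_add.2 hle⟩
  have hr : Finsupp.mapDomain D.r (X - Ef) = Finsupp.mapDomain D.r X - Eψ := by
    rw [show Eψ = Finsupp.mapDomain D.r Ef from Finsupp.ext fun w => by
      rw [D.compat f ψ hred hψ Ef hEf, hEψ]]
    exact map_sub (Finsupp.mapDomain.addMonoidHom D.r) _ _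
  have hr' : Finsupp.mapDomain D.r (gact F₀ σ • (X - Ef)) =
      Finsupp.mapDomain D.r (gact F₀ σ • X) - Eψ' := by
    rw [show Eψ' = Finsupp.mapDomain D.r (gact F₀ σ • Ef) from Finsupp.ext fun w => by
      rw [D.compat _ ψ' hred' hψ' _ (divisorOf_gal hEf σ), hEψ'], smul_sub]
    exact map_sub (Finsupp.mapDomain.addMonoidHom D.r) _ _
  rwa [hr, hr', finrank_shift hψ hEψ, finrank_shift hψ' hEψ'] at h1

/-- Inertia does not move the reductions. -/
theorem mapDomain_gal_inertia (h : Compat π σ (RingEquiv.refl k)) (P : FixedPol F₀)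
    (hP : D.H = P.H) (X : Divisor Qb (laurentBaseChange Qb F₀)) :
    (Finsupp.mapDomain D.r (gact F₀ σ • X) : Divisor k Fk) = Finsupp.mapDomain D.r X := by
  suffices key : ∀ X : Divisor Qb (laurentBaseChange Qb F₀), 0 ≤ X →
      (Finsupp.mapDomain D.r (gact F₀ σ • X) : Divisor k Fk) = Finsupp.mapDomain D.r X by
    let Xp : Divisor Qb (laurentBaseChange Qb F₀) :=
      X.mapRange (fun x : ℤ => max x 0) (max_self 0)
    let Xm : Divisor Qb (laurentBaseChange Qb F₀) :=
      (-X).mapRange (fun x : ℤ => max x 0) (max_self 0)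
    have h1 := key Xp (Finsupp.le_def.2 fun v => by simp [Xp])
    have h2 := key Xm (Finsupp.le_def.2 fun v => by simp [Xm])
    have hX : X = Xp - Xm := Finsupp.ext fun v => by
      simp only [Xp, Xm, Finsupp.sub_apply, Finsupp.mapRange_apply, Finsupp.neg_apply]
      omega
    rw [hX, smul_sub]
    exact (map_sub (Finsupp.mapDomain.addMonoidHom (M := ℤ) D.r) _ _).trans
      ((congrArg₂ (· - ·) h1 h2).trans
        (map_sub (Finsupp.mapDomain.addMonoidHom (M := ℤ) D.r) _ _).symm)
  intro X hX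
  let n := (2 * D.g + 1 + Divisor.degree X).toNat
  let Y := n • P.H - X
  have hY : (2 * D.g + 1 : ℤ) ≤ Divisor.degree Y := by
    rw [map_sub]
    have := P.degree_nsmul n
    omega
  have hYb : D.Bdd Y := ⟨n, by rw [hP]; exact sub_le_self _ hX⟩
  have hd : ∀ Z : Divisor Qb (laurentBaseChange Qb F₀), Divisor.degree Z = Divisor.degree Y →
      (2 * D.g + 1 : ℤ) ≤ Divisor.degree (Finsupp.mapDomain D.r Z) := fun Z hZ => by
    rw [D.degree_mapDomain, hZ]; exact hY
  have hdσ : Divisor.degree (gact F₀ σ • Y) = Divisor.degree Y := SemilinearAut.degree_smul _ _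
  have hle : riemannRochSpace (Finsupp.mapDomain D.r Y) ≤
      riemannRochSpace (Finsupp.mapDomain D.r (gact F₀ σ • Y)) := fun f hf => by
    obtain ⟨u, hu, hue⟩ := exists_rr_gal_big D h hYb (by omega) hf
    rwa [← emb_injective (hue.trans (coeffMap_id (emb f)))]
  have := D.hk.finite_rr (Finsupp.mapDomain D.r (gact F₀ σ • Y))
  have heq := eq_of_rr_eq D.hk (hd _ hdσ) (hd _ rfl) (Submodule.eq_of_le_of_finrank_le hle (by
    rw [D.finrank_eq (by omega), D.finrank_eq (E := Y) (by omega)]
    have h1 := D.hF.finrank_rr Y (by omega)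
    have h2 := D.hF.finrank_rr (gact F₀ σ • Y) (by omega)
    omega)).symm
  have e : ∀ a b : Divisor Qb (laurentBaseChange Qb F₀), Finsupp.mapDomain D.r (a - b) =
      Finsupp.mapDomain D.r a - Finsupp.mapDomain D.r b := fun a b =>
    map_sub (Finsupp.mapDomain.addMonoidHom D.r) a b
  rw [smul_sub, P.fix_nsmul, e, e, sub_right_inj] at heq
  exact heq

/-- Every place of the special fibre lifts to a place fixed by a group of automorphisms whose
fixed integers surject to the residue field. -/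
theorem exists_fixed_lift (U : Subgroup Gam) (hU : ∀ σ ∈ U, Compat π σ (RingEquiv.refl k))
    (hlift : ∀ c : k, ∃ a : A, π a = c ∧ (a : Qb) ∈ fixK U)
    (P : FixedPol F₀) (hP : D.H = P.H) (w : Place k Fk) :
    ∃ v : Place Qb (laurentBaseChange Qb F₀), D.r v = w ∧ ∀ σ ∈ U, gact F₀ σ • v = v := by
  classical
  let n := 2 * D.g + 2
  let Hb : Divisor k Fk := Finsupp.mapDomain D.r (n • P.H)
  have hn : (2 * D.g + 2 : ℤ) ≤ Divisor.degree (n • P.H) := by
    have := P.degree_nsmul n
    omega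
  obtain ⟨h, hh, hh0, hord⟩ := exists_ord_eq D.hk (D := Hb - Finsupp.single w 1) (by
    rw [map_sub, degree_single' D.hk, D.degree_mapDomain]; omega) w
  rw [Finsupp.sub_apply, Finsupp.single_eq_same] at hord
  have hmem : h ∈ riemannRochSpace Hb :=
    rr_mono (sub_le_self _ (Finsupp.single_nonneg.2 zero_le_one)) hh
  have := D.hF.finite_rr (n • P.H)
  obtain ⟨b, ψ, hb, hi⟩ := D.exists_basis_rat (fixK U) _ _ this rfl (fun f hf => ⟨n, by rw [hP]; exact hf⟩)
    (rr_le_span_fixed D.hF U fun σ _ => P.fix_nsmul n σ)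
  have hspan : Submodule.span k (Set.range ψ) = riemannRochSpace Hb := by
    have := D.hk.finite_rr Hb
    refine Submodule.eq_of_le_of_finrank_le (Submodule.span_le.2 ?_) ?_
    · rintro _ ⟨i, rfl⟩
      exact D.mem_rr_of_reduces (hb i).2.2 (hb i).1
    · rw [finrank_span_eq_card hi, Fintype.card_fin, D.finrank_eq (by omega)]
  rw [← hspan, Submodule.mem_span_range_iff_exists_fun] at hmem
  obtain ⟨c, hc⟩ := hmem
  choose a ha haU using fun i => hlift (c i)
  let f := ∑ i, (a i : Qb) • b i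
  have hf : Reduces π f h := by
    rw [← hc]
    exact Reduces.sum fun i _ => ha i ▸ (hb i).2.2.smul (a i)
  have hf0 := hf.ne_zero hh0
  have hfmem : f ∈ riemannRochSpace (n • P.H) :=
    sum_mem fun i _ => Submodule.smul_mem _ _ (hb i).1
  obtain ⟨E, hE, -⟩ := D.hF.hasPrincipalDivisors.exists_divisor f hf0
  set G := E + n • P.H with hG
  have hG0 : 0 ≤ G := zero_le_of_mem hfmem hf0 hE
  have hGw : Finsupp.mapDomain D.r G w = 1 := by
    rw [hG, Finsupp.mapDomain_add, Finsupp.add_apply, D.compat f h hf hh0 E hE w, hord]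
    ring
  have hGfix : ∀ σ ∈ U, gact F₀ σ • G = G := by
    intro σ hσ
    have hffix : gact F₀ σ • f = f := by
      refine (ratCoeff_fixK_iff U f).1 (fun m => ?_) σ hσ
      simp only [f, map_sum, HahnSeries.coeff_sum, coe_smul_field, coeff_C_mul']
      exact sum_mem fun i _ => mul_mem (haU i) ((hb i).2.1 m)
    rw [hG, smul_add, P.fix_nsmul]
    congr 1
    ext v
    have := SemilinearAut.ord_smul (gact F₀ σ) ((gact F₀ σ)⁻¹ • v) f
    rw [smul_inv_smul, hffix] at this
    rw [SemilinearAut.divisor_smul_apply, hE, hE, this]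
  have hsum : ∑ v ∈ G.support.filter (fun v => D.r v = w), G v = 1 := by
    rw [← hGw, Finsupp.mapDomain, Finsupp.sum_apply, Finsupp.sum, Finset.sum_filter]
    exact Finset.sum_congr rfl fun v _ => by rw [Finsupp.single_apply]
  set T := G.support.filter (fun v => D.r v = w) with hT
  have hpos : ∀ v ∈ T, 1 ≤ G v := fun v hv => by
    have h1 := Finsupp.mem_support_iff.1 (Finset.mem_filter.1 hv).1
    have h2 : (0 : ℤ) ≤ G v := Finsupp.le_def.1 hG0 v
    omega
  have hcard : T.card = 1 := by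
    have h1 : (T.card : ℤ) ≤ ∑ v ∈ T, G v := by
      have := Finset.card_nsmul_le_sum T (fun v => G v) 1 hpos
      simpa using this
    have : T.Nonempty := Finset.nonempty_iff_ne_empty.2 fun e => by rw [e] at hsum; simp at hsum
    have := this.card_pos
    omega
  obtain ⟨v, hv⟩ := Finset.card_eq_one.1 hcard
  have hvT : v ∈ T := by rw [hv]; exact Finset.mem_singleton_self v
  refine ⟨v, (Finset.mem_filter.1 hvT).2, fun σ hσ => ?_⟩
  have hmemT : gact F₀ σ • v ∈ T := by
    refine Finset.mem_filter.2 ⟨?_, ?_⟩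
    · rw [Finsupp.mem_support_iff, ← hGfix σ hσ, SemilinearAut.divisor_smul_apply_smul]
      exact Finsupp.mem_support_iff.1 (Finset.mem_filter.1 hvT).1
    · have := mapDomain_gal_inertia D (hU σ hσ) P hP (Finsupp.single v 1)
      rw [SemilinearAut.smul_single, Finsupp.mapDomain_single, Finsupp.mapDomain_single,
        Finsupp.single_left_inj one_ne_zero] at this
      rw [this]
      exact (Finset.mem_filter.1 hvT).2
  rw [hv, Finset.mem_singleton] at hmemT
  exact hmemT

end Fermat.Agent.FlatJ
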