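import Fermat.Agent.FlatJ.Curve

/-!
A reduction of a field of Laurent series: integral bases of Riemann-Roch spaces.
-/

set_option autoImplicit false
set_option linter.unusedSectionVars false
set_option linter.unusedVariables false

noncomputable section

open AlgebraicCurve ModularCurve

namespace Fermat.Agent.FlatJ

open Fermat.Agent.RED.TorsionCore (RRCurve le_ord_of_mem map_ne_zero_iff_isUnit rr_mono)

variable {K k : Type} [Field K] [Field k] {A : ValuationSubring K} (π : A →+* k)
  {F Fk : Type} [Field F] [Algebra K F] [Field Fk] [Algebra k Fk]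

/-- An embedding into Laurent series over the base field. -/
class LaurentEmb (K : outParam Type) (F : Type) [Field K] [Field F] [Algebra K F] where
  /-- the expansion -/
  emb : F →+* LaurentSeries K
  emb_algebraMap : ∀ a : K, emb (algebraMap K F a) = HahnSeries.C a

export LaurentEmb (emb)

instance (priority := 50) laurentEmbIntermediateField {K : Type} [Field K]
    (E : IntermediateField K (LaurentSeries K)) : LaurentEmb K E where
  emb := E.toSubfield.subtype
  emb_algebraMap a := algebraMap_laurentSeries_eq_single K a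

variable [LaurentEmb K F] [LaurentEmb k Fk]

/-- `f` has integral coefficients and reduces to `φ`. -/
def Reduces (f : F) (φ : Fk) : Prop :=
  ∃ y : LaurentSeries A, coeffMap A.subtype y = emb f ∧ coeffMap π y = emb φ

/-- the coefficients lie in a given subfield -/
def RatCoeff (K₀ : Subfield K) (f : F) : Prop := ∀ m : ℤ, (emb f).coeff m ∈ K₀

/-- A curve with a reduction of the same genus, both given by Laurent series. -/
structure RedSetup (A : ValuationSubring K) (π : A →+* k) (F Fk : Type) [Field F] [Algebra K F]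
    [Field Fk] [Algebra k Fk] [LaurentEmb K F] [LaurentEmb k Fk] where
  /-- the genus -/
  g : ℕ
  surj : Function.Surjective π
  hF : RRCurve K F g
  hk : RRCurve k Fk g
  /-- the reduction of places -/
  r : Place K F → Place k Fk
  red_mem : ∀ (y : LaurentSeries A) (f : F), coeffMap A.subtype y = emb f →
    ∃ φ : Fk, coeffMap π y = emb φ
  /-- an effective divisor of positive degree; functions with poles in it have bounded
  denominators -/
  H : Divisor K F
  H_eff : 0 ≤ H
  H_pos : 0 < Divisor.degree H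
  scale : ∀ (n : ℕ) (f : F), f ∈ riemannRochSpace (n • H) → f ≠ 0 →
    ∃ (c : K) (y : LaurentSeries A),
      coeffMap A.subtype y = HahnSeries.C c * emb f ∧ coeffMap π y ≠ 0
  compat : ∀ (f : F) (φ : Fk), Reduces π f φ → φ ≠ 0 → ∀ D : Divisor K F,
    (∀ v, D v = v.ord f) → ∀ w, Finsupp.mapDomain r D w = w.ord φ

variable {π}

theorem coeffMap_injective {R S : Type*} [CommRing R] [CommRing S] {f : R →+* S}
    (hf : Function.Injective f) : Function.Injective (coeffMap f) := fun x y h =>
  HahnSeries.ext (funext fun m => hf (congrArg (fun z : LaurentSeries S => z.coeff m) h))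

theorem coeffMap_C_mul {R S : Type*} [CommRing R] [CommRing S] (f : R →+* S) (a : R)
    (y : LaurentSeries R) : coeffMap f (HahnSeries.C a * y) = HahnSeries.C (f a) * coeffMap f y := by
  rw [map_mul]
  congr 1
  exact coeffMap_single f 0 a

@[simp]
theorem coeff_C_mul' {L : Type*} [CommRing L] (a : L) (x : LaurentSeries L) (m : ℤ) :
    (HahnSeries.C a * x).coeff m = a * x.coeff m := by
  rw [HahnSeries.C_mul_eq_smul, HahnSeries.coeff_smul, smul_eq_mul]

@[simp]
theorem coe_smul_field {L E : Type} [Field L] [Field E] [Algebra L E] [LaurentEmb L E] (a : L)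
    (f : E) : emb (a • f) = HahnSeries.C a * emb f := by
  rw [Algebra.smul_def, map_mul, LaurentEmb.emb_algebraMap]

theorem emb_injective {L E : Type} [Field L] [Field E] [Algebra L E] [LaurentEmb L E] :
    Function.Injective (emb : E →+* LaurentSeries L) := (emb : E →+* LaurentSeries L).injective

namespace Reduces

variable {f f' : F} {φ φ' : Fk}

theorem unique (h : Reduces π f φ) (h' : Reduces π f φ') : φ = φ' := by
  obtain ⟨y, hy, hy'⟩ := h
  obtain ⟨z, hz, hz'⟩ := h'
  exact emb_injective (by
    rw [← hy', ← hz', coeffMap_injective Subtype.val_injective (hy.trans hz.symm)])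

theorem zero : Reduces π (0 : F) (0 : Fk) := ⟨0, by simp, by simp⟩

theorem one : Reduces π (1 : F) (1 : Fk) := ⟨1, by simp, by simp⟩

theorem add (h : Reduces π f φ) (h' : Reduces π f' φ') : Reduces π (f + f') (φ + φ') := by
  obtain ⟨y, hy, hy'⟩ := h
  obtain ⟨z, hz, hz'⟩ := h'
  exact ⟨y + z, by rw [map_add, hy, hz, map_add], by rw [map_add, hy', hz', map_add]⟩

theorem mul (h : Reduces π f φ) (h' : Reduces π f' φ') : Reduces π (f * f') (φ * φ') := by
  obtain ⟨y, hy, hy'⟩ := h
  obtain ⟨z, hz, hz'⟩ := h'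
  exact ⟨y * z, by rw [map_mul, hy, hz, map_mul], by rw [map_mul, hy', hz', map_mul]⟩

theorem smul (a : A) (h : Reduces π f φ) : Reduces π ((a : K) • f) (π a • φ) := by
  obtain ⟨y, hy, hy'⟩ := h
  refine ⟨HahnSeries.C a * y, ?_, ?_⟩
  · rw [coeffMap_C_mul, hy, coe_smul_field]; rfl
  · rw [coeffMap_C_mul, hy', coe_smul_field]

theorem sum {ι : Type*} {s : Finset ι} {f : ι → F} {φ : ι → Fk}
    (h : ∀ i ∈ s, Reduces π (f i) (φ i)) : Reduces π (∑ i ∈ s, f i) (∑ i ∈ s, φ i) := by
  classical
  induction s using Finset.induction_on with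
  | empty => simpa using zero
  | insert a s ha ih =>
    rw [Finset.sum_insert ha, Finset.sum_insert ha]
    exact (h a (Finset.mem_insert_self a s)).add (ih fun i hi => h i (Finset.mem_insert_of_mem hi))

theorem ne_zero (h : Reduces π f φ) (hφ : φ ≠ 0) : f ≠ 0 := by
  rintro rfl
  exact hφ (h.unique zero)

theorem coeff_mem (h : Reduces π f φ) (m : ℤ) : (emb f).coeff m ∈ A := by
  obtain ⟨y, hy, -⟩ := h
  rw [← hy]
  exact (y.coeff m).2

end Reduces

namespace RedSetup

variable (D : RedSetup A π F Fk)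
include D

theorem isUnit_of_ne_zero {a : A} (ha : π a ≠ 0) : IsUnit a :=
  (map_ne_zero_iff_isUnit D.surj a).1 ha

theorem exists_reduces {f : F} (hf : ∀ m, (emb f).coeff m ∈ A) :
    ∃ φ : Fk, Reduces π f φ := by
  let y : LaurentSeries A :=
    { coeff := fun m => ⟨_, hf m⟩
      isPWO_support' := (emb f).isPWO_support.mono fun m hm => by
        simp only [Function.mem_support, ne_eq, HahnSeries.mem_support] at hm ⊢
        exact fun h => hm (Subtype.ext h) }
  have hy : coeffMap A.subtype y = (emb f) := by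
    ext m
    simp [y]
  obtain ⟨φ, hφ⟩ := D.red_mem y f hy
  exact ⟨φ, y, hy, hφ⟩

/-- Every function has a multiple with nonzero reduction, over any subfield containing its
coefficients. -/
theorem exists_normalised (K₀ : Subfield K) {f : F}
    (hb : ∃ n : ℕ, f ∈ riemannRochSpace (n • D.H)) (hf : RatCoeff K₀ f) (h0 : f ≠ 0) :
    ∃ (a : K) (m : ℤ) (φ : Fk), a ∈ K₀ ∧ a ≠ 0 ∧ Reduces π (a • f) φ ∧
      (emb φ).coeff m = 1 ∧ a * (emb f).coeff m = 1 := by
  obtain ⟨nb, hnb⟩ := hb
  obtain ⟨c, y, hy, hne⟩ := D.scale nb f hnb h0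
  obtain ⟨m, hm⟩ : ∃ m, π (y.coeff m) ≠ 0 := by
    by_contra h
    push Not at h
    exact hne (HahnSeries.ext (funext fun m => h m))
  obtain ⟨u, hu⟩ := (D.isUnit_of_ne_zero hm).exists_right_inv
  have hym : (y.coeff m : K) = c * (emb f).coeff m := by
    have := congrArg (fun z : LaurentSeries K => z.coeff m) hy
    simpa using this
  have hu' : (y.coeff m : K) * u = 1 := congrArg Subtype.val hu
  have hfm : (emb f).coeff m ≠ 0 := fun h => by
    rw [hym, h, mul_zero, zero_mul] at hu'
    exact zero_ne_one hu'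
  have ha : ((emb f).coeff m)⁻¹ = (u : K) * c := by
    rw [hym] at hu'
    field_simp
    linear_combination -hu'
  let y' : LaurentSeries A := HahnSeries.C u * y
  have hy' : coeffMap A.subtype y' =
      emb (((emb f).coeff m)⁻¹ • f) := by
    rw [coeffMap_C_mul, hy, coe_smul_field, ha, map_mul, mul_assoc]
    rfl
  obtain ⟨φ, hφ⟩ := D.red_mem y' _ hy'
  refine ⟨_, m, φ, K₀.inv_mem (hf m), inv_ne_zero hfm, ⟨y', hy', hφ⟩, ?_, inv_mul_cancel₀ hfm⟩
  rw [← hφ]
  rw [coeffMap_coeff, coeff_C_mul', mul_comm, hu, map_one]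

/-- A space spanned by rational vectors has a rational integral basis with independent
reductions. -/
theorem exists_basis_rat (K₀ : Subfield K) : ∀ (n : ℕ) (V : Submodule K F),
    FiniteDimensional K V → Module.finrank K V = n →
    (∀ f ∈ V, ∃ n : ℕ, f ∈ riemannRochSpace (n • D.H)) →
    V ≤ Submodule.span K {f | f ∈ V ∧ RatCoeff K₀ f} →
    ∃ (b : Fin n → F) (φ : Fin n → Fk),
      (∀ i, b i ∈ V ∧ RatCoeff K₀ (b i) ∧ Reduces π (b i) (φ i)) ∧ LinearIndependent k φ := by
  intro n
  induction n with
  | zero =>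
    intro V _ _ _ _
    exact ⟨Fin.elim0, Fin.elim0, fun i => i.elim0, linearIndependent_empty_type⟩
  | succ n ih =>
    intro V hfin hn hVb hV
    obtain ⟨f, hfV, hfr, hf0⟩ : ∃ f, f ∈ V ∧ RatCoeff K₀ f ∧ f ≠ 0 := by
      by_contra h
      push Not at h
      have : V ≤ ⊥ := hV.trans (Submodule.span_le.2 fun f hf => (Submodule.mem_bot K).2 (h f hf.1 hf.2))
      rw [le_bot_iff.1 this, finrank_bot] at hn
      omega
    obtain ⟨a, m, φ₀, haK, ha0, hred, hφm, hfm⟩ := D.exists_normalised K₀ (hVb f hfV) hfr hf0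
    let f' : F := a • f
    have hf'r : RatCoeff K₀ f' := fun j => by
      rw [coe_smul_field, coeff_C_mul']
      exact K₀.mul_mem haK (hfr j)
    have hf'V : f' ∈ V := V.smul_mem a hfV
    let cm : F →ₗ[K] K :=
      { toFun := fun x => (emb x).coeff m
        map_add' := fun x y => by simp
        map_smul' := fun c x => by rw [coe_smul_field, coeff_C_mul']; rfl }
    let V' : Submodule K F := V ⊓ LinearMap.ker cm
    have : FiniteDimensional K V' := Submodule.finiteDimensional_inf_left _ _
    have hn' : Module.finrank K V' = n := by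
      let ψ : V →ₗ[K] K := cm.comp V.subtype
      have hsurj : LinearMap.range ψ = ⊤ :=
        LinearMap.range_eq_top.2 fun c => ⟨c • ⟨f', hf'V⟩, by
          show (emb (c • (a • f))).coeff m = c
          rw [coe_smul_field, coeff_C_mul', coe_smul_field, coeff_C_mul', hfm, mul_one]⟩
      have h1 := ψ.finrank_range_add_finrank_ker
      rw [hsurj, finrank_top, Module.finrank_self, hn] at h1
      have h2 : Module.finrank K V' = Module.finrank K (LinearMap.ker ψ) := by
        have : LinearMap.ker ψ = V'.comap V.subtype := by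
          ext x
          simp [ψ, V']
        rw [this]
        exact (Submodule.comapSubtypeEquivOfLe inf_le_left).finrank_eq.symm
      omega
    have hspan : V' ≤ Submodule.span K {g | g ∈ V' ∧ RatCoeff K₀ g} := by
      let P : F →ₗ[K] F := LinearMap.id - cm.smulRight f'
      have hP : ∀ x ∈ V, RatCoeff K₀ x → P x ∈ {g | g ∈ V' ∧ RatCoeff K₀ g} := by
        intro x hx hxr
        refine ⟨⟨V.sub_mem hx (V.smul_mem _ hf'V), ?_⟩, fun j => ?_⟩
        · show (emb (x - (emb x).coeff m • (a • f))).coeff m = 0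
          rw [map_sub, HahnSeries.coeff_sub, coe_smul_field, coeff_C_mul', coe_smul_field, coeff_C_mul',
            hfm, mul_one, sub_self]
        · show (emb (x - (emb x).coeff m • f')).coeff j ∈ K₀
          rw [map_sub, HahnSeries.coeff_sub, coe_smul_field, coeff_C_mul']
          exact K₀.sub_mem (hxr j) (K₀.mul_mem (hxr m) (hf'r j))
      intro x hx
      have hPx : P x = x := by
        have h0 : (emb x).coeff m = 0 := hx.2
        show x - cm x • f' = x
        rw [show cm x = 0 from h0, zero_smul, sub_zero]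
      rw [← hPx]
      have := Submodule.mem_map_of_mem (f := P) (hV hx.1)
      rw [Submodule.map_span] at this
      refine Submodule.span_mono ?_ this
      rintro _ ⟨y, ⟨hy, hyr⟩, rfl⟩
      exact hP y hy hyr
    obtain ⟨b, φ, hb, hind⟩ := ih V' inferInstance hn' (fun x hx => hVb x hx.1) hspan
    refine ⟨Fin.cons f' b, Fin.cons φ₀ φ, ?_, ?_⟩
    · intro i
      refine Fin.cases ?_ ?_ i
      · exact ⟨hf'V, hf'r, hred⟩
      · intro i
        simp only [Fin.cons_succ]
        exact ⟨(hb i).1.1, (hb i).2⟩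
    · rw [linearIndependent_finCons]
      refine ⟨hind, fun hmem => ?_⟩
      let cmk : Fk →ₗ[k] k :=
        { toFun := fun x => (emb x).coeff m
          map_add' := fun x y => by simp
          map_smul' := fun c x => by rw [coe_smul_field, coeff_C_mul']; rfl }
      have hle : Submodule.span k (Set.range φ) ≤ LinearMap.ker cmk := by
        rw [Submodule.span_le]
        rintro _ ⟨i, rfl⟩
        obtain ⟨y, hy, hy'⟩ := (hb i).2.2
        show (emb (φ i)).coeff m = 0
        have h0 : (emb (b i)).coeff m = 0 := (hb i).1.2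
        rw [← hy'] 
        rw [← hy, coeffMap_coeff] at h0
        rw [coeffMap_coeff, show y.coeff m = 0 from Subtype.ext h0, map_zero]
      have := hle hmem
      rw [LinearMap.mem_ker] at this
      exact one_ne_zero (hφm.symm.trans this)

theorem exists_basis (V : Submodule K F) [FiniteDimensional K V]
    (hVb : ∀ f ∈ V, ∃ n : ℕ, f ∈ riemannRochSpace (n • D.H)) :
    ∃ (b : Fin (Module.finrank K V) → F) (φ : Fin (Module.finrank K V) → Fk),
      (∀ i, b i ∈ V ∧ Reduces π (b i) (φ i)) ∧ LinearIndependent k φ := by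
  obtain ⟨b, φ, h, hi⟩ := D.exists_basis_rat ⊤ _ V inferInstance rfl hVb
    fun f hf => Submodule.subset_span ⟨hf, fun m => Subfield.mem_top _⟩
  exact ⟨b, φ, fun i => ⟨(h i).1, (h i).2.2⟩, hi⟩

theorem degree_mapDomain (E : Divisor K F) :
    Divisor.degree (Finsupp.mapDomain D.r E) = Divisor.degree E :=
  RED.TorsionCore.degree_mapDomain D.hF D.hk E

theorem mem_rr_of_reduces {E : Divisor K F} {f : F} {φ : Fk} (h : Reduces π f φ)
    (hf : f ∈ riemannRochSpace E) : φ ∈ riemannRochSpace (Finsupp.mapDomain D.r E) := by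
  rw [mem_riemannRochSpace_iff]
  intro w
  rcases eq_or_ne φ 0 with h0 | h0
  · exact Or.inl h0
  right
  have hf0 := h.ne_zero h0
  obtain ⟨Ef, hEf, -⟩ := D.hF.hasPrincipalDivisors.exists_divisor f hf0
  rw [← D.compat f φ h h0 Ef hEf w]
  have := Finsupp.le_def.1 (Finsupp.mapDomain_mono (f := D.r) (zero_le_of_mem hf hf0 hEf)) w
  rw [Finsupp.mapDomain_zero, Finsupp.mapDomain_add, Finsupp.add_apply, Finsupp.zero_apply] at this
  omega

/-- the divisor is below a multiple of `H` -/
def Bdd (E : Divisor K F) : Prop := ∃ n : ℕ, E ≤ n • D.H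

theorem Bdd.exists_mem {E : Divisor K F} (hE : D.Bdd E) {f : F} (hf : f ∈ riemannRochSpace E) :
    ∃ n : ℕ, f ∈ riemannRochSpace (n • D.H) :=
  let ⟨n, hn⟩ := hE
  ⟨n, rr_mono hn hf⟩

theorem bdd_nsmul (n : ℕ) : D.Bdd (n • D.H) := ⟨n, le_rfl⟩

theorem bdd_nsmul_sub {E : Divisor K F} (hE : 0 ≤ E) (n : ℕ) : D.Bdd (n • D.H - E) :=
  ⟨n, sub_le_self _ hE⟩

theorem Bdd.add_nsmul {E : Divisor K F} (hE : D.Bdd E) (n : ℕ) : D.Bdd (E + n • D.H) :=
  let ⟨m, hm⟩ := hE
  ⟨m + n, by rw [_root_.add_nsmul]; exact add_le_add hm le_rfl⟩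

/-- A function with nonzero reduction whose divisor, added to a multiple of `H`, dominates a given
divisor. -/
theorem exists_dominating (E : Divisor K F) :
    ∃ (n : ℕ) (h : F) (ψ : Fk) (Eh : Divisor K F), Reduces π h ψ ∧ ψ ≠ 0 ∧
      h ∈ riemannRochSpace (n • D.H) ∧ (∀ v, Eh v = v.ord h) ∧ E ≤ n • D.H + Eh := by
  let E' : Divisor K F := E.mapRange (fun x => max x 0) (max_self 0)
  have h0 : 0 ≤ E' := Finsupp.le_def.2 fun v => by simp [E']
  have h1 : E ≤ E' := Finsupp.le_def.2 fun v => by simp [E']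
  let n := (2 * D.g + Divisor.degree E').toNat
  have hn : (2 * D.g : ℤ) ≤ Divisor.degree (n • D.H - E') := by
    rw [map_sub, map_nsmul, nsmul_eq_mul]
    have := D.H_pos
    have : (n : ℤ) ≤ (n : ℤ) * Divisor.degree D.H := le_mul_of_one_le_right (by omega) (by omega)
    omega
  have hd := D.hF.finrank_rr _ hn
  obtain ⟨f, hf, hf0⟩ := (Submodule.ne_bot_iff _).1 (fun e : riemannRochSpace (n • D.H - E') = ⊥ =>
    by rw [e, finrank_bot] at hd; omega)
  obtain ⟨a, m, φ, -, ha, hred, hφm, -⟩ :=
    D.exists_normalised ⊤ ⟨n, rr_mono (sub_le_self _ h0) hf⟩ (fun _ => Subfield.mem_top _) hf0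
  have hφ : φ ≠ 0 := fun e => by rw [e, map_zero] at hφm; exact zero_ne_one hφm
  have hh : a • f ∈ riemannRochSpace (n • D.H - E') := Submodule.smul_mem _ a hf
  obtain ⟨Eh, hEh, -⟩ := D.hF.hasPrincipalDivisors.exists_divisor (a • f) (hred.ne_zero hφ)
  refine ⟨n, a • f, φ, Eh, hred, hφ, rr_mono (sub_le_self _ h0) hh, hEh, h1.trans ?_⟩
  have := zero_le_of_mem hh (hred.ne_zero hφ) hEh
  rw [← add_sub_assoc, sub_nonneg, add_comm] at this
  exact this

theorem finrank_le_of_bdd {E : Divisor K F} (hE : D.Bdd E) :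
    Module.finrank K (riemannRochSpace E) ≤
      Module.finrank k (riemannRochSpace (Finsupp.mapDomain D.r E)) := by
  have := D.hF.finite_rr E
  have := D.hk.finite_rr (Finsupp.mapDomain D.r E)
  obtain ⟨b, φ, hb, hi⟩ := D.exists_basis (riemannRochSpace E) fun f hf => hE.exists_mem D hf
  have hi' : LinearIndependent k (fun i =>
      (⟨φ i, D.mem_rr_of_reduces (hb i).2 (hb i).1⟩ : riemannRochSpace (Finsupp.mapDomain D.r E))) :=
    LinearIndependent.of_comp (riemannRochSpace (Finsupp.mapDomain D.r E)).subtype hi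
  simpa using hi'.fintype_card_le_finrank

/-- Riemann-Roch dimensions can only jump up under reduction. -/
theorem finrank_le (E : Divisor K F) :
    Module.finrank K (riemannRochSpace E) ≤
      Module.finrank k (riemannRochSpace (Finsupp.mapDomain D.r E)) := by
  obtain ⟨n, h, ψ, Eh, hred, hψ, -, hEh, hle⟩ := D.exists_dominating E
  obtain ⟨Eψ, hEψ, -⟩ := D.hk.hasPrincipalDivisors.exists_divisor ψ hψ
  have hr : Finsupp.mapDomain D.r Eh = Eψ := Finsupp.ext fun w => by
    rw [D.compat h ψ hred hψ Eh hEh, hEψ]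
  have h1 := D.finrank_le_of_bdd (E := E - Eh) ⟨n, sub_le_iff_le_add.2 hle⟩
  have e : Finsupp.mapDomain D.r (E - Eh) = Finsupp.mapDomain D.r E - Eψ := by
    rw [← hr]
    exact map_sub (Finsupp.mapDomain.addMonoidHom (M := ℤ) D.r) E Eh
  rwa [finrank_shift (hred.ne_zero hψ) hEh, e, finrank_shift hψ hEψ] at h1

theorem finrank_eq {E : Divisor K F} (hE : (2 * D.g : ℤ) ≤ Divisor.degree E) :
    Module.finrank k (riemannRochSpace (Finsupp.mapDomain D.r E)) =
      Module.finrank K (riemannRochSpace E) := by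
  have h1 := D.hF.finrank_rr E hE
  have h2 := D.hk.finrank_rr (Finsupp.mapDomain D.r E) (by rwa [D.degree_mapDomain])
  rw [D.degree_mapDomain] at h2
  omega

theorem nonempty_place_special [Nonempty (Place K F)] : Nonempty (Place k Fk) :=
  ⟨D.r (Classical.arbitrary _)⟩

/-- A special divisor with one-dimensional space comes from a one-dimensional space. -/
theorem finrank_eq_one [Nonempty (Place K F)] {E : Divisor K F} (hd : Divisor.degree E = D.g)
    (h : Module.finrank k (riemannRochSpace (Finsupp.mapDomain D.r E)) = 1) :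
    Module.finrank K (riemannRochSpace E) = 1 := by
  have h1 := riemann_le D.hF E
  have h2 := D.finrank_le E
  omega

end RedSetup

end Fermat.Agent.FlatJ
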